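/-
Program MW (S17), height part H, brick L2 "GenPos" (helper2).

PENCILS IN GENERAL POSITION.  Bivectors of `K^n` are alternating arrays `b : Fin n × Fin n → K`
(the target of `Defs7.wedge`); a pencil `(ξ, η)` of linear forms gives the decomposable 2-form
`twoForm ξ η b = ∑ ξ_i η_j b(i,j)`, with `twoForm ξ η (p ∧ q) = ξ(p) η(q) - η(p) ξ(q)`.

* `GenPos ξ η`            : every nonzero bivector is killed by fewer than `bivDim K n`
                            (`= dim Λ² K^n`) of the forms `ξ_a ∧ η_a`;
* `exists_genPos`         : for an infinite subfield `k0` of `K` and every `A` there are `A`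
                            pencils with coefficients in `k0` in general position;
* `GenPos.exists_inverse` : any `bivDim` of the forms determine a bivector linearly (certificates);
* `GenPos.exists_certificates` / `IsCert` : quantitative version at an arbitrary absolute value,
                            with constant `triC v D · M`, `M ≥ 1` a bound for the finitely many
                            certificate coefficients (so the constant is `1` at almost all places);
* `IsCert.exists_good`    : pigeonhole: with more than `m (D - 1)` pencils, one of them is good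
                            for `m` given bivectors simultaneously.
-/
import Mathlib
import Fermat.Agent.MW.Spec.Defs7

set_option autoImplicit false

namespace Fermat.Agent.MW.Local.GenPos2

open Finset Module
open Fermat.Agent.MW.Hadamard7 Fermat.Agent.MW.Spec.Defs7
open scoped Classical

noncomputable section

/-! ### Abstract part: forms in general position on a finite-dimensional space -/

section Abstract

variable {K : Type*} [Field K] {V : Type*} [AddCommGroup V] [Module K V]

/-- The common kernel of the forms `φ a`, `a ∈ S`. -/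
def kerS {A : ℕ} (φ : Fin A → Module.Dual K V) (S : Finset (Fin A)) : Submodule K V :=
  ⨅ a ∈ S, LinearMap.ker (φ a)

theorem mem_kerS {A : ℕ} (φ : Fin A → Module.Dual K V) (S : Finset (Fin A)) (b : V) :
    b ∈ kerS φ S ↔ ∀ a ∈ S, φ a b = 0 := by
  simp [kerS, Submodule.mem_iInf]

/-- The strong general position invariant: the number of forms vanishing on a nonzero subspace
`W` is at most the codimension of `W`. -/
def Inv {A : ℕ} (φ : Fin A → Module.Dual K V) : Prop :=
  ∀ W : Submodule K V, W ≠ ⊥ →
    (univ.filter fun a => W ≤ LinearMap.ker (φ a)).card + finrank K W ≤ finrank K V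

theorem inv_zero [FiniteDimensional K V] (φ : Fin 0 → Module.Dual K V) : Inv φ := by
  intro W _
  simpa using Submodule.finrank_le W

theorem card_filter_snoc {A : ℕ} {α : Type*} (φ : Fin A → α) (g : α) (P : α → Prop) :
    (univ.filter fun a : Fin (A + 1) => P (Fin.snoc (α := fun _ => α) φ g a)).card =
      (univ.filter fun a : Fin A => P (φ a)).card + if P g then 1 else 0 := by
  rw [Finset.card_filter, Finset.card_filter, Fin.sum_univ_castSucc]
  simp only [Fin.snoc_castSucc, Fin.snoc_last]

theorem inv_snoc [FiniteDimensional K V] {A : ℕ} (φ : Fin A → Module.Dual K V) (hφ : Inv φ) (g : Module.Dual K V)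
    (hg : ∀ S : Finset (Fin A), kerS φ S ≠ ⊥ → ∃ b ∈ kerS φ S, g b ≠ 0) :
    Inv (Fin.snoc (α := fun _ => Module.Dual K V) φ g) := by
  intro W hW
  rw [card_filter_snoc φ g (fun f => W ≤ LinearMap.ker f)]
  by_cases hWg : W ≤ LinearMap.ker g
  · rw [if_pos hWg]
    set S := univ.filter fun a => W ≤ LinearMap.ker (φ a) with hS
    have hWS : W ≤ kerS φ S := by
      intro w hw
      rw [mem_kerS]
      intro a ha
      have : W ≤ LinearMap.ker (φ a) := (Finset.mem_filter.mp ha).2
      exact this hw
    have hne : kerS φ S ≠ ⊥ := fun h => hW (le_bot_iff.mp (h ▸ hWS))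
    obtain ⟨b, hb, hgb⟩ := hg S hne
    have hlt : W < kerS φ S := by
      refine lt_of_le_of_ne hWS ?_
      intro h
      rw [← h] at hb
      exact hgb (hWg hb)
    have h1 := Submodule.finrank_lt_finrank_of_lt hlt
    have h2 := hφ (kerS φ S) hne
    have h3 : S.card ≤ (univ.filter fun a => kerS φ S ≤ LinearMap.ker (φ a)).card := by
      apply Finset.card_le_card
      intro a ha
      refine Finset.mem_filter.mpr ⟨Finset.mem_univ _, ?_⟩
      intro w hw
      exact (mem_kerS φ S w).mp hw a ha
    omega
  · rw [if_neg hWg, add_zero]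
    exact hφ W hW

end Abstract

/-! ### Bivectors and decomposable 2-forms -/

section Concrete

variable {K : Type*} [Field K] {n : ℕ}

/-- Bivectors: alternating arrays (the target of `Defs7.wedge`). -/
def Alt (K : Type*) [Field K] (n : ℕ) : Submodule K (Fin n × Fin n → K) where
  carrier := {b | (∀ i, b (i, i) = 0) ∧ ∀ i j, b (j, i) = -b (i, j)}
  zero_mem' := ⟨fun _ => rfl, fun _ _ => by simp⟩
  add_mem' := by
    rintro b c ⟨hb1, hb2⟩ ⟨hc1, hc2⟩
    refine ⟨fun i => ?_, fun i j => ?_⟩
    · simp [hb1 i, hc1 i]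
    · simp only [Pi.add_apply, hb2 i j, hc2 i j]
      ring
  smul_mem' := by
    rintro r b ⟨hb1, hb2⟩
    refine ⟨fun i => ?_, fun i j => ?_⟩
    · simp [hb1 i]
    · simp only [Pi.smul_apply, hb2 i j, smul_eq_mul]
      ring

theorem mem_Alt (b : Fin n × Fin n → K) :
    b ∈ Alt K n ↔ (∀ i, b (i, i) = 0) ∧ ∀ i j, b (j, i) = -b (i, j) := Iff.rfl

theorem wedge_mem_Alt (p q : Fin n → K) : wedge p q ∈ Alt K n := by
  refine ⟨fun i => ?_, fun i j => ?_⟩
  · simp only [wedge]
    ring
  · simp only [wedge]
    ring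

/-- The decomposable 2-form `ξ ∧ η` evaluated on an array. -/
def twoForm (ξ η : Fin n → K) (b : Fin n × Fin n → K) : K := ∑ i, ∑ j, ξ i * η j * b (i, j)

theorem twoForm_wedge (ξ η p q : Fin n → K) :
    twoForm ξ η (wedge p q) =
      (∑ i, ξ i * p i) * (∑ j, η j * q j) - (∑ i, η i * p i) * (∑ j, ξ j * q j) := by
  simp only [twoForm, wedge, Finset.sum_mul_sum]
  rw [Finset.sum_comm (f := fun i j => η i * p i * (ξ j * q j)), ← Finset.sum_sub_distrib]
  refine Finset.sum_congr rfl fun i _ => ?_
  rw [← Finset.sum_sub_distrib]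
  refine Finset.sum_congr rfl fun j _ => ?_
  ring

/-- `twoForm ξ η` as a linear form on arrays. -/
def twoFormLin (ξ η : Fin n → K) : (Fin n × Fin n → K) →ₗ[K] K where
  toFun := twoForm ξ η
  map_add' b c := by
    simp only [twoForm, Pi.add_apply, mul_add, Finset.sum_add_distrib]
  map_smul' r b := by
    simp only [twoForm, Pi.smul_apply, smul_eq_mul, RingHom.id_apply, Finset.mul_sum]
    refine Finset.sum_congr rfl fun i _ => Finset.sum_congr rfl fun j _ => ?_
    ring

/-- `twoForm ξ η` as a linear form on bivectors. -/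
def twoFormAlt (ξ η : Fin n → K) : Module.Dual K (Alt K n) :=
  (twoFormLin ξ η).domRestrict (Alt K n)

@[simp] theorem twoFormAlt_apply (ξ η : Fin n → K) (b : Alt K n) :
    twoFormAlt ξ η b = twoForm ξ η b.1 := rfl

/-- The dimension of the space of bivectors. -/
def bivDim (K : Type*) [Field K] (n : ℕ) : ℕ := finrank K (Alt K n)

/-- **General position** of a family of decomposable 2-forms: every nonzero bivector is killed by
fewer than `bivDim` of them. -/
def GenPos {A : ℕ} (ξ η : Fin A → Fin n → K) : Prop :=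
  ∀ b ∈ Alt K n, b ≠ 0 → (univ.filter fun a => twoForm (ξ a) (η a) b = 0).card < bivDim K n

theorem genPos_of_inv {A : ℕ} (ξ η : Fin A → Fin n → K)
    (h : Inv fun a => twoFormAlt (ξ a) (η a)) : GenPos ξ η := by
  intro b hb hb0
  have hW : (K ∙ (⟨b, hb⟩ : Alt K n)) ≠ ⊥ := by
    rw [Ne, Submodule.span_singleton_eq_bot]
    intro h0
    exact hb0 (congrArg Subtype.val h0)
  have h1 := h _ hW
  beta_reduce at h1
  rw [finrank_span_singleton (fun h0 => hb0 (congrArg Subtype.val h0))] at h1
  have h2 : (univ.filter fun a => twoForm (ξ a) (η a) b = 0) =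
      univ.filter fun a => (K ∙ (⟨b, hb⟩ : Alt K n)) ≤ LinearMap.ker (twoFormAlt (ξ a) (η a)) := by
    ext a
    simp only [Finset.mem_filter, Finset.mem_univ, true_and]
    rw [Submodule.span_singleton_le_iff_mem, LinearMap.mem_ker]
    rfl
  rw [h2]
  unfold bivDim
  omega

end Concrete

/-! ### Avoiding finitely many hyperplanes with coordinates in an infinite subfield -/

section Avoid

variable {K : Type*} [Field K] (k0 : Type*) [Field k0] [Infinite k0] [Algebra k0 K]

/-- the `k0`-linear form `x ↦ ∑ x_j c_j` on `k0^m` with coefficients `c_j ∈ K`. -/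
def dotForm {m : ℕ} (c : Fin m → K) : (Fin m → k0) →ₗ[k0] K where
  toFun x := ∑ j, algebraMap k0 K (x j) * c j
  map_add' x y := by
    simp only [Pi.add_apply, map_add, add_mul, Finset.sum_add_distrib]
  map_smul' r x := by
    simp only [Pi.smul_apply, smul_eq_mul, map_mul, RingHom.id_apply, Algebra.smul_def,
      Finset.mul_sum, mul_assoc]

/-- finitely many nonzero coefficient vectors in `K^m` are simultaneously non-orthogonal to some
vector with coordinates in the infinite subfield `k0`. -/
theorem exists_dot_ne_zero {ι : Type*} [Finite ι] {m : ℕ} (c : ι → Fin m → K)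
    (hc : ∀ s, c s ≠ 0) :
    ∃ x : Fin m → k0, ∀ s, ∑ j, algebraMap k0 K (x j) * c s j ≠ 0 := by
  have h : ∀ s, LinearMap.ker (dotForm k0 (c s)) ≠ ⊤ := by
    intro s htop
    obtain ⟨j0, hj0⟩ : ∃ j0, c s j0 ≠ 0 := by
      by_contra hcon
      push Not at hcon
      exact hc s (funext hcon)
    have hmem : (Pi.single j0 1 : Fin m → k0) ∈ LinearMap.ker (dotForm k0 (c s)) := by
      rw [htop]; trivial
    rw [LinearMap.mem_ker] at hmem
    have : dotForm k0 (c s) (Pi.single j0 1) = c s j0 := by
      show ∑ j, algebraMap k0 K ((Pi.single j0 1 : Fin m → k0) j) * c s j = c s j0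
      rw [Finset.sum_eq_single j0]
      · simp
      · intro j _ hj
        simp [Pi.single_eq_of_ne hj]
      · intro hj
        exact absurd (Finset.mem_univ j0) hj
    exact hj0 (this ▸ hmem)
  obtain ⟨x, hx⟩ := Submodule.exists_forall_notMem_of_forall_ne_top _ h
  exact ⟨x, fun s hs => hx s (LinearMap.mem_ker.mpr hs)⟩

variable {n : ℕ}

/-- finitely many nonzero arrays are simultaneously not killed by some decomposable 2-form with
coefficients in the infinite subfield `k0`. -/
theorem exists_twoForm_ne_zero {ι : Type*} [Finite ι] (b : ι → Fin n × Fin n → K)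
    (hb : ∀ s, b s ≠ 0) :
    ∃ ξ η : Fin n → k0, ∀ s,
      twoForm (fun i => algebraMap k0 K (ξ i)) (fun j => algebraMap k0 K (η j)) (b s) ≠ 0 := by
  -- a nonzero column of each array
  have hcol : ∀ s, ∃ j0, (fun i => b s (i, j0)) ≠ 0 := by
    intro s
    by_contra hcon
    push Not at hcon
    apply hb s
    funext ij
    exact congrFun (hcon ij.2) ij.1
  choose j0 hj0 using hcol
  obtain ⟨ξ, hξ⟩ := exists_dot_ne_zero k0 (fun s i => b s (i, j0 s)) hj0
  -- the rows paired with `ξ`
  have hrow : ∀ s, (fun j => ∑ i, algebraMap k0 K (ξ i) * b s (i, j)) ≠ 0 := by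
    intro s h0
    exact hξ s (congrFun h0 (j0 s))
  obtain ⟨η, hη⟩ := exists_dot_ne_zero k0 _ hrow
  refine ⟨ξ, η, fun s => ?_⟩
  have : twoForm (fun i => algebraMap k0 K (ξ i)) (fun j => algebraMap k0 K (η j)) (b s) =
      ∑ j, algebraMap k0 K (η j) * ∑ i, algebraMap k0 K (ξ i) * b s (i, j) := by
    unfold twoForm
    rw [Finset.sum_comm]
    refine Finset.sum_congr rfl fun j _ => ?_
    rw [Finset.mul_sum]
    refine Finset.sum_congr rfl fun i _ => ?_
    ring
  rw [this]
  exact hη s

end Avoid

/-! ### Existence of families in general position -/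

section Exists

variable {K : Type*} [Field K] (k0 : Type*) [Field k0] [Infinite k0] [Algebra k0 K] (n : ℕ)

/-- extension of scalars of a coefficient vector. -/
def liftVec {k0 : Type*} [Field k0] {K : Type*} [Field K] [Algebra k0 K] {n : ℕ}
    (ξ : Fin n → k0) : Fin n → K := fun i => algebraMap k0 K (ξ i)

theorem exists_inv (A : ℕ) :
    ∃ ξ η : Fin A → Fin n → k0,
      Inv fun a => twoFormAlt (K := K) (liftVec (ξ a)) (liftVec (η a)) := by
  induction A with
  | zero => exact ⟨fun a => a.elim0, fun a => a.elim0, inv_zero _⟩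
  | succ A ih =>
    obtain ⟨ξ, η, h⟩ := ih
    set φ : Fin A → Module.Dual K (Alt K n) :=
      fun a => twoFormAlt (K := K) (liftVec (ξ a)) (liftVec (η a)) with hφ
    -- a nonzero vector in each nonzero common kernel
    have hex : ∀ S : {S : Finset (Fin A) // kerS φ S ≠ ⊥},
        ∃ b : Alt K n, b ∈ kerS φ S.1 ∧ b ≠ 0 := fun S =>
      Submodule.exists_mem_ne_zero_of_ne_bot S.2
    choose bS hbS hbS0 using hex
    obtain ⟨ξ', η', hne⟩ := exists_twoForm_ne_zero (K := K) k0 (fun S => (bS S).1)
      (fun S h0 => hbS0 S (Subtype.ext h0))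
    refine ⟨Fin.snoc (α := fun _ => Fin n → k0) ξ ξ', Fin.snoc (α := fun _ => Fin n → k0) η η', ?_⟩
    have hfun : (fun a : Fin (A + 1) => twoFormAlt (K := K)
        (liftVec (Fin.snoc (α := fun _ => Fin n → k0) ξ ξ' a))
        (liftVec (Fin.snoc (α := fun _ => Fin n → k0) η η' a))) =
        Fin.snoc (α := fun _ => Module.Dual K (Alt K n)) φ
          (twoFormAlt (liftVec ξ') (liftVec η')) := by
      funext a
      refine Fin.lastCases ?_ (fun a => ?_) a
      · simp only [Fin.snoc_last]
      · simp only [Fin.snoc_castSucc, hφ]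
    rw [hfun]
    refine inv_snoc φ h _ (fun S hS => ⟨bS ⟨S, hS⟩, hbS ⟨S, hS⟩, ?_⟩)
    exact hne ⟨S, hS⟩

/-- **Existence of pencils in general position** with coefficients in an infinite subfield. -/
theorem exists_genPos (A : ℕ) :
    ∃ ξ η : Fin A → Fin n → k0,
      GenPos (K := K) (fun a => liftVec (ξ a)) (fun a => liftVec (η a)) := by
  obtain ⟨ξ, η, h⟩ := exists_inv (K := K) k0 n A
  exact ⟨ξ, η, genPos_of_inv _ _ h⟩

end Exists

/-! ### Certificates and the quantitative form -/

section Quant

variable {K : Type*} [Field K] {n A : ℕ} {ξ η : Fin A → Fin n → K}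

/-- **Certificates**: `bivDim` forms of a family in general position determine a bivector
linearly. -/
theorem GenPos.exists_inverse (h : GenPos ξ η) (S : Finset (Fin A)) (hS : S.card = bivDim K n) :
    ∃ Ψ : Fin n × Fin n → Fin A → K, ∀ b ∈ Alt K n, ∀ ij,
      b ij = ∑ a ∈ S, Ψ ij a * twoForm (ξ a) (η a) b := by
  let Φ : Alt K n →ₗ[K] (S → K) := LinearMap.pi fun a : S => twoFormAlt (ξ a) (η a)
  have hinj : Function.Injective Φ := by
    rw [← LinearMap.ker_eq_bot, Submodule.eq_bot_iff]
    intro b hb
    by_contra hb0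
    have h1 := h b.1 b.2 (fun h0 => hb0 (Subtype.ext h0))
    have h2 : S ⊆ univ.filter fun a => twoForm (ξ a) (η a) b.1 = 0 := by
      intro a ha
      refine Finset.mem_filter.mpr ⟨Finset.mem_univ _, ?_⟩
      have := congrFun (LinearMap.mem_ker.mp hb) ⟨a, ha⟩
      exact this
    have h3 := Finset.card_le_card h2
    omega
  have hdim : finrank K (Alt K n) = finrank K (S → K) := by
    rw [Module.finrank_fintype_fun_eq_card, Fintype.card_coe, hS]
    rfl
  let e : Alt K n ≃ₗ[K] (S → K) := LinearEquiv.ofInjectiveOfFinrankEq Φ hinj hdim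
  refine ⟨fun ij a => if ha : a ∈ S then
    (e.symm (fun j : S => if (⟨a, ha⟩ : S) = j then 1 else 0)).1 ij else 0, ?_⟩
  intro b hb ij
  have h1 : (⟨b, hb⟩ : Alt K n) =
      ∑ a : S, (e ⟨b, hb⟩) a • e.symm.toLinearMap (fun j : S => if a = j then 1 else 0) := by
    rw [← LinearMap.pi_apply_eq_sum_univ e.symm.toLinearMap (e ⟨b, hb⟩)]
    exact (e.symm_apply_apply _).symm
  have h2 := congrArg (fun x : Alt K n => x.1 ij) h1
  simp only at h2
  rw [h2, ← Finset.sum_coe_sort S]
  rw [Submodule.coe_sum, Finset.sum_apply]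
  refine Finset.sum_congr rfl fun a _ => ?_
  simp only [dif_pos a.2]
  simp only [Submodule.coe_smul, Pi.smul_apply, smul_eq_mul, LinearEquiv.coe_coe]
  rw [mul_comm]
  rfl

/-- the triangle inequality with the constant `triC`. -/
theorem abv_sum_le_triC (v : AbsoluteValue K ℝ) {α : Type*} (s : Finset α) (f : α → K) (B : ℝ)
    (hB0 : 0 ≤ B) (hB : ∀ a ∈ s, v (f a) ≤ B) : v (∑ a ∈ s, f a) ≤ triC v s.card * B := by
  unfold triC
  split_ifs with hna
  · rw [one_mul]
    induction s using Finset.induction_on with
    | empty => simpa using hB0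
    | insert a s ha ih =>
      rw [Finset.sum_insert ha]
      refine (hna _ _).trans (max_le (hB a (Finset.mem_insert_self a s)) ?_)
      exact ih fun x hx => hB x (Finset.mem_insert_of_mem hx)
  · refine (v.sum_le s f).trans ?_
    have := Finset.sum_le_card_nsmul s (fun a => v (f a)) B hB
    rwa [nsmul_eq_mul] at this

theorem triC_mono (v : AbsoluteValue K ℝ) {m m' : ℕ} (h : m ≤ m') : triC v m ≤ triC v m' := by
  unfold triC
  split_ifs
  · exact le_rfl
  · exact_mod_cast h

theorem triC_nonneg (v : AbsoluteValue K ℝ) (m : ℕ) : 0 ≤ triC v m := by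
  unfold triC
  split_ifs
  · exact zero_le_one
  · exact Nat.cast_nonneg m

/-- `E` is a set of certificates for the family `(ξ, η)`: at every absolute value bounded by
`M ≥ 1` on `E`, every nonzero bivector is "almost killed" (up to the constant `triC · M`) by
fewer than `bivDim` of the forms. -/
def IsCert (ξ η : Fin A → Fin n → K) (E : Finset K) : Prop :=
  ∀ (v : AbsoluteValue K ℝ) (M : ℝ), 1 ≤ M → (∀ e ∈ E, v e ≤ M) → ∀ b ∈ Alt K n, b ≠ 0 →
    (univ.filter fun a =>
      triC v (bivDim K n) * M * v (twoForm (ξ a) (η a) b) < supNorm v b).card < bivDim K n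

/-- **Quantitative general position**: finitely many certificate coefficients. -/
theorem GenPos.exists_certificates (h : GenPos ξ η) : ∃ E : Finset K, IsCert ξ η E := by
  choose Ψ hΨ using fun S : {S : Finset (Fin A) // S.card = bivDim K n} =>
    h.exists_inverse S.1 S.2
  refine ⟨Finset.univ.image fun x : {S : Finset (Fin A) // S.card = bivDim K n} ×
    (Fin n × Fin n) × Fin A => Ψ x.1 x.2.1 x.2.2, ?_⟩
  intro v M hM hE b hb hb0
  by_contra hcon
  rw [not_lt] at hcon
  obtain ⟨S, hSsub, hScard⟩ := Finset.exists_subset_card_eq hcon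
  have hrep := hΨ ⟨S, hScard⟩ b hb
  -- the sup norm is attained
  obtain ⟨ij0, hij0⟩ : ∃ ij0, b ij0 ≠ 0 := by
    by_contra hc
    push Not at hc
    exact hb0 (funext hc)
  have : Nonempty (Fin n × Fin n) := ⟨ij0⟩
  obtain ⟨ij, hij⟩ := exists_eq_ciSup_of_finite (f := fun ij => v (b ij))
  have hsup : supNorm v b = v (b ij) := hij.symm
  rcases S.eq_empty_or_nonempty with hSe | hSne
  · have := hrep ij0
    have hsum : ∑ a ∈ S, Ψ ⟨S, hScard⟩ ij0 a * twoForm (ξ a) (η a) b = 0 := by
      apply Finset.sum_eq_zero
      intro a ha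
      rw [hSe] at ha
      exact absurd ha (Finset.notMem_empty a)
    exact hij0 (this.trans hsum)
  · obtain ⟨a0, ha0, hmax⟩ := Finset.exists_max_image S
      (fun a => v (twoForm (ξ a) (η a) b)) hSne
    have hbad : triC v (bivDim K n) * M * v (twoForm (ξ a0) (η a0) b) < supNorm v b :=
      (Finset.mem_filter.mp (hSsub ha0)).2
    have hle : v (b ij) ≤ triC v S.card * (M * v (twoForm (ξ a0) (η a0) b)) := by
      rw [hrep ij]
      refine abv_sum_le_triC v S _ _ (mul_nonneg (by linarith) (v.nonneg _)) fun a ha => ?_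
      rw [map_mul]
      refine mul_le_mul (hE _ ?_) (hmax a ha) (v.nonneg _) (by linarith)
      exact Finset.mem_image.mpr ⟨(⟨S, hScard⟩, ij, a), Finset.mem_univ _, rfl⟩
    rw [hScard, ← mul_assoc, ← hsup] at hle
    exact absurd hle (not_le.mpr hbad)

/-- **Pigeonhole**: if there are more than `m (bivDim - 1)` forms, one of them is simultaneously
good for `m` given bivectors. -/
theorem IsCert.exists_good {E : Finset K} (hE : IsCert ξ η E) (v : AbsoluteValue K ℝ) (M : ℝ)
    (hM : 1 ≤ M) (hvE : ∀ e ∈ E, v e ≤ M) (m : ℕ) (b : Fin m → Fin n × Fin n → K)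
    (hb : ∀ k, b k ∈ Alt K n) (hA : m * (bivDim K n - 1) < A) :
    ∃ a : Fin A, ∀ k,
      supNorm v (b k) ≤ triC v (bivDim K n) * M * v (twoForm (ξ a) (η a) (b k)) := by
  let bad : Fin m → Finset (Fin A) := fun k => univ.filter fun a =>
    triC v (bivDim K n) * M * v (twoForm (ξ a) (η a) (b k)) < supNorm v (b k)
  have hbad : ∀ k, (bad k).card ≤ bivDim K n - 1 := by
    intro k
    by_cases hk : b k = 0
    · have : bad k = ∅ := by
        apply Finset.filter_eq_empty_iff.mpr
        intro a _
        rw [not_lt, hk]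
        refine (supNorm_le v le_rfl fun i => by simp).trans ?_
        exact mul_nonneg (mul_nonneg (triC_nonneg v _) (by linarith)) (v.nonneg _)
      rw [this]
      exact Nat.zero_le _
    · have := hE v M hM hvE (b k) (hb k) hk
      exact Nat.le_sub_one_of_lt this
  have hcard : (Finset.univ.biUnion bad).card < (Finset.univ : Finset (Fin A)).card := by
    refine lt_of_le_of_lt (Finset.card_biUnion_le.trans ?_) (by simpa using hA)
    refine (Finset.sum_le_card_nsmul _ _ _ fun k _ => hbad k).trans ?_
    simp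
  obtain ⟨a, _, ha⟩ := Finset.exists_mem_notMem_of_card_lt_card hcard
  refine ⟨a, fun k => ?_⟩
  by_contra hk
  rw [not_le] at hk
  exact ha (Finset.mem_biUnion.mpr ⟨k, Finset.mem_univ _, Finset.mem_filter.mpr
    ⟨Finset.mem_univ _, hk⟩⟩)

end Quant

end

end Fermat.Agent.MW.Local.GenPos2
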