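/-
Program MW (S17), height part H, brick L1 "LocalBasic / ChordTriangle" (helper2).

Local toolkit for one absolute value `v` on a field `K` (objects of `Spec/Defs7`, `Hadamard7`):

* `triC` : `triC_of_nonarch`, `triC_of_not_nonarch`, `one_le_triC`, `triC_pos`
  (`triC_mono`, `triC_nonneg`, `abv_sum_le_triC` are in `GenPos2`), `abv_sub_le_triC`,
  `abv_add_add_le_triC`;
* `supNorm` : `supNorm_zero`, `exists_eq_supNorm`, `supNorm_eq_zero_iff`, `supNorm_pos_iff`,
  `supNorm_smul`, `supNorm_neg`;
* `wedge` : bilinearity, antisymmetry, `wedge_triangle_identity`, `supNorm_wedge_le`;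
* `chord` : `chord_nonneg`, `chord_comm`, `chord_le`, `chord_smul_left/right` (projective
  invariance), `chord_self`, `chord_eq_zero_iff` (proportionality);
* `chord_triangle` and the literal brick `chordTriangle : Bricks7.ChordTriangle`;
* nice absolute values: `abv_natCast_le`, `abv_two_le`, `IsNiceAbs.natCast_eq`,
  `abv_natCast_le_one`.
-/
import Mathlib
import Fermat.Agent.MW.Spec.Bricks7
import Fermat.Agent.MW.Local.GenPos2

set_option autoImplicit false
set_option linter.unusedSectionVars false

namespace Fermat.Agent.MW.Local.Chord2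

open Finset
open Fermat.Agent.MW.Hadamard7 Fermat.Agent.MW.Spec.Defs7 Fermat.Agent.MW.Spec.Bricks7
open Fermat.Agent.MW.Local.GenPos2

open scoped Classical

noncomputable section

variable {K : Type*} [Field K] (v : AbsoluteValue K ℝ) {ι : Type*} [Fintype ι]

/-! ### `triC` -/

theorem triC_of_nonarch (hv : IsNonarchimedean v) (m : ℕ) : triC v m = 1 := by
  unfold triC
  rw [if_pos hv]

theorem triC_of_not_nonarch (hv : ¬ IsNonarchimedean v) (m : ℕ) : triC v m = m := by
  unfold triC
  rw [if_neg hv]

theorem one_le_triC {m : ℕ} (hm : 1 ≤ m) : 1 ≤ triC v m := by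
  unfold triC
  split_ifs
  · exact le_rfl
  · exact_mod_cast hm

theorem triC_pos {m : ℕ} (hm : 1 ≤ m) : 0 < triC v m := lt_of_lt_of_le one_pos (one_le_triC v hm)

/-- the two-term triangle inequality with `triC v 2`. -/
theorem abv_sub_le_triC (a b : K) (B : ℝ) (ha : v a ≤ B) (hb : v b ≤ B) :
    v (a - b) ≤ triC v 2 * B := by
  have hB0 : 0 ≤ B := (v.nonneg a).trans ha
  have h := abv_sum_le_triC v ({0, 1} : Finset (Fin 2)) (fun i => if i = 0 then a else -b) B hB0
    (by
      intro i _
      fin_cases i
      · simpa using ha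
      · simpa using hb)
  have hcard : ({0, 1} : Finset (Fin 2)).card = 2 := by decide
  rw [hcard] at h
  have hsum : ∑ i ∈ ({0, 1} : Finset (Fin 2)), (if i = 0 then a else -b) = a - b := by
    rw [Finset.sum_pair (by decide)]
    simp [sub_eq_add_neg]
  rwa [hsum] at h

/-- the three-term triangle inequality with `triC v 3`. -/
theorem abv_add_add_le_triC (a b c : K) (B : ℝ) (ha : v a ≤ B) (hb : v b ≤ B) (hc : v c ≤ B) :
    v (a + b + c) ≤ triC v 3 * B := by
  have hB0 : 0 ≤ B := (v.nonneg a).trans ha
  have h := abv_sum_le_triC v (Finset.univ : Finset (Fin 3)) (fun i => ![a, b, c] i) B hB0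
    (by
      intro i _
      fin_cases i
      · simpa using ha
      · simpa using hb
      · simpa using hc)
  rw [Finset.card_univ, Fintype.card_fin, Fin.sum_univ_three] at h
  simpa using h

/-! ### `supNorm` -/

theorem supNorm_zero : supNorm v (0 : ι → K) = 0 := by
  apply le_antisymm _ (supNorm_nonneg v _)
  exact supNorm_le v le_rfl fun i => by simp

theorem exists_eq_supNorm [Nonempty ι] (x : ι → K) : ∃ i, v (x i) = supNorm v x :=
  exists_eq_ciSup_of_finite (f := fun i => v (x i))

theorem supNorm_eq_zero_iff (x : ι → K) : supNorm v x = 0 ↔ x = 0 := by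
  constructor
  · intro h
    funext i
    have h1 := le_supNorm v x i
    rw [h] at h1
    exact (AbsoluteValue.eq_zero v).mp (le_antisymm h1 (v.nonneg _))
  · rintro rfl
    exact supNorm_zero v

theorem supNorm_pos_iff (x : ι → K) : 0 < supNorm v x ↔ x ≠ 0 := by
  rw [lt_iff_le_and_ne, Ne, eq_comm, supNorm_eq_zero_iff]
  exact ⟨fun h => h.2, fun h => ⟨supNorm_nonneg v x, h⟩⟩

theorem supNorm_smul (c : K) (x : ι → K) : supNorm v (c • x) = v c * supNorm v x := by
  rcases isEmpty_or_nonempty ι with hι | hι
  · have h1 : c • x = 0 := Subsingleton.elim _ _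
    have h2 : x = 0 := Subsingleton.elim _ _
    rw [h1, h2, supNorm_zero, mul_zero]
  · apply le_antisymm
    · refine supNorm_le v (mul_nonneg (v.nonneg c) (supNorm_nonneg v x)) fun i => ?_
      rw [Pi.smul_apply, smul_eq_mul, map_mul]
      exact mul_le_mul_of_nonneg_left (le_supNorm v x i) (v.nonneg c)
    · obtain ⟨i, hi⟩ := exists_eq_supNorm v x
      rw [← hi, ← map_mul]
      exact le_supNorm v (c • x) i

/-! ### `wedge` -/

theorem wedge_apply (x y : ι → K) (i j : ι) : wedge x y (i, j) = x i * y j - x j * y i := rfl

theorem wedge_antisymm (x y : ι → K) (i j : ι) : wedge x y (j, i) = -wedge x y (i, j) := by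
  simp only [wedge_apply]; ring

theorem wedge_comm (x y : ι → K) : wedge y x = -wedge x y := by
  funext ij
  simp only [wedge, Pi.neg_apply]; ring

theorem wedge_self (x : ι → K) : wedge x x = 0 := by
  funext ij
  simp only [wedge, Pi.zero_apply]; ring

theorem wedge_add_left (x x' y : ι → K) : wedge (x + x') y = wedge x y + wedge x' y := by
  funext ij
  simp only [wedge, Pi.add_apply]; ring

theorem wedge_add_right (x y y' : ι → K) : wedge x (y + y') = wedge x y + wedge x y' := by
  funext ij
  simp only [wedge, Pi.add_apply]; ring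

theorem wedge_smul_left (c : K) (x y : ι → K) : wedge (c • x) y = c • wedge x y := by
  funext ij
  simp only [wedge, Pi.smul_apply, smul_eq_mul]; ring

theorem wedge_smul_right (c : K) (x y : ι → K) : wedge x (c • y) = c • wedge x y := by
  funext ij
  simp only [wedge, Pi.smul_apply, smul_eq_mul]; ring

theorem wedge_zero_left (y : ι → K) : wedge (0 : ι → K) y = 0 := by
  funext ij
  simp [wedge]

theorem wedge_zero_right (x : ι → K) : wedge x (0 : ι → K) = 0 := by
  funext ij
  simp [wedge]

/-- the Plücker-type identity behind the chordal triangle inequality. -/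
theorem wedge_triangle_identity (p q r : ι → K) (i j k : ι) :
    q k * wedge p r (i, j) =
      wedge p q (i, k) * r j + -(wedge p q (j, k) * r i) + p k * wedge q r (i, j) := by
  simp only [wedge_apply]; ring

theorem supNorm_wedge_le (x y : ι → K) :
    supNorm v (wedge x y) ≤ triC v 2 * supNorm v x * supNorm v y := by
  refine supNorm_le v (mul_nonneg (mul_nonneg (triC_nonneg v 2) (supNorm_nonneg v x))
    (supNorm_nonneg v y)) fun ij => ?_
  rw [mul_assoc]
  refine abv_sub_le_triC v _ _ _ ?_ ?_
  · rw [map_mul]
    exact mul_le_mul (le_supNorm v x _) (le_supNorm v y _) (v.nonneg _) (supNorm_nonneg v x)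
  · rw [map_mul]
    exact mul_le_mul (le_supNorm v x _) (le_supNorm v y _) (v.nonneg _) (supNorm_nonneg v x)

theorem supNorm_neg (x : ι → K) : supNorm v (-x) = supNorm v x := by
  unfold supNorm
  simp only [Pi.neg_apply, map_neg_eq_map]

/-! ### `chord` -/

theorem chord_nonneg (x y : ι → K) : 0 ≤ chord v x y :=
  div_nonneg (supNorm_nonneg v _) (mul_nonneg (supNorm_nonneg v x) (supNorm_nonneg v y))

theorem chord_comm (x y : ι → K) : chord v x y = chord v y x := by
  unfold chord
  rw [wedge_comm x y, supNorm_neg, mul_comm]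

theorem chord_le (x y : ι → K) : chord v x y ≤ triC v 2 := by
  unfold chord
  by_cases hx : x = 0
  · rw [hx, wedge_zero_left, supNorm_zero, zero_div]
    exact triC_nonneg v 2
  by_cases hy : y = 0
  · rw [hy, wedge_zero_right, supNorm_zero, zero_div]
    exact triC_nonneg v 2
  have hpos : 0 < supNorm v x * supNorm v y :=
    mul_pos ((supNorm_pos_iff v x).mpr hx) ((supNorm_pos_iff v y).mpr hy)
  rw [div_le_iff₀ hpos, ← mul_assoc]
  exact supNorm_wedge_le v x y

theorem chord_smul_left {c : K} (hc : c ≠ 0) (x y : ι → K) : chord v (c • x) y = chord v x y := by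
  unfold chord
  rw [wedge_smul_left, supNorm_smul, supNorm_smul, mul_assoc]
  exact mul_div_mul_left _ _ (v.ne_zero hc)

theorem chord_smul_right {c : K} (hc : c ≠ 0) (x y : ι → K) : chord v x (c • y) = chord v x y := by
  rw [chord_comm, chord_smul_left v hc, chord_comm]

theorem chord_self (x : ι → K) : chord v x x = 0 := by
  unfold chord
  rw [wedge_self, supNorm_zero, zero_div]

/-- two nonzero vectors have chordal distance `0` iff they are proportional. -/
theorem chord_eq_zero_iff {x y : ι → K} (hx : x ≠ 0) (hy : y ≠ 0) :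
    chord v x y = 0 ↔ ∃ c : K, c ≠ 0 ∧ y = c • x := by
  have hpos : supNorm v x * supNorm v y ≠ 0 :=
    (mul_pos ((supNorm_pos_iff v x).mpr hx) ((supNorm_pos_iff v y).mpr hy)).ne'
  unfold chord
  rw [div_eq_zero_iff, or_iff_left hpos, supNorm_eq_zero_iff]
  constructor
  · intro hw
    obtain ⟨i0, hi0⟩ : ∃ i0, x i0 ≠ 0 := by
      by_contra hcon
      push Not at hcon
      exact hx (funext hcon)
    have hrel : ∀ j, x i0 * y j = x j * y i0 := by
      intro j
      have := congrFun hw (i0, j)
      rw [wedge_apply, Pi.zero_apply, sub_eq_zero] at this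
      exact this
    have hy0 : y i0 ≠ 0 := by
      intro h0
      apply hy
      funext j
      have := hrel j
      rw [h0, mul_zero] at this
      exact (mul_eq_zero.mp this).resolve_left hi0
    refine ⟨y i0 / x i0, div_ne_zero hy0 hi0, ?_⟩
    funext j
    rw [Pi.smul_apply, smul_eq_mul]
    field_simp
    rw [mul_comm, hrel j, mul_comm]
  · rintro ⟨c, _, rfl⟩
    rw [wedge_smul_right, wedge_self, smul_zero]

/-! ### The chordal triangle inequality -/

theorem chord_triangle (p q r : ι → K) (hp : p ≠ 0) (hq : q ≠ 0) (hr : r ≠ 0) :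
    chord v p r ≤ triC v 3 * max (chord v p q) (chord v q r) := by
  have hP := (supNorm_pos_iff v p).mpr hp
  have hQ := (supNorm_pos_iff v q).mpr hq
  have hR := (supNorm_pos_iff v r).mpr hr
  have : Nonempty ι := by
    by_contra hne
    rw [not_nonempty_iff] at hne
    exact hq (Subsingleton.elim _ _)
  obtain ⟨k, hk⟩ := exists_eq_supNorm v q
  set m := max (chord v p q) (chord v q r) with hm
  have h1 : supNorm v (wedge p q) ≤ m * (supNorm v p * supNorm v q) := by
    have : chord v p q ≤ m := le_max_left _ _
    unfold chord at this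
    rwa [div_le_iff₀ (mul_pos hP hQ)] at this
  have h2 : supNorm v (wedge q r) ≤ m * (supNorm v q * supNorm v r) := by
    have : chord v q r ≤ m := le_max_right _ _
    unfold chord at this
    rwa [div_le_iff₀ (mul_pos hQ hR)] at this
  have hm0 : 0 ≤ m := le_max_of_le_left (chord_nonneg v p q)
  -- the bound for each minor
  have hmain : supNorm v q * supNorm v (wedge p r) ≤
      triC v 3 * (m * (supNorm v p * supNorm v q * supNorm v r)) := by
    rw [← hk, ← supNorm_smul]
    have hB0 : 0 ≤ m * (supNorm v p * v (q k) * supNorm v r) := by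
      rw [hk]
      exact mul_nonneg hm0 (mul_nonneg (mul_nonneg hP.le hQ.le) hR.le)
    refine supNorm_le v (mul_nonneg (triC_nonneg v 3) hB0) fun ij => ?_
    obtain ⟨i, j⟩ := ij
    rw [Pi.smul_apply, smul_eq_mul, wedge_triangle_identity p q r i j k]
    refine abv_add_add_le_triC v _ _ _ _ ?_ ?_ ?_
    · rw [map_mul]
      calc v (wedge p q (i, k)) * v (r j)
          ≤ (m * (supNorm v p * supNorm v q)) * supNorm v r :=
            mul_le_mul ((le_supNorm v _ _).trans h1) (le_supNorm v r j) (v.nonneg _)
              (mul_nonneg hm0 (mul_nonneg hP.le hQ.le))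
        _ = m * (supNorm v p * v (q k) * supNorm v r) := by rw [hk]; ring
    · rw [map_neg_eq_map, map_mul]
      calc v (wedge p q (j, k)) * v (r i)
          ≤ (m * (supNorm v p * supNorm v q)) * supNorm v r :=
            mul_le_mul ((le_supNorm v _ _).trans h1) (le_supNorm v r i) (v.nonneg _)
              (mul_nonneg hm0 (mul_nonneg hP.le hQ.le))
        _ = m * (supNorm v p * v (q k) * supNorm v r) := by rw [hk]; ring
    · rw [map_mul]
      calc v (p k) * v (wedge q r (i, j))
          ≤ supNorm v p * (m * (supNorm v q * supNorm v r)) :=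
            mul_le_mul (le_supNorm v p k) ((le_supNorm v _ _).trans h2) (v.nonneg _) hP.le
        _ = m * (supNorm v p * v (q k) * supNorm v r) := by rw [hk]; ring
  unfold chord
  rw [div_le_iff₀ (mul_pos hP hR)]
  have h3 : supNorm v q * supNorm v (wedge p r) ≤
      supNorm v q * (triC v 3 * m * (supNorm v p * supNorm v r)) := by
    refine hmain.trans (le_of_eq ?_)
    ring
  exact le_of_mul_le_mul_left h3 hQ

/-- **Brick L1a** in the literal form of the specification. -/
theorem chordTriangle : ChordTriangle := by
  intro K _ v ι _ p q r hp hq hr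
  exact chord_triangle v p q r hp hq hr

/-! ### Nice absolute values -/

theorem abv_natCast_le (n : ℕ) : v (n : K) ≤ n := by
  induction n with
  | zero => simp
  | succ n ih =>
    rw [Nat.cast_succ, Nat.cast_succ]
    exact (v.add_le _ _).trans (add_le_add ih (le_of_eq v.map_one))

theorem abv_two_le : v (2 : K) ≤ 2 := by
  have := abv_natCast_le v 2
  simpa using this

/-- a nice absolute value is either nonarchimedean or the restriction of the complex absolute
value along an embedding (in which case it is the usual one on natural numbers). -/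
theorem IsNiceAbs.natCast_eq (hv : IsNiceAbs v) (hna : ¬ IsNonarchimedean v) (n : ℕ) :
    v (n : K) = n := by
  rcases hv with h | ⟨e, he⟩
  · exact absurd h hna
  · rw [he, map_natCast, Complex.norm_natCast]

/-- for a nonarchimedean absolute value the integers have absolute value at most `1`. -/
theorem abv_natCast_le_one (hv : IsNonarchimedean v) (n : ℕ) : v (n : K) ≤ 1 := by
  induction n with
  | zero => simp
  | succ n ih =>
    rw [Nat.cast_succ]
    exact (hv _ _).trans (max_le ih (le_of_eq v.map_one))

end

end Fermat.Agent.MW.Local.Chord2
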