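/-
Program MW-H (S17), helper86.  TOOLKIT FOR TAME CONSTANTS (`Bricks7.IsTameConst`).

A family `C : AbsoluteValue K ℝ → ℝ` is tame if `1 ≤ C v` always and `C v = 1` as soon as `v` is
nonarchimedean and takes the value `1` on a fixed finite set of nonzero numbers.

* constructors: `isTameConst_one`, `isTameConst_triC`, `isTameConst_max_one_abv`,
  `isTameConst_max_one_abv_inv`, `isTameConst_max_one_supNorm`, `isTameConst_max_one_supNorm_inv`,
  `isTameConst_natCast`;
* closure: `tame_mul`, `tame_pow`, `tame_max`, `tame_finset_prod`;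
* use: `tame_one_le`, `tame_pos`, `tame_log_nonneg`, `tame_exists_dominating` (finitely many
  tame constants are dominated by one), and for a `QbarAbs`: `tame_finite_ne_one`,
  `tame_hasFiniteSupport_log` (so that `gsum (log ∘ C ∘ abv)` is an honest finite sum);
* `TameZero f` : the quantity `f v` vanishes at every good `v` (the additive companion of
  `IsTameConst`): `tameZero_zero`, `.add`, `.sub`, `.neg`, `.const_mul`, `.finset_sum`, `.congr`,
  `tameZero_log` (log of a tame constant), `tameZero_log_abv`, `tameZero_log_supNorm`,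
  `tameZero_log_chord`, `tameZero_lamAt`, `tameZero_pairAt` (fixed places / divisors),
  `TameZero.tame_exp_abs` (`exp |f|` is a tame constant), `TameZero.hasFiniteSupport`.
-/
import Mathlib
import Fermat.Agent.MW.Spec.Bricks7
import Fermat.Agent.MW.Local.Chord2
import Fermat.Agent.MW.Global.PairBasic2

set_option autoImplicit false

namespace Fermat.Agent.MW.Local.Tame86

open Fermat.Agent.MW.Hadamard7 Fermat.Agent.MW.Spec.Defs7 Fermat.Agent.MW.Spec.Bricks7
open Fermat.Agent.MW.Local.Chord2 Fermat.Agent.MW.Global.PairBasic2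
open AlgebraicCurve

variable {K : Type*} [Field K]

/-! ### Basic consequences -/

theorem tame_one_le {C : AbsoluteValue K ℝ → ℝ} (hC : IsTameConst C)
    (v : AbsoluteValue K ℝ) : 1 ≤ C v := by
  obtain ⟨S, -, h⟩ := hC
  exact (h v).1

theorem tame_pos {C : AbsoluteValue K ℝ → ℝ} (hC : IsTameConst C)
    (v : AbsoluteValue K ℝ) : 0 < C v := lt_of_lt_of_le one_pos (tame_one_le hC v)

theorem tame_log_nonneg {C : AbsoluteValue K ℝ → ℝ} (hC : IsTameConst C)
    (v : AbsoluteValue K ℝ) : 0 ≤ Real.log (C v) := Real.log_nonneg (tame_one_le hC v)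

/-! ### Constructors -/

theorem isTameConst_one : IsTameConst (fun _ : AbsoluteValue K ℝ => (1 : ℝ)) :=
  ⟨∅, by simp, fun _ => ⟨le_rfl, fun _ _ => rfl⟩⟩

theorem isTameConst_triC {m : ℕ} (hm : 1 ≤ m) :
    IsTameConst (fun v : AbsoluteValue K ℝ => triC v m) :=
  ⟨∅, by simp, fun v => ⟨one_le_triC v hm, fun hv _ => triC_of_nonarch v hv m⟩⟩

theorem isTameConst_max_one_abv (a : K) :
    IsTameConst (fun v : AbsoluteValue K ℝ => max 1 (v a)) := by
  classical
  by_cases ha : a = 0
  · subst ha
    refine ⟨∅, by simp, fun v => ⟨le_max_left _ _, fun _ _ => ?_⟩⟩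
    simp
  · refine ⟨{a}, by simpa using ha, fun v => ⟨le_max_left _ _, fun _ h => ?_⟩⟩
    have := h a (by simp)
    simp [this]

theorem isTameConst_max_one_abv_inv (a : K) :
    IsTameConst (fun v : AbsoluteValue K ℝ => max 1 (v a)⁻¹) := by
  classical
  by_cases ha : a = 0
  · subst ha
    refine ⟨∅, by simp, fun v => ⟨le_max_left _ _, fun _ _ => ?_⟩⟩
    simp
  · refine ⟨{a}, by simpa using ha, fun v => ⟨le_max_left _ _, fun _ h => ?_⟩⟩
    have := h a (by simp)
    simp [this]

/-- For a nonarchimedean `v` taking the value `1` at all nonzero entries of `w ≠ 0`, the sup norm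
of `w` is `1`. -/
theorem supNorm_eq_one {ι : Type*} [Fintype ι] (v : AbsoluteValue K ℝ) (w : ι → K) (hw : w ≠ 0)
    (h : ∀ i, w i ≠ 0 → v (w i) = 1) : supNorm v w = 1 := by
  classical
  apply le_antisymm
  · refine supNorm_le v zero_le_one fun i => ?_
    by_cases hi : w i = 0
    · rw [hi, map_zero]; exact zero_le_one
    · exact le_of_eq (h i hi)
  · obtain ⟨i, hi⟩ : ∃ i, w i ≠ 0 := by
      by_contra hcon
      push Not at hcon
      exact hw (funext hcon)
    rw [← h i hi]
    exact le_supNorm v w i

theorem isTameConst_max_one_supNorm {ι : Type*} [Fintype ι] (w : ι → K) :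
    IsTameConst (fun v : AbsoluteValue K ℝ => max 1 (supNorm v w)) := by
  classical
  refine ⟨(Finset.univ.image w).filter (· ≠ 0), ?_, fun v => ⟨le_max_left _ _, fun _ h => ?_⟩⟩
  · intro a ha
    exact (Finset.mem_filter.mp ha).2
  · by_cases hw : w = 0
    · subst hw
      beta_reduce
      rw [supNorm_zero]
      simp
    · have : supNorm v w = 1 := supNorm_eq_one v w hw fun i hi =>
        h (w i) (Finset.mem_filter.mpr ⟨Finset.mem_image_of_mem w (Finset.mem_univ i), hi⟩)
      beta_reduce
      rw [this, max_self]

theorem isTameConst_max_one_supNorm_inv {ι : Type*} [Fintype ι] (w : ι → K) :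
    IsTameConst (fun v : AbsoluteValue K ℝ => max 1 (supNorm v w)⁻¹) := by
  classical
  refine ⟨(Finset.univ.image w).filter (· ≠ 0), ?_, fun v => ⟨le_max_left _ _, fun _ h => ?_⟩⟩
  · intro a ha
    exact (Finset.mem_filter.mp ha).2
  · by_cases hw : w = 0
    · subst hw
      beta_reduce
      rw [supNorm_zero]
      simp
    · have : supNorm v w = 1 := supNorm_eq_one v w hw fun i hi =>
        h (w i) (Finset.mem_filter.mpr ⟨Finset.mem_image_of_mem w (Finset.mem_univ i), hi⟩)
      beta_reduce
      rw [this, inv_one, max_self]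

/-! ### Closure properties -/

theorem tame_mul {C C' : AbsoluteValue K ℝ → ℝ} (hC : IsTameConst C)
    (hC' : IsTameConst C') : IsTameConst (fun v => C v * C' v) := by
  classical
  obtain ⟨S, hS, h⟩ := hC
  obtain ⟨S', hS', h'⟩ := hC'
  refine ⟨S ∪ S', ?_, fun v => ⟨?_, fun hv hall => ?_⟩⟩
  · intro a ha
    rcases Finset.mem_union.mp ha with ha | ha
    · exact hS a ha
    · exact hS' a ha
  · have h1 := (h v).1
    have h2 := (h' v).1
    nlinarith
  · beta_reduce
    rw [(h v).2 hv fun a ha => hall a (Finset.mem_union_left _ ha),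
      (h' v).2 hv fun a ha => hall a (Finset.mem_union_right _ ha), one_mul]

theorem tame_max {C C' : AbsoluteValue K ℝ → ℝ} (hC : IsTameConst C)
    (hC' : IsTameConst C') : IsTameConst (fun v => max (C v) (C' v)) := by
  classical
  obtain ⟨S, hS, h⟩ := hC
  obtain ⟨S', hS', h'⟩ := hC'
  refine ⟨S ∪ S', ?_, fun v => ⟨?_, fun hv hall => ?_⟩⟩
  · intro a ha
    rcases Finset.mem_union.mp ha with ha | ha
    · exact hS a ha
    · exact hS' a ha
  · exact le_max_of_le_left (h v).1
  · beta_reduce
    rw [(h v).2 hv fun a ha => hall a (Finset.mem_union_left _ ha),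
      (h' v).2 hv fun a ha => hall a (Finset.mem_union_right _ ha), max_self]

theorem tame_pow {C : AbsoluteValue K ℝ → ℝ} (hC : IsTameConst C) (n : ℕ) :
    IsTameConst (fun v => C v ^ n) := by
  induction n with
  | zero => simpa using isTameConst_one (K := K)
  | succ n ih =>
    have := tame_mul ih hC
    simpa [pow_succ] using this

theorem tame_finset_prod {ι : Type*} (s : Finset ι) (C : ι → AbsoluteValue K ℝ → ℝ)
    (hC : ∀ i ∈ s, IsTameConst (C i)) : IsTameConst (fun v => ∏ i ∈ s, C i v) := by
  classical
  induction s using Finset.induction_on with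
  | empty => simpa using isTameConst_one (K := K)
  | insert a s ha ih =>
    have h1 := hC a (Finset.mem_insert_self a s)
    have h2 := ih fun i hi => hC i (Finset.mem_insert_of_mem hi)
    have := tame_mul h1 h2
    refine (by
      convert this using 2
      rw [Finset.prod_insert ha])

/-- Finitely many tame constants are dominated by a single one (their product). -/
theorem tame_exists_dominating {ι : Type*} (s : Finset ι)
    (C : ι → AbsoluteValue K ℝ → ℝ) (hC : ∀ i ∈ s, IsTameConst (C i)) :
    ∃ C' : AbsoluteValue K ℝ → ℝ, IsTameConst C' ∧ ∀ i ∈ s, ∀ v, C i v ≤ C' v := by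
  classical
  refine ⟨fun v => ∏ i ∈ s, C i v, tame_finset_prod s C hC, fun i hi v => ?_⟩
  beta_reduce
  rw [← Finset.mul_prod_erase s (fun i => C i v) hi]
  have h1 : 1 ≤ ∏ j ∈ s.erase i, C j v := by
    refine Finset.prod_induction (fun j => C j v) (fun x => 1 ≤ x)
      (fun a b ha hb => one_le_mul_of_one_le_of_one_le ha hb) le_rfl fun j hj => ?_
    exact tame_one_le (hC j (Finset.mem_of_mem_erase hj)) v
  have h0 : 0 ≤ C i v := le_trans zero_le_one (tame_one_le (hC i hi) v)
  nlinarith

/-- The constant `n` (`n ≥ 1`) at archimedean places and `1` at nonarchimedean ones is `triC`;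
a plain natural number, as a constant, is dominated by a tame constant only through `triC`.
This lemma records `triC v n ≤ n`. -/
theorem triC_le_natCast (v : AbsoluteValue K ℝ) {n : ℕ} (hn : 1 ≤ n) : triC v n ≤ n := by
  unfold triC
  split_ifs
  · exact_mod_cast hn
  · exact le_rfl


/-! ### Local quantities vanishing at almost all places -/

/-- A real quantity depending on the absolute value which vanishes as soon as `v` is
nonarchimedean and takes the value `1` on a fixed finite set of nonzero numbers. -/
def TameZero (f : AbsoluteValue K ℝ → ℝ) : Prop :=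
  ∃ S : Finset K, (∀ a ∈ S, a ≠ 0) ∧ ∀ v : AbsoluteValue K ℝ,
    IsNonarchimedean v → (∀ a ∈ S, v a = 1) → f v = 0

theorem tameZero_zero : TameZero (fun _ : AbsoluteValue K ℝ => (0 : ℝ)) :=
  ⟨∅, by simp, fun _ _ _ => rfl⟩

theorem TameZero.add {f g : AbsoluteValue K ℝ → ℝ} (hf : TameZero f) (hg : TameZero g) :
    TameZero (fun v => f v + g v) := by
  classical
  obtain ⟨S, hS, h⟩ := hf
  obtain ⟨S', hS', h'⟩ := hg
  refine ⟨S ∪ S', ?_, fun v hv hall => ?_⟩
  · intro a ha
    rcases Finset.mem_union.mp ha with ha | ha
    · exact hS a ha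
    · exact hS' a ha
  · beta_reduce
    rw [h v hv fun a ha => hall a (Finset.mem_union_left _ ha),
      h' v hv fun a ha => hall a (Finset.mem_union_right _ ha), add_zero]

theorem TameZero.const_mul {f : AbsoluteValue K ℝ → ℝ} (hf : TameZero f) (c : ℝ) :
    TameZero (fun v => c * f v) := by
  obtain ⟨S, hS, h⟩ := hf
  refine ⟨S, hS, fun v hv hall => ?_⟩
  beta_reduce
  rw [h v hv hall, mul_zero]

theorem TameZero.neg {f : AbsoluteValue K ℝ → ℝ} (hf : TameZero f) :
    TameZero (fun v => -f v) := by
  have := hf.const_mul (-1)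
  simpa using this

theorem TameZero.sub {f g : AbsoluteValue K ℝ → ℝ} (hf : TameZero f) (hg : TameZero g) :
    TameZero (fun v => f v - g v) := by
  have := hf.add hg.neg
  simpa [sub_eq_add_neg] using this

theorem TameZero.finset_sum {ι : Type*} (s : Finset ι) (f : ι → AbsoluteValue K ℝ → ℝ)
    (hf : ∀ i ∈ s, TameZero (f i)) : TameZero (fun v => ∑ i ∈ s, f i v) := by
  classical
  induction s using Finset.induction_on with
  | empty => simpa using tameZero_zero (K := K)
  | insert a s ha ih =>
    have h1 := hf a (Finset.mem_insert_self a s)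
    have h2 := ih fun i hi => hf i (Finset.mem_insert_of_mem hi)
    have := h1.add h2
    refine (by
      convert this using 2
      rw [Finset.sum_insert ha])

theorem TameZero.congr {f g : AbsoluteValue K ℝ → ℝ} (hf : TameZero f) (h : ∀ v, g v = f v) :
    TameZero g := by
  have : g = f := funext h
  rw [this]
  exact hf

/-- `exp |f|` is a tame constant. -/
theorem TameZero.tame_exp_abs {f : AbsoluteValue K ℝ → ℝ} (hf : TameZero f) :
    IsTameConst (fun v => Real.exp |f v|) := by
  obtain ⟨S, hS, h⟩ := hf
  refine ⟨S, hS, fun v => ⟨?_, fun hv hall => ?_⟩⟩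
  · exact Real.one_le_exp (abs_nonneg _)
  · beta_reduce
    rw [h v hv hall, abs_zero, Real.exp_zero]

/-- The logarithm of a tame constant. -/
theorem tameZero_log {C : AbsoluteValue K ℝ → ℝ} (hC : IsTameConst C) :
    TameZero (fun v => Real.log (C v)) := by
  obtain ⟨S, hS, h⟩ := hC
  refine ⟨S, hS, fun v hv hall => ?_⟩
  beta_reduce
  rw [(h v).2 hv hall, Real.log_one]

theorem tameZero_log_abv (a : K) : TameZero (fun v : AbsoluteValue K ℝ => Real.log (v a)) := by
  classical
  by_cases ha : a = 0
  · subst ha
    refine ⟨∅, by simp, fun v _ _ => ?_⟩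
    simp
  · refine ⟨{a}, by simpa using ha, fun v _ h => ?_⟩
    beta_reduce
    rw [h a (by simp), Real.log_one]

/-- The nonzero entries of a vector. -/
noncomputable def entries {ι : Type*} [Fintype ι] (w : ι → K) : Finset K := by
  classical
  exact (Finset.univ.image w).filter (· ≠ 0)

theorem entries_ne_zero {ι : Type*} [Fintype ι] (w : ι → K) : ∀ a ∈ entries w, a ≠ 0 := by
  classical
  intro a ha
  unfold entries at ha
  exact (Finset.mem_filter.mp ha).2

theorem mem_entries {ι : Type*} [Fintype ι] (w : ι → K) (i : ι) (hi : w i ≠ 0) :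
    w i ∈ entries w := by
  classical
  unfold entries
  exact Finset.mem_filter.mpr ⟨Finset.mem_image_of_mem w (Finset.mem_univ i), hi⟩

/-- At a good absolute value the sup norm of a fixed vector is `0` or `1`. -/
theorem supNorm_eq_zero_or_one {ι : Type*} [Fintype ι] (v : AbsoluteValue K ℝ) (w : ι → K)
    (h : ∀ a ∈ entries w, v a = 1) : supNorm v w = 0 ∨ supNorm v w = 1 := by
  by_cases hw : w = 0
  · left
    rw [hw, supNorm_zero]
  · right
    exact supNorm_eq_one v w hw fun i hi => h (w i) (mem_entries w i hi)

theorem tameZero_log_supNorm {ι : Type*} [Fintype ι] (w : ι → K) :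
    TameZero (fun v : AbsoluteValue K ℝ => Real.log (supNorm v w)) := by
  refine ⟨entries w, entries_ne_zero w, fun v _ h => ?_⟩
  beta_reduce
  rcases supNorm_eq_zero_or_one v w h with h0 | h1
  · rw [h0, Real.log_zero]
  · rw [h1, Real.log_one]

theorem tameZero_log_chord {ι : Type*} [Fintype ι] (p q : ι → K) :
    TameZero (fun v : AbsoluteValue K ℝ => Real.log (chord v p q)) := by
  classical
  refine ⟨entries (wedge p q) ∪ (entries p ∪ entries q), ?_, fun v _ h => ?_⟩
  · intro a ha
    rcases Finset.mem_union.mp ha with ha | ha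
    · exact entries_ne_zero _ a ha
    · rcases Finset.mem_union.mp ha with ha | ha
      · exact entries_ne_zero _ a ha
      · exact entries_ne_zero _ a ha
  · beta_reduce
    unfold chord
    exact log_div_mul_eq_zero
      (supNorm_eq_zero_or_one v _ fun a ha => h a (Finset.mem_union_left _ ha))
      (supNorm_eq_zero_or_one v _ fun a ha =>
        h a (Finset.mem_union_right _ (Finset.mem_union_left _ ha)))
      (supNorm_eq_zero_or_one v _ fun a ha =>
        h a (Finset.mem_union_right _ (Finset.mem_union_right _ ha)))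

section Curve

variable {F : Type*} [Field F] [Algebra K F] {n : ℕ}

/-- The local pair function of two fixed places vanishes at almost all absolute values. -/
theorem tameZero_lamAt (x : Fin (n + 1) → F) (t : Place K F → F) (P Q : Place K F) :
    TameZero (fun v : AbsoluteValue K ℝ => lamAt v x t P Q) := by
  classical
  by_cases hPQ : P = Q
  · subst hPQ
    refine ⟨entries (wedge (coordAt P (t P) x) (tangAt P (t P) x)) ∪
      entries (coordAt P (t P) x), ?_, fun v _ h => ?_⟩
    · intro a ha
      rcases Finset.mem_union.mp ha with ha | ha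
      · exact entries_ne_zero _ a ha
      · exact entries_ne_zero _ a ha
    · beta_reduce
      rw [lamAt_self, pow_two, log_div_mul_eq_zero
        (supNorm_eq_zero_or_one v _ fun a ha => h a (Finset.mem_union_left _ ha))
        (supNorm_eq_zero_or_one v _ fun a ha => h a (Finset.mem_union_right _ ha))
        (supNorm_eq_zero_or_one v _ fun a ha => h a (Finset.mem_union_right _ ha)), neg_zero]
  · refine (tameZero_log_chord (coordAt P (t P) x) (coordAt Q (t Q) x)).neg.congr fun v => ?_
    rw [lamAt_of_ne v x t hPQ]

/-- The local pairing of two fixed divisors vanishes at almost all absolute values. -/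
theorem tameZero_pairAt (x : Fin (n + 1) → F) (t : Place K F → F) (D E : Divisor K F) :
    TameZero (fun v : AbsoluteValue K ℝ => pairAt v x t D E) := by
  have : TameZero (fun v : AbsoluteValue K ℝ =>
      ∑ P ∈ D.support, ∑ Q ∈ E.support, (D P : ℝ) * (E Q : ℝ) * lamAt v x t P Q) :=
    TameZero.finset_sum _ _ fun P _ => TameZero.finset_sum _ _ fun Q _ =>
      (tameZero_lamAt x t P Q).const_mul _
  exact this.congr fun v => pairAt_eq_sum v x t D E

end Curve

/-! ### Tame constants along a `QbarAbs` -/

section Qbar

variable [CharZero K] (A : QbarAbs K)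

/-- A tame constant is `1` at almost all places of a `QbarAbs`. -/
theorem tame_finite_ne_one {C : AbsoluteValue K ℝ → ℝ} (hC : IsTameConst C) :
    {p : Option Nat.Primes | C (A.abv p) ≠ 1}.Finite := by
  classical
  obtain ⟨S, hS, h⟩ := hC
  have hfin : (⋃ a ∈ S, {p : Nat.Primes | A.fin p a ≠ 1}).Finite :=
    Set.Finite.biUnion S.finite_toSet fun a ha => A.finite_ne_one a (hS a ha)
  have hsub : {p : Option Nat.Primes | C (A.abv p) ≠ 1} ⊆
      insert none (some '' (⋃ a ∈ S, {p : Nat.Primes | A.fin p a ≠ 1})) := by
    intro p hp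
    cases p with
    | none => exact Set.mem_insert _ _
    | some q =>
      right
      refine ⟨q, ?_, rfl⟩
      by_contra hq
      apply hp
      apply (h (A.abv (some q))).2 (A.fin_nonarch q)
      intro a ha
      by_contra hne
      apply hq
      simp only [Set.mem_iUnion, Set.mem_ofPred_eq]
      exact ⟨a, ha, hne⟩
  exact ((hfin.image some).insert none).subset hsub

theorem tame_hasFiniteSupport_log {C : AbsoluteValue K ℝ → ℝ} (hC : IsTameConst C) :
    (Function.support fun p : Option Nat.Primes => Real.log (C (A.abv p))).Finite := by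
  refine (tame_finite_ne_one A hC).subset fun p hp => ?_
  intro h1
  apply hp
  show Real.log (C (A.abv p)) = 0
  rw [h1, Real.log_one]

/-- A tame-zero quantity has finite support along a `QbarAbs`. -/
theorem TameZero.hasFiniteSupport {f : AbsoluteValue K ℝ → ℝ} (hf : TameZero f) :
    (Function.support fun p : Option Nat.Primes => f (A.abv p)).Finite := by
  have h := tame_hasFiniteSupport_log A hf.tame_exp_abs
  refine h.subset fun p hp => ?_
  intro h0
  apply hp
  have h0' : Real.log (Real.exp |f (A.abv p)|) = 0 := h0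
  rw [Real.log_exp] at h0'
  exact abs_eq_zero.mp h0'

end Qbar

end Fermat.Agent.MW.Local.Tame86
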