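/-
Program MW (S17), height part H, brick L2 (helper80): PENCILS IN GENERAL POSITION.

For the uniform decomposition theorem one uses a finite family of pencils `(ξ_a, η_a)` of linear
forms on `K^n` such that any `D = C(n,2)` of the `2`-forms `ω_a = ξ_a ∧ η_a` are linearly
independent on bivectors.  Then every nonzero bivector is killed by fewer than `D` of the `ω_a`,
and quantitatively `‖w‖ ≤ C · max_{a ∈ S} |ω_a(w)|` for every `D`-subset `S`; a pigeonhole argument
gives, for finitely many bivectors at once, one pencil which is good for all of them.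

Bivectors are indexed by ordered pairs `i < j` (`Pairs n`), so that `D` independent forms are a
basis and the inverse matrix gives the constant.  The family is constructed over an arbitrary
infinite field `k₀` (think `ℚ`) together with the inverse matrices (`PencilFamily`), and used over
any field `K` with a ring homomorphism `k₀ →+* K`; the constants are explicit in the entries of
the inverse matrices, so that they equal `1` at almost all places.
-/
import Mathlib
import Fermat.Agent.MW.Hadamard7
import Fermat.Agent.MW.Spec.Defs7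

set_option autoImplicit false

namespace Fermat.Agent.MW.Local.GenPos80

open Fermat.Agent.MW.Hadamard7 Fermat.Agent.MW.Spec.Defs7
open Finset

/-- Ordered pairs `i < j` of indices: the index set of bivectors in `K^n`. -/
abbrev Pairs (n : ℕ) := {p : Fin n × Fin n // p.1 < p.2}

section Algebra

variable {K : Type*} [CommRing K] {n : ℕ}

/-- The Plücker coordinates (`2 × 2` minors, `i < j`) of two vectors. -/
def wedgeP (x y : Fin n → K) : Pairs n → K := fun p => x p.1.1 * y p.1.2 - x p.1.2 * y p.1.1

/-- The pairing of the `2`-form `ξ ∧ η` with a bivector `w`. -/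
def omega (ξ η : Fin n → K) (w : Pairs n → K) : K := ∑ p, wedgeP ξ η p * w p

theorem wedgeP_add_left (x x' y : Fin n → K) : wedgeP (x + x') y = wedgeP x y + wedgeP x' y := by
  funext p; simp only [wedgeP, Pi.add_apply]; ring

theorem wedgeP_add_right (x y y' : Fin n → K) : wedgeP x (y + y') = wedgeP x y + wedgeP x y' := by
  funext p; simp only [wedgeP, Pi.add_apply]; ring

theorem wedgeP_smul_left (c : K) (x y : Fin n → K) : wedgeP (c • x) y = c • wedgeP x y := by
  funext p; simp only [wedgeP, Pi.smul_apply, smul_eq_mul]; ring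

theorem wedgeP_smul_right (c : K) (x y : Fin n → K) : wedgeP x (c • y) = c • wedgeP x y := by
  funext p; simp only [wedgeP, Pi.smul_apply, smul_eq_mul]; ring

/-- `η ↦ ξ ∧ η` as a linear map. -/
def wedgeL (ξ : Fin n → K) : (Fin n → K) →ₗ[K] (Pairs n → K) where
  toFun η := wedgeP ξ η
  map_add' := wedgeP_add_right ξ
  map_smul' c η := wedgeP_smul_right c ξ η

/-- `ξ ↦ ξ ∧ η` as a linear map. -/
def wedgeR (η : Fin n → K) : (Fin n → K) →ₗ[K] (Pairs n → K) where
  toFun ξ := wedgeP ξ η
  map_add' ξ ξ' := wedgeP_add_left ξ ξ' η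
  map_smul' c ξ := wedgeP_smul_left c ξ η

@[simp] theorem wedgeL_apply (ξ η : Fin n → K) : wedgeL ξ η = wedgeP ξ η := rfl
@[simp] theorem wedgeR_apply (ξ η : Fin n → K) : wedgeR η ξ = wedgeP ξ η := rfl

/-- Ring homomorphisms commute with `wedgeP`. -/
theorem map_wedgeP {L : Type*} [CommRing L] (f : K →+* L) (x y : Fin n → K) (p : Pairs n) :
    f (wedgeP x y p) = wedgeP (fun i => f (x i)) (fun i => f (y i)) p := by
  simp only [wedgeP, map_sub, map_mul]

/-- The decomposable bivector `e_a ∧ e_b` (`a < b`) is the standard basis vector. -/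
theorem wedgeP_single (a b : Fin n) (hab : a < b) :
    wedgeP (Pi.single a (1 : K)) (Pi.single b 1) = Pi.single (⟨(a, b), hab⟩ : Pairs n) 1 := by
  funext p
  obtain ⟨⟨i, j⟩, hij⟩ := p
  have hij' : i < j := hij
  simp only [wedgeP]
  by_cases h : i = a ∧ j = b
  · obtain ⟨rfl, rfl⟩ := h
    have hne : j ≠ i := (ne_of_lt hij').symm
    simp [hne]
  · have h2 : (⟨(i, j), hij⟩ : Pairs n) ≠ ⟨(a, b), hab⟩ := by
      intro he
      have := congrArg Subtype.val he
      simp only [Prod.mk.injEq] at this
      exact h this
    rw [Pi.single_eq_of_ne h2]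
    by_cases hi : i = a
    · have hj : j ≠ b := fun hj => h ⟨hi, hj⟩
      subst hi
      have hji : j ≠ i := (ne_of_lt hij').symm
      rw [Pi.single_eq_of_ne hj, Pi.single_eq_of_ne hji]
      ring
    · rw [Pi.single_eq_of_ne hi]
      by_cases hj : j = a
      · subst hj
        have hib : i ≠ b := by
          intro hib
          subst hib
          exact absurd (lt_trans hij' hab) (lt_irrefl _)
        rw [Pi.single_eq_of_ne hib]
        ring
      · rw [Pi.single_eq_of_ne hj]
        ring

end Algebra

/-! ### Counting and splitting double sums -/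

/-- The number of bivector coordinates. -/
theorem card_pairs (n : ℕ) : Fintype.card (Pairs n) = n.choose 2 := by
  classical
  rw [Fintype.card_subtype]
  have h1 : (Finset.univ.filter fun p : Fin n × Fin n => p.1 < p.2).card
      = ∑ j : Fin n, (Finset.univ.filter fun i : Fin n => i < j).card := by
    rw [Finset.card_filter, Fintype.sum_prod_type_right]
    refine Finset.sum_congr rfl fun j _ => ?_
    rw [Finset.card_filter]
  rw [h1]
  have h2 : ∀ j : Fin n, (Finset.univ.filter fun i : Fin n => i < j).card = (j : ℕ) := by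
    intro j
    have : (Finset.univ.filter fun i : Fin n => i < j) = Finset.Iio j := by
      ext i; simp
    rw [this, Fin.card_Iio]
  rw [Finset.sum_congr rfl fun j _ => h2 j, Fin.sum_univ_eq_sum_range (fun i => i) n,
    Finset.sum_range_id, Nat.choose_two_right]

section Split

variable {n : ℕ}

/-- Splitting a double sum over `Fin n × Fin n` into `i < j`, `j < i` and the diagonal. -/
theorem sum_sum_eq_sum_pairs {M : Type*} [AddCommMonoid M] (g : Fin n → Fin n → M) :
    ∑ i, ∑ j, g i j = ∑ p : Pairs n, (g p.1.1 p.1.2 + g p.1.2 p.1.1) + ∑ i, g i i := by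
  classical
  have h1 : ∀ i j, g i j = (if i < j then g i j else 0) +
      ((if j < i then g i j else 0) + (if i = j then g i j else 0)) := by
    intro i j
    rcases lt_trichotomy i j with h | h | h
    · simp [h, not_lt_of_gt h, ne_of_lt h]
    · subst h; simp
    · simp [h, not_lt_of_gt h, ne_of_gt h]
  have hP : ∀ G : Fin n → Fin n → M, (∑ i, ∑ j, if i < j then G i j else 0)
      = ∑ p : Pairs n, G p.1.1 p.1.2 := by
    intro G
    rw [← Fintype.sum_prod_type' (f := fun i j => if i < j then G i j else 0),
      ← Finset.sum_filter]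
    exact Finset.sum_subtype _ (by simp) _
  calc ∑ i, ∑ j, g i j
      = ∑ i, ∑ j, ((if i < j then g i j else 0) +
          ((if j < i then g i j else 0) + (if i = j then g i j else 0))) :=
        Finset.sum_congr rfl fun i _ => Finset.sum_congr rfl fun j _ => h1 i j
    _ = (∑ i, ∑ j, if i < j then g i j else 0) + ((∑ i, ∑ j, if j < i then g i j else 0)
          + ∑ i, ∑ j, if i = j then g i j else 0) := by
        simp only [Finset.sum_add_distrib]
    _ = ∑ p : Pairs n, g p.1.1 p.1.2 + (∑ p : Pairs n, g p.1.2 p.1.1 + ∑ i, g i i) := by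
        congr 1
        · exact hP g
        congr 1
        · rw [Finset.sum_comm]
          exact hP fun i j => g j i
        · simp
    _ = _ := by rw [Finset.sum_add_distrib]; abel

end Split



/-! ### Existence of pencils in general position over an infinite field -/

section Exists

variable {k : Type*} [Field k] [Infinite k] {n : ℕ}

/-- A vector space over an infinite field is not a finite union of proper subspaces. -/
theorem exists_notMem_of_ne_top {E : Type*} [AddCommGroup E] [Module k E] {ι : Type*} [Finite ι]
    (p : ι → Subspace k E) (hp : ∀ i, p i ≠ ⊤) : ∃ x : E, ∀ i, x ∉ p i := by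
  by_contra hcon
  push Not at hcon
  have hcov : ⋃ i, (p i : Set E) = Set.univ := by
    ext x
    simp only [Set.mem_iUnion, SetLike.mem_coe, Set.mem_univ, iff_true]
    exact hcon x
  obtain ⟨i, hi⟩ := Subspace.exists_eq_top_of_iUnion_eq_univ hcov
  exact hp i hi

omit [Infinite k] in
/-- A subspace of bivectors containing all decomposable bivectors is everything. -/
theorem eq_top_of_forall_wedgeP_mem (W : Subspace k (Pairs n → k))
    (h : ∀ ξ η : Fin n → k, wedgeP ξ η ∈ W) : W = ⊤ := by
  rw [eq_top_iff]
  intro w _
  have hw : w = ∑ p : Pairs n, w p • (Pi.single p (1 : k) : Pairs n → k) := by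
    funext q
    simp [Finset.sum_apply, Pi.single_apply]
  rw [hw]
  refine Submodule.sum_mem _ fun p _ => Submodule.smul_mem _ _ ?_
  obtain ⟨⟨a, b⟩, hab⟩ := p
  rw [← wedgeP_single a b hab]
  exact h _ _

/-- Given finitely many proper subspaces of the space of bivectors, there is a decomposable
bivector `ξ ∧ η` outside all of them.  (Two linear choices: first `ξ`, then `η`.) -/
theorem exists_wedgeP_notMem {ι : Type*} [Finite ι] (W : ι → Subspace k (Pairs n → k))
    (hW : ∀ i, W i ≠ ⊤) : ∃ ξ η : Fin n → k, ∀ i, wedgeP ξ η ∉ W i := by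
  classical
  -- first choice: `ξ` such that `ξ ∧ ·` does not map everything into `W i`
  let N : ι → Subspace k (Fin n → k) := fun i => ⨅ η : Fin n → k, (W i).comap (wedgeR η)
  have hN : ∀ i, N i ≠ ⊤ := by
    intro i hi
    apply hW i
    apply eq_top_of_forall_wedgeP_mem
    intro ξ η
    have hξ : ξ ∈ N i := by rw [hi]; trivial
    have := (Submodule.mem_iInf _).mp hξ η
    simpa using this
  obtain ⟨ξ, hξ⟩ := exists_notMem_of_ne_top N hN
  -- second choice: `η`
  let M : ι → Subspace k (Fin n → k) := fun i => (W i).comap (wedgeL ξ)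
  have hM : ∀ i, M i ≠ ⊤ := by
    intro i hi
    apply hξ i
    rw [Submodule.mem_iInf]
    intro η
    have hη : η ∈ M i := by rw [hi]; trivial
    simpa [M] using hη
  obtain ⟨η, hη⟩ := exists_notMem_of_ne_top M hM
  exact ⟨ξ, η, fun i h => hη i (by simpa [M] using h)⟩


/-- Strong general position: any at most `D = card (Pairs n)` of the vectors are independent. -/
def StrongGenPos {A : ℕ} (ω : Fin A → Pairs n → k) : Prop :=
  ∀ S : Finset (Fin A), S.card ≤ Fintype.card (Pairs n) → LinearIndepOn k ω (S : Set (Fin A))

omit [Infinite k] in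
theorem span_image_ne_top {A : ℕ} (ω : Fin A → Pairs n → k) (S : Finset (Fin A))
    (hS : S.card < Fintype.card (Pairs n)) :
    Submodule.span k (ω '' (S : Set (Fin A))) ≠ ⊤ := by
  classical
  intro htop
  have h1 : Module.finrank k (Submodule.span k (ω '' (S : Set (Fin A)))) ≤ S.card := by
    have : (ω '' (S : Set (Fin A))) = ((S.image ω : Finset (Pairs n → k)) : Set (Pairs n → k)) := by
      simp
    rw [this]
    exact (finrank_span_finset_le_card _).trans Finset.card_image_le
  rw [htop, finrank_top, Module.finrank_fintype_fun_eq_card] at h1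
  omega

/-- **Existence of pencils in strong general position.** -/
theorem exists_strongGenPos (n : ℕ) : ∀ A : ℕ, ∃ ξ η : Fin A → Fin n → k,
    StrongGenPos (fun a => wedgeP (ξ a) (η a))
  | 0 => ⟨Fin.elim0, Fin.elim0, fun S _ => by
      have : (S : Set (Fin 0)) = ∅ := by
        ext x; exact x.elim0
      rw [this]
      exact linearIndepOn_empty _ _⟩
  | A + 1 => by
      classical
      obtain ⟨ξ, η, h⟩ := exists_strongGenPos n A
      set ω : Fin A → Pairs n → k := fun a => wedgeP (ξ a) (η a) with hω
      -- the proper subspaces to avoid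
      let ι := {S : Finset (Fin A) // S.card < Fintype.card (Pairs n)}
      let W : ι → Subspace k (Pairs n → k) := fun S =>
        Submodule.span k (ω '' ((S : Finset (Fin A)) : Set (Fin A)))
      obtain ⟨ξ', η', hnew⟩ := exists_wedgeP_notMem W (fun S => span_image_ne_top ω S.1 S.2)
      refine ⟨Fin.cons ξ' ξ, Fin.cons η' η, ?_⟩
      set ω' : Fin (A + 1) → Pairs n → k :=
        fun a => wedgeP ((Fin.cons ξ' ξ : Fin (A + 1) → Fin n → k) a)
          ((Fin.cons η' η : Fin (A + 1) → Fin n → k) a) with hω'
      have hsucc : ω' ∘ Fin.succ = ω := by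
        funext a
        simp [hω', hω]
      have hzero : ω' 0 = wedgeP ξ' η' := by simp [hω']
      intro T hT
      set T0 : Finset (Fin A) := Finset.univ.filter (fun j => j.succ ∈ T) with hT0
      have hmap : T0.map ⟨Fin.succ, Fin.succ_injective A⟩ ⊆ T := by
        intro x hx
        obtain ⟨j, hj, rfl⟩ := Finset.mem_map.mp hx
        exact (Finset.mem_filter.mp hj).2
      have hcard0 : T0.card ≤ T.card := by
        rw [← Finset.card_map ⟨Fin.succ, Fin.succ_injective A⟩]
        exact Finset.card_le_card hmap
      have hind0 : ∀ hc : T0.card ≤ Fintype.card (Pairs n),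
          LinearIndepOn k ω' (Fin.succ '' (T0 : Set (Fin A))) := fun hc =>
        LinearIndepOn.image_of_comp Fin.succ ω' (by rw [hsucc]; exact h T0 hc)
      by_cases h0 : (0 : Fin (A + 1)) ∈ T
      · -- `T = insert 0 (succ '' T0)`
        have hlt : T0.card < Fintype.card (Pairs n) := by
          have hsub : T0.map ⟨Fin.succ, Fin.succ_injective A⟩ ⊆ T.erase 0 := by
            intro x hx
            refine Finset.mem_erase.mpr ⟨?_, hmap hx⟩
            obtain ⟨j, -, rfl⟩ := Finset.mem_map.mp hx
            exact Fin.succ_ne_zero j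
          have := Finset.card_le_card hsub
          rw [Finset.card_map, Finset.card_erase_of_mem h0] at this
          have hpos : 0 < T.card := Finset.card_pos.mpr ⟨0, h0⟩
          omega
        have hins : LinearIndepOn k ω' (insert 0 (Fin.succ '' (T0 : Set (Fin A)))) := by
          refine (hind0 hlt.le).insert ?_
          rw [hzero, Set.image_image]
          have : (fun j : Fin A => ω' j.succ) = ω := hsucc
          rw [this]
          exact hnew ⟨T0, hlt⟩
        refine hins.mono ?_
        intro x hx
        refine Fin.cases (motive := fun x => x ∈ (T : Set (Fin (A + 1))) →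
          x ∈ insert 0 (Fin.succ '' (T0 : Set (Fin A)))) ?_ ?_ x hx
        · intro _; exact Set.mem_insert _ _
        · intro j hj
          refine Set.mem_insert_of_mem _ ⟨j, ?_, rfl⟩
          exact Finset.mem_coe.mpr (Finset.mem_filter.mpr ⟨Finset.mem_univ _, hj⟩)
      · refine (hind0 (hcard0.trans hT)).mono ?_
        intro x hx
        refine Fin.cases (motive := fun x => x ∈ (T : Set (Fin (A + 1))) →
          x ∈ Fin.succ '' (T0 : Set (Fin A))) ?_ ?_ x hx
        · intro h; exact absurd (Finset.mem_coe.mp h) h0
        · intro j hj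
          exact ⟨j, Finset.mem_coe.mpr (Finset.mem_filter.mpr ⟨Finset.mem_univ _, hj⟩), rfl⟩

end Exists


/-! ### The inverse matrices: pencil families with certificates -/

section Cert

variable {k : Type*} [Field k] {n : ℕ}

/-- `D` independent bivectors form a basis: the inverse matrix. -/
theorem exists_inverse_of_linearIndepOn {A : ℕ} (ω : Fin A → Pairs n → k) (S : Finset (Fin A))
    (hS : S.card = Fintype.card (Pairs n)) (hli : LinearIndepOn k ω (S : Set (Fin A))) :
    ∃ Ψ : Pairs n → Fin A → k, ∀ p q : Pairs n,
      ∑ a ∈ S, Ψ p a * ω a q = if p = q then 1 else 0 := by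
  classical
  rcases isEmpty_or_nonempty (Pairs n) with hE | hE
  · exact ⟨fun _ _ => 0, fun p => (hE.false p).elim⟩
  have hne : Nonempty (S : Set (Fin A)) := by
    have : 0 < S.card := by rw [hS]; exact Fintype.card_pos
    obtain ⟨a, ha⟩ := Finset.card_pos.mp this
    exact ⟨⟨a, ha⟩⟩
  have hcard : Fintype.card (S : Set (Fin A)) = Module.finrank k (Pairs n → k) := by
    rw [Module.finrank_fintype_fun_eq_card, ← hS]
    simp
  let B := basisOfLinearIndependentOfCardEqFinrank hli hcard
  have hB : ∀ a, B a = ω a := fun a => by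
    simp [B, coe_basisOfLinearIndependentOfCardEqFinrank]
  refine ⟨fun p a => if h : a ∈ S then B.repr (Pi.single p 1) ⟨a, h⟩ else 0, fun p q => ?_⟩
  have hsum := congrFun (B.sum_repr (Pi.single p (1 : k))) q
  rw [Finset.sum_apply] at hsum
  have h1 : ∑ a ∈ S, (if h : a ∈ S then B.repr (Pi.single p 1) ⟨a, h⟩ else 0) * ω a q
      = ∑ a : (S : Set (Fin A)), B.repr (Pi.single p 1) a * ω a q := by
    rw [← Finset.sum_coe_sort S]
    refine Finset.sum_congr rfl fun a _ => ?_
    rw [dif_pos a.2]
    rfl
  rw [h1]
  have h2 : ∀ a : (S : Set (Fin A)), (B.repr (Pi.single p 1) a • B a) q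
      = B.repr (Pi.single p 1) a * ω a q := by
    intro a
    rw [Pi.smul_apply, smul_eq_mul, hB]
  simp only [h2] at hsum
  rw [hsum, Pi.single_apply]
  by_cases hpq : p = q
  · simp [hpq]
  · have : ¬ q = p := fun h => hpq h.symm
    simp [hpq, this]

/-- A family of `A` pencils on `k^n` in general position, together with the inverse matrices of
all `D`-subsets (`D = card (Pairs n) = C(n,2)`). -/
structure PencilFamily (k : Type*) [Field k] (n A : ℕ) where
  /-- first linear form of the pencil -/
  ξ : Fin A → Fin n → k
  /-- second linear form of the pencil -/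
  η : Fin A → Fin n → k
  /-- the inverse matrix of the `D`-subset `S` -/
  Ψ : Finset (Fin A) → Pairs n → Fin A → k
  inv : ∀ S : Finset (Fin A), S.card = Fintype.card (Pairs n) → ∀ p q : Pairs n,
    ∑ a ∈ S, Ψ S p a * wedgeP (ξ a) (η a) q = if p = q then 1 else 0

/-- **Existence of pencil families** over an infinite field. -/
theorem nonempty_pencilFamily (k : Type*) [Field k] [Infinite k] (n A : ℕ) :
    Nonempty (PencilFamily k n A) := by
  classical
  obtain ⟨ξ, η, h⟩ := exists_strongGenPos (k := k) n A
  have hex : ∀ S : Finset (Fin A), ∃ Ψ : Pairs n → Fin A → k,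
      S.card = Fintype.card (Pairs n) → ∀ p q : Pairs n,
        ∑ a ∈ S, Ψ p a * wedgeP (ξ a) (η a) q = if p = q then 1 else 0 := by
    intro S
    by_cases hS : S.card = Fintype.card (Pairs n)
    · obtain ⟨Ψ, hΨ⟩ := exists_inverse_of_linearIndepOn _ S hS (h S hS.le)
      exact ⟨Ψ, fun _ => hΨ⟩
    · exact ⟨fun _ _ => 0, fun h => absurd h hS⟩
  choose Ψ hΨ using hex
  exact ⟨⟨ξ, η, Ψ, hΨ⟩⟩

end Cert


/-! ### Use over a field `K` with an absolute value -/

section Quant

variable {k : Type*} [Field k] {K : Type*} [Field K] {n A : ℕ}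
variable (P : PencilFamily k n A) (f : k →+* K)

namespace PencilFamily

/-- The first linear forms over `K`. -/
def ξK (a : Fin A) : Fin n → K := fun i => f (P.ξ a i)

/-- The second linear forms over `K`. -/
def ηK (a : Fin A) : Fin n → K := fun i => f (P.η a i)

/-- The `2`-form `ω_a = ξ_a ∧ η_a` over `K`, evaluated on a bivector. -/
def om (a : Fin A) (w : Pairs n → K) : K := omega (P.ξK f a) (P.ηK f a) w

/-- A bivector is recovered from the values of any `D` of the forms `ω_a`. -/
theorem reconstruct (S : Finset (Fin A)) (hS : S.card = Fintype.card (Pairs n))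
    (w : Pairs n → K) (p : Pairs n) :
    w p = ∑ a ∈ S, f (P.Ψ S p a) * P.om f a w := by
  classical
  have h1 : ∀ a ∈ S, f (P.Ψ S p a) * P.om f a w
      = ∑ q, f (P.Ψ S p a * wedgeP (P.ξ a) (P.η a) q) * w q := by
    intro a _
    unfold om omega
    rw [Finset.mul_sum]
    refine Finset.sum_congr rfl fun q _ => ?_
    rw [map_mul, map_wedgeP]
    unfold ξK ηK
    ring
  rw [Finset.sum_congr rfl h1, Finset.sum_comm]
  have h2 : ∀ q, ∑ a ∈ S, f (P.Ψ S p a * wedgeP (P.ξ a) (P.η a) q) * w q
      = (if p = q then 1 else 0) * w q := by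
    intro q
    rw [← Finset.sum_mul, ← map_sum, P.inv S hS p q]
    split_ifs <;> simp
  rw [Finset.sum_congr rfl fun q _ => h2 q]
  simp

/-- A nonzero bivector is killed by fewer than `D` of the forms `ω_a`. -/
theorem card_kill_lt [DecidableEq K] {w : Pairs n → K} (hw : w ≠ 0) :
    (Finset.univ.filter fun a => P.om f a w = 0).card < Fintype.card (Pairs n) := by
  by_contra hcon
  rw [not_lt] at hcon
  obtain ⟨S, hSsub, hScard⟩ := Finset.exists_subset_card_eq hcon
  apply hw
  funext p
  rw [P.reconstruct f S hScard w p]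
  refine Finset.sum_eq_zero fun a ha => ?_
  rw [(Finset.mem_filter.mp (hSsub ha)).2, mul_zero]

end PencilFamily

end Quant


/-! ### Quantitative bounds -/

section Abs

variable {K : Type*} [Field K] (v : AbsoluteValue K ℝ)

/-- The triangle inequality with the constant `triC`. -/
theorem abv_sum_le_triC {α : Type*} (s : Finset α) (l : α → K) {B : ℝ} (hB : 0 ≤ B)
    (h : ∀ i ∈ s, v (l i) ≤ B) : v (∑ i ∈ s, l i) ≤ triC v s.card * B := by
  classical
  unfold triC
  split_ifs with hv
  · rw [one_mul]
    refine (IsNonarchimedean.apply_sum_le hv).trans ?_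
    exact Real.iSup_le (fun i => h i.1 i.2) hB
  · calc v (∑ i ∈ s, l i) ≤ ∑ i ∈ s, v (l i) := v.sum_le s l
      _ ≤ ∑ _i ∈ s, B := Finset.sum_le_sum h
      _ = s.card * B := by rw [Finset.sum_const, nsmul_eq_mul]

theorem triC_nonneg (m : ℕ) : 0 ≤ triC v m := by
  classical
  unfold triC
  split_ifs
  · exact zero_le_one
  · exact Nat.cast_nonneg m

variable {k : Type*} [Field k] {n A : ℕ} (P : PencilFamily k n A) (f : k →+* K)

namespace PencilFamily

/-- The largest absolute value of an entry of the inverse matrices. -/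
noncomputable def psiSup : ℝ :=
  ⨆ x : Finset (Fin A) × Pairs n × Fin A, v (f (P.Ψ x.1 x.2.1 x.2.2))

theorem psiSup_nonneg : 0 ≤ P.psiSup v f := Real.iSup_nonneg fun _ => v.nonneg _

theorem le_psiSup (S : Finset (Fin A)) (p : Pairs n) (a : Fin A) :
    v (f (P.Ψ S p a)) ≤ P.psiSup v f :=
  le_ciSup (f := fun x : Finset (Fin A) × Pairs n × Fin A => v (f (P.Ψ x.1 x.2.1 x.2.2)))
    (Finite.bddAbove_range _) (S, p, a)

/-- The constant of the family at the absolute value `v`. -/
noncomputable def genC : ℝ := max 1 (triC v (Fintype.card (Pairs n)) * P.psiSup v f)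

theorem one_le_genC : 1 ≤ P.genC v f := le_max_left _ _

theorem genC_pos : 0 < P.genC v f := lt_of_lt_of_le zero_lt_one (P.one_le_genC v f)

/-- **Quantitative general position**: the norm of a bivector is controlled by the values of any
`D` of the forms `ω_a`. -/
theorem supNorm_le_genC_mul (S : Finset (Fin A)) (hS : S.card = Fintype.card (Pairs n))
    (w : Pairs n → K) {M : ℝ} (hM0 : 0 ≤ M) (hM : ∀ a ∈ S, v (P.om f a w) ≤ M) :
    supNorm v w ≤ P.genC v f * M := by
  have hC := P.genC_pos v f
  refine supNorm_le v (mul_nonneg hC.le hM0) fun p => ?_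
  rw [P.reconstruct f S hS w p]
  have hB : 0 ≤ P.psiSup v f * M := mul_nonneg (P.psiSup_nonneg v f) hM0
  have h1 := abv_sum_le_triC v S (fun a => f (P.Ψ S p a) * P.om f a w) hB (fun a ha => by
    rw [map_mul]
    exact mul_le_mul (P.le_psiSup v f S p a) (hM a ha) (v.nonneg _) (P.psiSup_nonneg v f))
  refine h1.trans ?_
  rw [hS, ← mul_assoc]
  exact mul_le_mul_of_nonneg_right (le_max_right _ _) hM0

/-- **Pigeonhole**: for `m` bivectors and more than `m (D - 1)` pencils in general position, one
pencil is good for all the bivectors simultaneously. -/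
theorem exists_good {m : ℕ} (hA : m * (Fintype.card (Pairs n) - 1) < A)
    (w : Fin m → Pairs n → K) :
    ∃ a : Fin A, ∀ j : Fin m, supNorm v (w j) ≤ P.genC v f * v (P.om f a (w j)) := by
  classical
  set D := Fintype.card (Pairs n) with hD
  let bad : Fin m → Finset (Fin A) := fun j =>
    Finset.univ.filter fun a => P.genC v f * v (P.om f a (w j)) < supNorm v (w j)
  have hbad : ∀ j, (bad j).card ≤ D - 1 := by
    intro j
    by_contra hcon
    rw [not_le] at hcon
    have hne : (bad j).Nonempty := Finset.card_pos.mp (by omega)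
    have hDle : D ≤ (bad j).card := by omega
    obtain ⟨S, hSsub, hScard⟩ := Finset.exists_subset_card_eq hDle
    rcases Nat.eq_zero_or_pos D with hD0 | hDpos
    · -- no bivectors at all: the norm is zero
      obtain ⟨a, ha⟩ := hne
      have hlt := (Finset.mem_filter.mp ha).2
      have hE : IsEmpty (Pairs n) := Fintype.card_eq_zero_iff.mp (hD ▸ hD0)
      have h0 : supNorm v (w j) = 0 := by
        unfold supNorm
        exact Real.iSup_of_isEmpty _
      rw [h0] at hlt
      exact absurd hlt (not_lt.mpr (mul_nonneg (P.genC_pos v f).le (v.nonneg _)))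
    · have hSne : S.Nonempty := Finset.card_pos.mp (by omega)
      obtain ⟨a0, ha0, hmax⟩ := Finset.exists_max_image S (fun a => v (P.om f a (w j))) hSne
      have := P.supNorm_le_genC_mul v f S hScard (w j) (v.nonneg _) hmax
      exact absurd (Finset.mem_filter.mp (hSsub ha0)).2 (not_lt.mpr this)
  have hunion : (Finset.univ.biUnion bad).card ≤ m * (D - 1) := by
    calc (Finset.univ.biUnion bad).card ≤ ∑ j : Fin m, (bad j).card := Finset.card_biUnion_le
      _ ≤ ∑ _j : Fin m, (D - 1) := Finset.sum_le_sum fun j _ => hbad j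
      _ = m * (D - 1) := by simp
  have hlt : (Finset.univ.biUnion bad).card < (Finset.univ : Finset (Fin A)).card := by
    rw [Finset.card_univ, Fintype.card_fin]
    omega
  obtain ⟨a, -, ha⟩ := Finset.exists_mem_notMem_of_card_lt_card hlt
  refine ⟨a, fun j => ?_⟩
  by_contra hcon
  rw [not_le] at hcon
  exact ha (Finset.mem_biUnion.mpr ⟨j, Finset.mem_univ _, Finset.mem_filter.mpr ⟨Finset.mem_univ _, hcon⟩⟩)

/-- At a nonarchimedean absolute value for which all entries of the inverse matrices are integral,
the constant is `1`. -/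
theorem genC_eq_one (hv : IsNonarchimedean v) (hΨ : ∀ S p a, v (f (P.Ψ S p a)) ≤ 1) :
    P.genC v f = 1 := by
  classical
  unfold genC
  apply max_eq_left
  have h1 : triC v (Fintype.card (Pairs n)) = 1 := by
    unfold triC; rw [if_pos hv]
  rw [h1, one_mul]
  exact Real.iSup_le (fun x => hΨ x.1 x.2.1 x.2.2) zero_le_one

end PencilFamily

end Abs

/-! ### Full antisymmetric matrices of coordinates -/

section Full

variable {n : ℕ}

/-- Restriction of a full matrix of coordinates `w (i, j)` to the pairs `i < j`. -/
def restrictP {K : Type*} (w : Fin n × Fin n → K) : Pairs n → K := fun p => w p.1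

/-- For an antisymmetric `w` with zero diagonal, the full double sum `∑ ξ_i η_j w_{ij}` is the
pairing of `ξ ∧ η` with the restriction of `w` to the pairs `i < j`. -/
theorem sum_full_eq_omega {K : Type*} [CommRing K] (ξ η : Fin n → K) (w : Fin n × Fin n → K)
    (hw : ∀ i j, w (i, j) = -w (j, i)) (hd : ∀ i, w (i, i) = 0) :
    ∑ i, ∑ j, ξ i * η j * w (i, j) = omega ξ η (restrictP w) := by
  rw [sum_sum_eq_sum_pairs]
  have h0 : ∑ i, ξ i * η i * w (i, i) = 0 :=
    Finset.sum_eq_zero fun i _ => by rw [hd, mul_zero]
  rw [h0, add_zero]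
  unfold omega
  refine Finset.sum_congr rfl fun p _ => ?_
  obtain ⟨⟨i, j⟩, hij⟩ := p
  simp only [wedgeP, restrictP]
  rw [hw j i]
  ring

/-- The sup norm of an antisymmetric `w` with zero diagonal is that of its restriction. -/
theorem supNorm_restrictP {K : Type*} [Field K] (v : AbsoluteValue K ℝ) (w : Fin n × Fin n → K)
    (hw : ∀ i j, w (i, j) = -w (j, i)) (hd : ∀ i, w (i, i) = 0) :
    supNorm v w = supNorm v (restrictP w) := by
  apply le_antisymm
  · refine supNorm_le v (supNorm_nonneg v _) ?_
    rintro ⟨i, j⟩
    rcases lt_trichotomy i j with h | h | h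
    · exact le_supNorm v (restrictP w) ⟨(i, j), h⟩
    · subst h
      rw [hd, map_zero]
      exact supNorm_nonneg v _
    · rw [hw i j, v.map_neg]
      exact le_supNorm v (restrictP w) ⟨(j, i), h⟩
  · exact supNorm_le v (supNorm_nonneg v _) fun p => le_supNorm v w p.1

/-- The restriction of the full vector of minors is the vector of minors `i < j`. -/
theorem restrictP_wedge {K : Type*} [Field K] (x y : Fin n → K) :
    restrictP (wedge x y) = wedgeP x y := rfl

/-- The two versions of the norm of `x ∧ y` agree. -/
theorem supNorm_wedge_eq {K : Type*} [Field K] (v : AbsoluteValue K ℝ) (x y : Fin n → K) :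
    supNorm v (wedge x y) = supNorm v (wedgeP x y) := by
  rw [← restrictP_wedge]
  refine supNorm_restrictP v _ (fun i j => ?_) (fun i => ?_)
  · simp only [wedge]; ring
  · simp only [wedge]; ring

/-- `ω(p ∧ q) = ξ(p) η(q) - η(p) ξ(q)`. -/
theorem omega_wedgeP {K : Type*} [Field K] (ξ η x y : Fin n → K) :
    omega ξ η (wedgeP x y)
      = (∑ i, ξ i * x i) * (∑ j, η j * y j) - (∑ i, η i * x i) * (∑ j, ξ j * y j) := by
  rw [← restrictP_wedge, ← sum_full_eq_omega ξ η (wedge x y)
    (fun i j => by simp only [wedge]; ring) (fun i => by simp only [wedge]; ring)]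
  rw [Finset.sum_mul_sum, Finset.sum_mul_sum, Finset.sum_comm (f := fun i j => η i * x i * (ξ j * y j)),
    ← Finset.sum_sub_distrib]
  refine Finset.sum_congr rfl fun i _ => ?_
  rw [← Finset.sum_sub_distrib]
  refine Finset.sum_congr rfl fun j _ => ?_
  simp only [wedge]
  ring

end Full

/-! ### The bad set of a bivector is small; the pigeonhole principle -/

/-- Pigeonhole: `m` subsets of `Fin A` of cardinality at most `d` do not cover `Fin A` when
`m d < A`. -/
theorem exists_notMem_of_card_le {A m d : ℕ} (bad : Fin m → Finset (Fin A))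
    (hbad : ∀ j, (bad j).card ≤ d) (hA : m * d < A) : ∃ a : Fin A, ∀ j, a ∉ bad j := by
  classical
  have hunion : (Finset.univ.biUnion bad).card ≤ m * d := by
    calc (Finset.univ.biUnion bad).card ≤ ∑ j : Fin m, (bad j).card := Finset.card_biUnion_le
      _ ≤ ∑ _j : Fin m, d := Finset.sum_le_sum fun j _ => hbad j
      _ = m * d := by simp
  have hlt : (Finset.univ.biUnion bad).card < (Finset.univ : Finset (Fin A)).card := by
    rw [Finset.card_univ, Fintype.card_fin]
    omega
  obtain ⟨a, -, ha⟩ := Finset.exists_mem_notMem_of_card_lt_card hlt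
  exact ⟨a, fun j hj => ha (Finset.mem_biUnion.mpr ⟨j, Finset.mem_univ _, hj⟩)⟩

section Bad

variable {K : Type*} [Field K] (v : AbsoluteValue K ℝ)
variable {k : Type*} [Field k] {n A : ℕ} (P : PencilFamily k n A) (f : k →+* K)

/-- **General position, quantitative form**: a bivector is `genC`-small against fewer than
`D = C(n,2)` of the forms `ω_a`. -/
theorem PencilFamily.card_bad_lt (hD : 0 < Fintype.card (Pairs n)) (w : Pairs n → K) :
    (Finset.univ.filter fun a => P.genC v f * v (P.om f a w) < supNorm v w).card
      < Fintype.card (Pairs n) := by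
  classical
  by_contra hcon
  rw [not_lt] at hcon
  obtain ⟨S, hSsub, hScard⟩ := Finset.exists_subset_card_eq hcon
  have hSne : S.Nonempty := Finset.card_pos.mp (by omega)
  obtain ⟨a0, ha0, hmax⟩ := Finset.exists_max_image S (fun a => v (P.om f a w)) hSne
  have := P.supNorm_le_genC_mul v f S hScard w (v.nonneg _) hmax
  exact absurd (Finset.mem_filter.mp (hSsub ha0)).2 (not_lt.mpr this)

end Bad

/-! ### Tameness of the constants -/

section Tame

variable {K : Type*} [Field K]
variable {k : Type*} [Field k] {n A : ℕ} (P : PencilFamily k n A) (f : k →+* K)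

/-- The finitely many nonzero numbers controlling the constant `genC`. -/
noncomputable def PencilFamily.tameSet : Finset K := by
  classical
  exact (Finset.univ.image fun x : Finset (Fin A) × Pairs n × Fin A =>
    f (P.Ψ x.1 x.2.1 x.2.2)).filter (· ≠ 0)

theorem PencilFamily.ne_zero_of_mem_tameSet {a : K} (ha : a ∈ P.tameSet f) : a ≠ 0 := by
  classical
  unfold PencilFamily.tameSet at ha
  exact (Finset.mem_filter.mp ha).2

/-- The constant is `1` at every nonarchimedean absolute value which is `1` on `tameSet`. -/
theorem PencilFamily.genC_eq_one_of_tameSet (v : AbsoluteValue K ℝ) (hv : IsNonarchimedean v)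
    (h1 : ∀ a ∈ P.tameSet f, v a = 1) : P.genC v f = 1 := by
  classical
  refine P.genC_eq_one v f hv fun S p a => ?_
  by_cases h0 : f (P.Ψ S p a) = 0
  · rw [h0, map_zero]; exact zero_le_one
  · refine (h1 _ ?_).le
    unfold PencilFamily.tameSet
    exact Finset.mem_filter.mpr ⟨Finset.mem_image.mpr ⟨(S, p, a), Finset.mem_univ _, rfl⟩, h0⟩

/-- For a `QbarAbs`, the constant is `1` at almost all primes. -/
theorem PencilFamily.finite_genC_ne_one [CharZero K] (Q : QbarAbs K) :
    {p : Nat.Primes | P.genC (Q.fin p) f ≠ 1}.Finite := by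
  classical
  have hfin : (⋃ a ∈ (P.tameSet f : Set K), {p : Nat.Primes | Q.fin p a ≠ 1}).Finite :=
    Set.Finite.biUnion (Finset.finite_toSet _) fun a ha =>
      Q.finite_ne_one a (P.ne_zero_of_mem_tameSet f ha)
  refine hfin.subset fun p hp => ?_
  by_contra hcon
  apply hp
  refine P.genC_eq_one_of_tameSet f (Q.fin p) (Q.fin_nonarch p) fun a ha => ?_
  by_contra hne
  exact hcon (Set.mem_biUnion (Finset.mem_coe.mpr ha) hne)

/-- `log genC` has finite support over the places of `ℚ`. -/
theorem PencilFamily.finite_support_log_genC [CharZero K] (Q : QbarAbs K) :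
    (Function.support fun p : Option Nat.Primes => Real.log (P.genC (Q.abv p) f)).Finite := by
  have h := (P.finite_genC_ne_one f Q).image some
  refine (h.union (Set.finite_singleton none)).subset fun p hp => ?_
  rcases p with _ | p
  · exact Or.inr rfl
  · refine Or.inl ⟨p, ?_, rfl⟩
    intro h1
    apply hp
    show Real.log (P.genC (Q.abv (some p)) f) = 0
    have : Q.abv (some p) = Q.fin p := rfl
    rw [this, h1, Real.log_one]

end Tame

end Fermat.Agent.MW.Local.GenPos80
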