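/-
Program MW-H (S17), brick L2, VARIANT WITH BASE-POINT-FREE PENCILS (helper80; asked for in
report #820 item 4).

Same construction as `GenPos80` (first `ξ`, then `η`), but `η` additionally avoids finitely many
proper subspaces depending on `ξ`.  In the application the subspaces are the hyperplanes
`{η | ∑ η_i p_i = 0}` for the finitely many common zeros `p` of ... chosen as a function of `ξ`, so
that every pencil `(ξ_a, η_a)` of the family is base-point free.

Main results.
* `exists_strongGenPos_avoid`: pencils in strong general position, `η a ∉ V` for `V ∈ M (ξ a)`.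
* `exists_pencilFamily_avoid`: the same, packaged as a `GenPos80.PencilFamily`.
* `genPosExists_bpf`: the variant of `Bricks7.GenPosExists`: rational pencils in general position
  with tame constants, `ξ a ≠ 0`, and `∑ i, η a i * p i ≠ 0` for all `p ∈ H (ξ a)`.
-/
import Mathlib
import Fermat.Agent.MW.Spec.Bricks7
import Fermat.Agent.MW.Local.GenPos80

set_option autoImplicit false

namespace Fermat.Agent.MW.Local.GenPosBPF80

open Fermat.Agent.MW.Hadamard7 Fermat.Agent.MW.Spec.Defs7 Fermat.Agent.MW.Spec.Bricks7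
open Fermat.Agent.MW.Local
open Fermat.Agent.MW.Local.GenPos80 (Pairs wedgeP wedgeL wedgeR StrongGenPos PencilFamily)
open Finset

section Exists

variable {k : Type*} [Field k] [Infinite k] {n : ℕ}

/-- Given finitely many proper subspaces `W i` of the space of bivectors and, for every `ξ`,
finitely many proper subspaces `M ξ` of `k^n`, there is a decomposable bivector `ξ ∧ η` outside
all the `W i` with `η` outside all the members of `M ξ`. -/
theorem exists_wedgeP_notMem_avoid {ι : Type*} [Finite ι] (W : ι → Subspace k (Pairs n → k))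
    (hW : ∀ i, W i ≠ ⊤) (M : (Fin n → k) → Finset (Subspace k (Fin n → k)))
    (hM : ∀ ξ, ∀ V ∈ M ξ, V ≠ ⊤) :
    ∃ ξ η : Fin n → k, (∀ i, wedgeP ξ η ∉ W i) ∧ ∀ V ∈ M ξ, η ∉ V := by
  classical
  let N : ι → Subspace k (Fin n → k) := fun i => ⨅ η : Fin n → k, (W i).comap (wedgeR η)
  have hN : ∀ i, N i ≠ ⊤ := by
    intro i hi
    apply hW i
    apply GenPos80.eq_top_of_forall_wedgeP_mem
    intro ξ η
    have hξ : ξ ∈ N i := by rw [hi]; trivial
    have := (Submodule.mem_iInf _).mp hξ η
    simpa using this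
  obtain ⟨ξ, hξ⟩ := GenPos80.exists_notMem_of_ne_top N hN
  let M1 : ι → Subspace k (Fin n → k) := fun i => (W i).comap (wedgeL ξ)
  have hM1 : ∀ i, M1 i ≠ ⊤ := by
    intro i hi
    apply hξ i
    rw [Submodule.mem_iInf]
    intro η
    have hη : η ∈ M1 i := by rw [hi]; trivial
    simpa [M1] using hη
  let M2 : ι ⊕ {V // V ∈ M ξ} → Subspace k (Fin n → k) := Sum.elim M1 fun V => V.1
  have hM2 : ∀ j, M2 j ≠ ⊤ := by
    rintro (i | V)
    · exact hM1 i
    · exact hM ξ V.1 V.2
  obtain ⟨η, hη⟩ := GenPos80.exists_notMem_of_ne_top M2 hM2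
  refine ⟨ξ, η, fun i h => hη (Sum.inl i) (by simpa [M2, M1] using h), fun V hV h => ?_⟩
  exact hη (Sum.inr ⟨V, hV⟩) h

/-- **Pencils in strong general position, with `η a` avoiding the subspaces `M (ξ a)`.** -/
theorem exists_strongGenPos_avoid (n : ℕ) (M : (Fin n → k) → Finset (Subspace k (Fin n → k)))
    (hM : ∀ ξ, ∀ V ∈ M ξ, V ≠ ⊤) : ∀ A : ℕ, ∃ ξ η : Fin A → Fin n → k,
      StrongGenPos (fun a => wedgeP (ξ a) (η a)) ∧ ∀ a, ∀ V ∈ M (ξ a), η a ∉ V
  | 0 => ⟨Fin.elim0, Fin.elim0, fun S _ => by
      have : (S : Set (Fin 0)) = ∅ := by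
        ext x; exact x.elim0
      rw [this]
      exact linearIndepOn_empty _ _, fun a => a.elim0⟩
  | A + 1 => by
      classical
      obtain ⟨ξ, η, h, hav⟩ := exists_strongGenPos_avoid n M hM A
      set ω : Fin A → Pairs n → k := fun a => wedgeP (ξ a) (η a) with hω
      let ι := {S : Finset (Fin A) // S.card < Fintype.card (Pairs n)}
      let W : ι → Subspace k (Pairs n → k) := fun S =>
        Submodule.span k (ω '' ((S : Finset (Fin A)) : Set (Fin A)))
      obtain ⟨ξ', η', hnew, hav'⟩ := exists_wedgeP_notMem_avoid W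
        (fun S => GenPos80.span_image_ne_top ω S.1 S.2) M hM
      refine ⟨Fin.cons ξ' ξ, Fin.cons η' η, ?_, ?_⟩
      swap
      · intro a
        refine Fin.cases ?_ (fun j => ?_) a
        · simpa using hav'
        · simpa using hav j
      set ω' : Fin (A + 1) → Pairs n → k :=
        fun a => wedgeP ((Fin.cons ξ' ξ : Fin (A + 1) → Fin n → k) a)
          ((Fin.cons η' η : Fin (A + 1) → Fin n → k) a) with hω'
      have hsucc : ω' ∘ Fin.succ = ω := by
        funext a
        simp [hω', hω]
      have hzero : ω' 0 = wedgeP ξ' η' := by simp [hω']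
      intro T hT
      set T0 : Finset (Fin A) := Finset.univ.filter (fun j => j.succ ∈ T) with hT0
      have hmap : T0.map ⟨Fin.succ, Fin.succ_injective A⟩ ⊆ T := by
        intro x hx
        obtain ⟨j, hj, rfl⟩ := Finset.mem_map.mp hx
        exact (Finset.mem_filter.mp hj).2
      have hcard0 : T0.card ≤ T.card := by
        rw [← Finset.card_map ⟨Fin.succ, Fin.succ_injective A⟩]
        exact Finset.card_le_card hmap
      have hind0 : ∀ hc : T0.card ≤ Fintype.card (Pairs n),
          LinearIndepOn k ω' (Fin.succ '' (T0 : Set (Fin A))) := fun hc =>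
        LinearIndepOn.image_of_comp Fin.succ ω' (by rw [hsucc]; exact h T0 hc)
      by_cases h0 : (0 : Fin (A + 1)) ∈ T
      · have hlt : T0.card < Fintype.card (Pairs n) := by
          have hsub : T0.map ⟨Fin.succ, Fin.succ_injective A⟩ ⊆ T.erase 0 := by
            intro x hx
            refine Finset.mem_erase.mpr ⟨?_, hmap hx⟩
            obtain ⟨j, -, rfl⟩ := Finset.mem_map.mp hx
            exact Fin.succ_ne_zero j
          have := Finset.card_le_card hsub
          rw [Finset.card_map, Finset.card_erase_of_mem h0] at this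
          have hpos : 0 < T.card := Finset.card_pos.mpr ⟨0, h0⟩
          omega
        have hins : LinearIndepOn k ω' (insert 0 (Fin.succ '' (T0 : Set (Fin A)))) := by
          refine (hind0 hlt.le).insert ?_
          rw [hzero, Set.image_image]
          have : (fun j : Fin A => ω' j.succ) = ω := hsucc
          rw [this]
          exact hnew ⟨T0, hlt⟩
        refine hins.mono ?_
        intro x hx
        refine Fin.cases (motive := fun x => x ∈ (T : Set (Fin (A + 1))) →
          x ∈ insert 0 (Fin.succ '' (T0 : Set (Fin A)))) ?_ ?_ x hx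
        · intro _; exact Set.mem_insert _ _
        · intro j hj
          refine Set.mem_insert_of_mem _ ⟨j, ?_, rfl⟩
          exact Finset.mem_coe.mpr (Finset.mem_filter.mpr ⟨Finset.mem_univ _, hj⟩)
      · refine (hind0 (hcard0.trans hT)).mono ?_
        intro x hx
        refine Fin.cases (motive := fun x => x ∈ (T : Set (Fin (A + 1))) →
          x ∈ Fin.succ '' (T0 : Set (Fin A))) ?_ ?_ x hx
        · intro h; exact absurd (Finset.mem_coe.mp h) h0
        · intro j hj
          exact ⟨j, Finset.mem_coe.mpr (Finset.mem_filter.mpr ⟨Finset.mem_univ _, hj⟩), rfl⟩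

omit [Infinite k] in
/-- A family in strong general position underlies a `PencilFamily`. -/
theorem exists_pencilFamily_of_strongGenPos {A : ℕ} (ξ η : Fin A → Fin n → k)
    (h : StrongGenPos (fun a => wedgeP (ξ a) (η a))) :
    ∃ P : PencilFamily k n A, P.ξ = ξ ∧ P.η = η := by
  classical
  have hex : ∀ S : Finset (Fin A), ∃ Ψ : Pairs n → Fin A → k,
      S.card = Fintype.card (Pairs n) → ∀ p q : Pairs n,
        ∑ a ∈ S, Ψ p a * wedgeP (ξ a) (η a) q = if p = q then 1 else 0 := by
    intro S
    by_cases hS : S.card = Fintype.card (Pairs n)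
    · obtain ⟨Ψ, hΨ⟩ := GenPos80.exists_inverse_of_linearIndepOn _ S hS (h S hS.le)
      exact ⟨Ψ, fun _ => hΨ⟩
    · exact ⟨fun _ _ => 0, fun h => absurd h hS⟩
  choose Ψ hΨ using hex
  exact ⟨⟨ξ, η, Ψ, hΨ⟩, rfl, rfl⟩

omit [Infinite k] in
/-- In strong general position (and `n ≥ 2`) all the bivectors `ξ a ∧ η a` are nonzero. -/
theorem wedgeP_ne_zero_of_strongGenPos {A : ℕ} (ξ η : Fin A → Fin n → k)
    (h : StrongGenPos (fun a => wedgeP (ξ a) (η a))) (hD : 0 < Fintype.card (Pairs n))
    (a : Fin A) : wedgeP (ξ a) (η a) ≠ 0 := by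
  classical
  have h1 := h {a} (by rw [Finset.card_singleton]; exact hD)
  have h2 : LinearIndependent k fun x : (({a} : Finset (Fin A)) : Set (Fin A)) =>
      wedgeP (ξ x) (η x) := h1
  exact h2.ne_zero ⟨a, by simp⟩

/-- **Pencil families with `η a` avoiding the subspaces `M (ξ a)`.** -/
theorem exists_pencilFamily_avoid (n A : ℕ) (M : (Fin n → k) → Finset (Subspace k (Fin n → k)))
    (hM : ∀ ξ, ∀ V ∈ M ξ, V ≠ ⊤) :
    ∃ P : PencilFamily k n A, (∀ a, ∀ V ∈ M (P.ξ a), P.η a ∉ V) ∧
      (0 < Fintype.card (Pairs n) → ∀ a, wedgeP (P.ξ a) (P.η a) ≠ 0) := by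
  obtain ⟨ξ, η, h, hav⟩ := exists_strongGenPos_avoid n M hM A
  obtain ⟨P, hξ, hη⟩ := exists_pencilFamily_of_strongGenPos ξ η h
  refine ⟨P, ?_, ?_⟩
  · intro a V hV
    rw [hξ] at hV
    rw [hη]
    exact hav a V hV
  · intro hD a
    rw [hξ, hη]
    exact wedgeP_ne_zero_of_strongGenPos ξ η h hD a

end Exists

/-! ### The variant of the contract -/

section Contract

variable {K : Type*} [Field K] [CharZero K] {n : ℕ}

/-- The `ℚ`-linear form `η ↦ ∑ η_i p_i` on `ℚ^n` with coefficients `p` in `K`. -/
def formQ (p : Fin n → K) : (Fin n → ℚ) →ₗ[ℚ] K where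
  toFun η := ∑ i, ((η i : ℚ) : K) * p i
  map_add' η η' := by
    simp only [Pi.add_apply, Rat.cast_add, add_mul, Finset.sum_add_distrib]
  map_smul' c η := by
    simp only [Pi.smul_apply, smul_eq_mul, Rat.cast_mul, RingHom.id_apply, Finset.mul_sum,
      Rat.smul_def, mul_assoc]

theorem formQ_apply (p : Fin n → K) (η : Fin n → ℚ) :
    formQ p η = ∑ i, ((η i : ℚ) : K) * p i := rfl

theorem ker_formQ_ne_top {p : Fin n → K} (hp : p ≠ 0) : LinearMap.ker (formQ p) ≠ ⊤ := by
  classical
  intro htop
  apply hp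
  funext i
  have h1 : (Pi.single i (1 : ℚ) : Fin n → ℚ) ∈ LinearMap.ker (formQ p) := by
    rw [htop]; trivial
  rw [LinearMap.mem_ker, formQ_apply] at h1
  rw [Finset.sum_eq_single i] at h1
  · simpa using h1
  · intro j _ hj
    rw [Pi.single_eq_of_ne hj]
    simp
  · intro h; exact absurd (Finset.mem_univ i) h

end Contract

/-- **Brick L2, base-point-free variant**: rational pencils in general position with tame
constants, such that `ξ a ≠ 0` and `η a` does not vanish at any of the finitely many nonzero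
points `H (ξ a)`. -/
theorem genPosExists_bpf {K : Type} [Field K] [CharZero K] {ι : Type} [Fintype ι]
    (hι : 2 ≤ Fintype.card ι) (A : ℕ) (H : (ι → ℚ) → Finset (ι → K))
    (hH : ∀ ξ, ∀ p ∈ H ξ, p ≠ 0) :
    ∃ (ξ η : Fin A → ι → ℚ) (C : AbsoluteValue K ℝ → ℝ), IsTameConst C ∧
      IsGenPos (fun a i => ((ξ a i : ℚ) : K)) (fun a i => ((η a i : ℚ) : K)) C ∧
      ∀ a, ξ a ≠ 0 ∧ η a ≠ 0 ∧ ∀ p ∈ H (ξ a), ∑ i, ((η a i : ℚ) : K) * p i ≠ 0 := by
  classical
  obtain ⟨n, hn⟩ : ∃ n, n = Fintype.card ι := ⟨_, rfl⟩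
  have e : ι ≃ Fin n := hn ▸ Fintype.equivFin ι
  have hD : 0 < Fintype.card (Pairs n) := by
    rw [GenPos80.card_pairs, hn]; exact Nat.choose_pos hι
  -- the hyperplanes to avoid
  let M : (Fin n → ℚ) → Finset (Subspace ℚ (Fin n → ℚ)) := fun ξ' =>
    (H fun i => ξ' (e i)).image fun p => LinearMap.ker (formQ fun i' => p (e.symm i'))
  have hM : ∀ ξ', ∀ V ∈ M ξ', V ≠ ⊤ := by
    intro ξ' V hV
    obtain ⟨p, hp, rfl⟩ := Finset.mem_image.mp hV
    apply ker_formQ_ne_top
    intro h0
    apply hH _ p hp
    funext i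
    have := congrFun h0 (e i)
    simpa using this
  obtain ⟨P, hav, hne⟩ := exists_pencilFamily_avoid (k := ℚ) n A M hM
  let f : ℚ →+* K := Rat.castHom K
  refine ⟨fun a i => P.ξ a (e i), fun a i => P.η a (e i), fun v => P.genC v f, ?_, ?_, ?_⟩
  · exact ⟨P.tameSet f, fun a ha => P.ne_zero_of_mem_tameSet f ha, fun v =>
      ⟨P.one_le_genC v f, fun hv h1 => P.genC_eq_one_of_tameSet f v hv h1⟩⟩
  · intro v _ w hw
    set W : Fin n × Fin n → K := fun p => w (e.symm p.1, e.symm p.2) with hW
    have hWa : ∀ i j, W (i, j) = -W (j, i) := fun i j => hw _ _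
    have hWd : ∀ i, W (i, i) = 0 := fun i => self_eq_neg.mp (hWa i i)
    have hom : ∀ a, Spec.Bricks7.omega (fun i => ((P.ξ a (e i) : ℚ) : K))
        (fun i => ((P.η a (e i) : ℚ) : K)) w = P.om f a (GenPos80.restrictP W) := by
      intro a
      unfold GenPos80.PencilFamily.om
      rw [← GenPos80.sum_full_eq_omega _ _ W hWa hWd]
      unfold Spec.Bricks7.omega
      refine Fintype.sum_equiv e _ _ fun i => ?_
      refine Fintype.sum_equiv e _ _ fun j => ?_
      simp [hW, GenPos80.PencilFamily.ξK, GenPos80.PencilFamily.ηK, f]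
    have hsup : supNorm v w = supNorm v (GenPos80.restrictP W) := by
      rw [← GenPos80.supNorm_restrictP v W hWa hWd]
      unfold supNorm
      exact ((Equiv.prodCongr e e).symm.iSup_comp (g := fun x => v (w x))).symm
    simp only [hom, hsup]
    have := P.card_bad_lt v f hD (GenPos80.restrictP W)
    rw [GenPos80.card_pairs] at this
    rw [← hn]
    exact this
  · intro a
    have hw := hne hD a
    refine ⟨?_, ?_, ?_⟩
    · intro h0
      apply hw
      have : P.ξ a = 0 := by
        funext i'
        have := congrFun h0 (e.symm i')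
        simpa using this
      rw [this]
      funext p
      simp [wedgeP]
    · intro h0
      apply hw
      have : P.η a = 0 := by
        funext i'
        have := congrFun h0 (e.symm i')
        simpa using this
      rw [this]
      funext p
      simp [wedgeP]
    · intro p hp hsum
      have hV : LinearMap.ker (formQ fun i' => p (e.symm i')) ∈ M (P.ξ a) :=
        Finset.mem_image.mpr ⟨p, hp, rfl⟩
      apply hav a _ hV
      rw [LinearMap.mem_ker, formQ_apply, ← hsum]
      refine (Fintype.sum_equiv e _ _ fun i => ?_).symm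
      simp

end Fermat.Agent.MW.Local.GenPosBPF80
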