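/-
Program MW-H (S17), brick L2' (helper80): THE CONTRACT `BricksU7.USetup.GenPosBpf`.

For the standing data `U : USetup K F` (`K` algebraically closed of characteristic zero) there are
arbitrarily large families of rational pencils in general position with tame constants all of
whose members are base point free on the curve.

Proof: `GenPosBPF80.genPosExists_bpf` with `H ξ` = the coordinate vectors of the finitely many
places where the linear section `ξ(x)` vanishes (`LeadLinear` + `MinOrdSpec`: `ξ(p_Q) = 0` forces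
`ord_Q ξ(x) > minOrd_Q`, i.e. `Q = inf` or `Q` is a zero of the nonzero function `ξ(x)`;
finiteness of zeros from `X0/FFGenus6.finite_support_ord`).
-/
import Mathlib
import Fermat.Agent.MW.Spec.BricksU7
import Fermat.Agent.MW.Local.GenPosBPF80
import Fermat.Agent.X0.FFGenus6

set_option autoImplicit false

open AlgebraicCurve

namespace Fermat.Agent.MW.Local.GenPosBpfU80

open Fermat.Agent.MW.Hadamard7 Fermat.Agent.MW.Spec.Defs7 Fermat.Agent.MW.Spec.Bricks7
open Fermat.Agent.MW.Spec.BricksU7 Fermat.Agent.X0.FF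

variable {K F : Type} [Field K] [Field F] [Algebra K F] [HasCanonicalDivisor (K := K) (F := F)]

/-- A nonzero linear form gives a nonzero linear section (the `x b` are linearly independent). -/
theorem lin_ne_zero (U : USetup K F) {ℓ : Fin (U.n + 1) → K} (hℓ : ℓ ≠ 0) : lin ℓ U.x ≠ 0 := by
  intro h0
  apply hℓ
  have hli := Fintype.linearIndependent_iff.mp U.x_indep ℓ
  funext b
  refine hli ?_ b
  rw [← h0]
  unfold lin
  exact Finset.sum_congr rfl fun b _ => Algebra.smul_def _ _

/-- A linear form vanishing at the point `Q ≠ inf` gives a section vanishing at `Q`. -/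
theorem ord_pos_of_dot_eq_zero (U : USetup K F) (hLL : U.LeadLinear) (hMO : U.MinOrdSpec)
    {ℓ : Fin (U.n + 1) → K} (hℓ : ℓ ≠ 0) {Q : Place K F} (hQ : Q ≠ U.inf)
    (h0 : dot ℓ (U.pt Q) = 0) : 0 < Q.ord (lin ℓ U.x) := by
  have hmin := hMO.1 Q hQ
  obtain ⟨-, h2, h3⟩ := hLL Q ℓ
  by_cases ht : dot ℓ (U.tg Q) = 0
  · rcases h3 h0 ht with h | h
    · exact absurd h (lin_ne_zero U hℓ)
    · rw [hmin] at h
      omega
  · have := (h2 h0 ht).1
    rw [hmin] at this
    omega

/-- A nonzero linear form vanishes at the coordinates of only finitely many places. -/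
theorem finite_dot_eq_zero [IsAlgClosed K] [CharZero K] (U : USetup K F) (hLL : U.LeadLinear)
    (hMO : U.MinOrdSpec) {ℓ : Fin (U.n + 1) → K} (hℓ : ℓ ≠ 0) :
    {Q : Place K F | dot ℓ (U.pt Q) = 0}.Finite := by
  have hfin := finite_support_ord U.gen (lin_ne_zero U hℓ)
  refine (hfin.union (Set.finite_singleton U.inf)).subset fun Q hQ => ?_
  by_cases hinf : Q = U.inf
  · exact Or.inr hinf
  · refine Or.inl ?_
    have := ord_pos_of_dot_eq_zero U hLL hMO hℓ hinf hQ
    exact (ne_of_gt this)

/-- **Brick L2'**: rational pencils in general position, tame constants, base point free. -/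
theorem genPosBpf [IsAlgClosed K] [CharZero K] (U : USetup K F) (hLL : U.LeadLinear)
    (hMO : U.MinOrdSpec) (hVA : U.VeryAmpleU) : U.GenPosBpf := by
  classical
  intro A
  -- `n ≥ 1`
  have hn : 2 ≤ Fintype.card (Fin (U.n + 1)) := by
    rw [Fintype.card_fin]
    by_contra hcon
    have hn0 : U.n = 0 := by omega
    apply hVA.2.2 U.inf
    funext ij
    obtain ⟨i, j⟩ := ij
    have hi : i = j := by
      apply Fin.ext
      have := i.2
      have := j.2
      omega
    subst hi
    simp [wedge]
  -- the points to avoid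
  have hcast : ∀ ξ : Fin (U.n + 1) → ℚ, ξ ≠ 0 → (fun i => ((ξ i : ℚ) : K)) ≠ 0 := by
    intro ξ hξ h0
    apply hξ
    funext i
    have := congrFun h0 i
    simpa using this
  let H : (Fin (U.n + 1) → ℚ) → Finset (Fin (U.n + 1) → K) := fun ξ =>
    if hξ : ξ = 0 then ∅
    else (finite_dot_eq_zero U hLL hMO (hcast ξ hξ)).toFinset.image U.pt
  have hH : ∀ ξ, ∀ p ∈ H ξ, p ≠ 0 := by
    intro ξ p hp
    by_cases hξ : ξ = 0
    · simp [H, hξ] at hp
    · simp only [H, dif_neg hξ] at hp
      obtain ⟨P, -, rfl⟩ := Finset.mem_image.mp hp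
      exact hVA.1 P
  obtain ⟨ξ, η, C, hC, hgp, hav⟩ := GenPosBPF80.genPosExists_bpf hn A H hH
  refine ⟨ξ, η, C, hC, hgp, fun a => ⟨(hav a).1, fun P => ?_⟩⟩
  by_cases h0 : dot (fun i => ((ξ a i : ℚ) : K)) (U.pt P) = 0
  · right
    have hmem : U.pt P ∈ H (ξ a) := by
      simp only [H, dif_neg (hav a).1]
      exact Finset.mem_image.mpr ⟨P, (Set.Finite.mem_toFinset _).mpr h0, rfl⟩
    exact (hav a).2.2 _ hmem
  · exact Or.inl h0

end Fermat.Agent.MW.Local.GenPosBpfU80
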