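/-
Program MW (S17), height part H, brick L2 (helper80): THE CONTRACT `Bricks7.GenPosExists`.

`genPosExists : Spec.Bricks7.GenPosExists` — over every field of characteristic zero, for every finite
index type with at least two elements and every `A`, there are `A` pencils with RATIONAL
coefficients in general position, with tame constants.  Proof: transport of the family of
`GenPos80` (bivectors indexed by `i < j` in `Fin n`) along `Fintype.equivFin`.

Consumer lemmas in the format of the contract:
* `omega_wedge`: `ω(p ∧ q) = ξ(p) η(q) - η(p) ξ(q)`;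
* `wedge_antisymm`;
* `IsGenPos.exists_good`: pigeonhole, one pencil which is good for `m` bivectors at once when
  `m (D - 1) < A`.
-/
import Mathlib
import Fermat.Agent.MW.Spec.Bricks7
import Fermat.Agent.MW.Local.GenPos80

set_option autoImplicit false

namespace Fermat.Agent.MW.Local.GenPosContract80

open Fermat.Agent.MW.Hadamard7 Fermat.Agent.MW.Spec.Defs7 Fermat.Agent.MW.Spec.Bricks7
open Fermat.Agent.MW.Local
open Finset

/-- **Brick L2**: pencils with rational coefficients in general position, tame constants. -/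
theorem genPosExists : Spec.Bricks7.GenPosExists := by
  intro K _ _ ι _ hι A
  classical
  obtain ⟨n, hn⟩ : ∃ n, n = Fintype.card ι := ⟨_, rfl⟩
  have e : ι ≃ Fin n := hn ▸ Fintype.equivFin ι
  obtain ⟨P⟩ := GenPos80.nonempty_pencilFamily ℚ n A
  let f : ℚ →+* K := Rat.castHom K
  refine ⟨fun a i => P.ξ a (e i), fun a i => P.η a (e i), fun v => P.genC v f, ?_, ?_⟩
  · exact ⟨P.tameSet f, fun a ha => P.ne_zero_of_mem_tameSet f ha, fun v =>
      ⟨P.one_le_genC v f, fun hv h1 => P.genC_eq_one_of_tameSet f v hv h1⟩⟩
  · intro v _ w hw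
    set W : Fin n × Fin n → K := fun p => w (e.symm p.1, e.symm p.2) with hW
    have hWa : ∀ i j, W (i, j) = -W (j, i) := fun i j => hw _ _
    have hWd : ∀ i, W (i, i) = 0 := fun i => self_eq_neg.mp (hWa i i)
    have hom : ∀ a, Spec.Bricks7.omega (fun i => ((P.ξ a (e i) : ℚ) : K))
        (fun i => ((P.η a (e i) : ℚ) : K)) w = P.om f a (GenPos80.restrictP W) := by
      intro a
      unfold GenPos80.PencilFamily.om
      rw [← GenPos80.sum_full_eq_omega _ _ W hWa hWd]
      unfold Spec.Bricks7.omega
      refine Fintype.sum_equiv e _ _ fun i => ?_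
      refine Fintype.sum_equiv e _ _ fun j => ?_
      simp [hW, GenPos80.PencilFamily.ξK, GenPos80.PencilFamily.ηK, f]
    have hsup : supNorm v w = supNorm v (GenPos80.restrictP W) := by
      rw [← GenPos80.supNorm_restrictP v W hWa hWd]
      unfold supNorm
      exact ((Equiv.prodCongr e e).symm.iSup_comp (g := fun x => v (w x))).symm
    simp only [hom, hsup]
    have hD : 0 < Fintype.card (GenPos80.Pairs n) := by
      rw [GenPos80.card_pairs, hn]; exact Nat.choose_pos hι
    have := P.card_bad_lt v f hD (GenPos80.restrictP W)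
    rw [GenPos80.card_pairs] at this
    rw [← hn]
    exact this

section Consumer

variable {K : Type*} [Field K] {ι : Type*} [Fintype ι]

omit [Fintype ι] in
/-- The vector of minors is antisymmetric. -/
theorem wedge_antisymm (x y : ι → K) (i j : ι) : wedge x y (i, j) = -wedge x y (j, i) := by
  simp only [wedge]; ring

/-- `ω(p ∧ q) = ξ(p) η(q) - η(p) ξ(q)`. -/
theorem omega_wedge (ξ η x y : ι → K) :
    Spec.Bricks7.omega ξ η (wedge x y)
      = (∑ i, ξ i * x i) * (∑ j, η j * y j) - (∑ i, η i * x i) * (∑ j, ξ j * y j) := by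
  unfold Spec.Bricks7.omega
  rw [Finset.sum_mul_sum, Finset.sum_mul_sum,
    Finset.sum_comm (f := fun i j => η i * x i * (ξ j * y j)), ← Finset.sum_sub_distrib]
  refine Finset.sum_congr rfl fun i _ => ?_
  rw [← Finset.sum_sub_distrib]
  refine Finset.sum_congr rfl fun j _ => ?_
  simp only [wedge]
  ring

/-- **Pigeonhole**: with more than `m (D - 1)` pencils in general position, one pencil is good
for `m` antisymmetric `w` simultaneously. -/
theorem IsGenPos.exists_good {A m : ℕ} {ξ η : Fin A → ι → K} {C : AbsoluteValue K ℝ → ℝ}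
    (h : IsGenPos ξ η C) (hA : m * ((Fintype.card ι).choose 2 - 1) < A)
    (v : AbsoluteValue K ℝ) (hv : IsNiceAbs v) (w : Fin m → ι × ι → K)
    (hw : ∀ k i j, w k (i, j) = -w k (j, i)) :
    ∃ a : Fin A, ∀ k, supNorm v (w k) ≤ C v * v (Spec.Bricks7.omega (ξ a) (η a) (w k)) := by
  classical
  obtain ⟨a, ha⟩ := GenPos80.exists_notMem_of_card_le
    (fun k => Finset.univ.filter fun a : Fin A =>
      C v * v (Spec.Bricks7.omega (ξ a) (η a) (w k)) < supNorm v (w k))
    (fun k => Nat.le_sub_one_of_lt (h v hv (w k) (hw k))) hA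
  refine ⟨a, fun k => ?_⟩
  by_contra hcon
  rw [not_le] at hcon
  exact ha k (Finset.mem_filter.mpr ⟨Finset.mem_univ _, hcon⟩)

end Consumer

end Fermat.Agent.MW.Local.GenPosContract80
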