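/-
Program MW-H (S17), brick UB5.  helper7.

CERTIFICATES.  (1) Nullstellensatz in certificate form: if `T` vanishes at every common zero of
`g 0, …, g (r-1)` and of an ideal `I`, then `T ^ R = ∑ G a * g a + h` with `h ∈ I`.
(2) The certificate inequality: from such an identity, for every absolute value `v` and every point
`z` of the unit polydisc at which `h` vanishes,
`v (T(z)) ^ R ≤ certC v G * max_a v (g_a(z))`, where `certC · G` is a TAME constant
(`= 1` as soon as `v` is nonarchimedean and `= 1` on the nonzero coefficients of the `G a`).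
-/
import Mathlib
import Fermat.Agent.MW.Spec.Bricks7
import Fermat.Agent.MW.Local.GenPos2

set_option autoImplicit false

namespace Fermat.Agent.MW.Local.Certificate7

open MvPolynomial Fermat.Agent.MW.Spec.Defs7 Fermat.Agent.MW.Spec.Bricks7
open Fermat.Agent.MW.Local.GenPos2

section Null

variable {K : Type*} [Field K] [IsAlgClosed K] {σ : Type*} [Finite σ]

/-- **Nullstellensatz, certificate form.** -/
theorem exists_certificate {r : ℕ} (g : Fin r → MvPolynomial σ K) (I : Ideal (MvPolynomial σ K))
    (T : MvPolynomial σ K)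
    (hT : ∀ z : σ → K, (∀ a, eval z (g a) = 0) → (∀ p ∈ I, eval z p = 0) → eval z T = 0) :
    ∃ (R : ℕ) (G : Fin r → MvPolynomial σ K) (h : MvPolynomial σ K), h ∈ I ∧
      T ^ R = ∑ a, G a * g a + h := by
  set J : Ideal (MvPolynomial σ K) := Ideal.span (Set.range g) ⊔ I with hJ
  have hmem : T ∈ vanishingIdeal K (zeroLocus K J) := by
    rw [mem_vanishingIdeal_iff]
    intro z hz
    rw [mem_zeroLocus_iff] at hz
    have h1 : ∀ a, eval z (g a) = 0 := fun a => by
      have := hz (g a) (Ideal.mem_sup_left (Ideal.subset_span ⟨a, rfl⟩))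
      simpa [aeval_eq_eval] using this
    have h2 : ∀ p ∈ I, eval z p = 0 := fun p hp => by
      have := hz p (Ideal.mem_sup_right hp)
      simpa [aeval_eq_eval] using this
    have := hT z h1 h2
    simpa [aeval_eq_eval] using this
  rw [vanishingIdeal_zeroLocus_eq_radical] at hmem
  obtain ⟨R, hR⟩ := hmem
  obtain ⟨y, hy, h, hh, hyh⟩ := Submodule.mem_sup.mp hR
  obtain ⟨G, hG⟩ := (Ideal.mem_span_range_iff_exists_fun).mp hy
  exact ⟨R, G, h, hh, by rw [← hyh, ← hG]⟩

end Null

section Bound

variable {K : Type*} [Field K] {σ : Type*}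

/-- The largest absolute value of a coefficient. -/
noncomputable def coefMax (v : AbsoluteValue K ℝ) (p : MvPolynomial σ K) : ℝ :=
  ((p.support.sup fun m => (⟨v (p.coeff m), v.nonneg _⟩ : NNReal)) : NNReal)

theorem coefMax_nonneg (v : AbsoluteValue K ℝ) (p : MvPolynomial σ K) : 0 ≤ coefMax v p :=
  NNReal.coe_nonneg _

theorem le_coefMax (v : AbsoluteValue K ℝ) (p : MvPolynomial σ K) (m : σ →₀ ℕ) :
    v (p.coeff m) ≤ coefMax v p := by
  by_cases hm : m ∈ p.support
  · have := Finset.le_sup (f := fun m => (⟨v (p.coeff m), v.nonneg _⟩ : NNReal)) hm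
    exact_mod_cast this
  · rw [MvPolynomial.notMem_support_iff.mp hm, map_zero]
    exact coefMax_nonneg v p

theorem coefMax_le (v : AbsoluteValue K ℝ) (p : MvPolynomial σ K) {B : ℝ} (hB : 0 ≤ B)
    (h : ∀ m ∈ p.support, v (p.coeff m) ≤ B) : coefMax v p ≤ B := by
  unfold coefMax
  have : (p.support.sup fun m => (⟨v (p.coeff m), v.nonneg _⟩ : NNReal)) ≤ ⟨B, hB⟩ :=
    Finset.sup_le fun m hm => by
      change v (p.coeff m) ≤ B
      exact h m hm
  exact_mod_cast this

/-- The bound for the values of `p` on the unit polydisc. -/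
noncomputable def polyBound (v : AbsoluteValue K ℝ) (p : MvPolynomial σ K) : ℝ :=
  triC v p.support.card * coefMax v p

theorem polyBound_nonneg (v : AbsoluteValue K ℝ) (p : MvPolynomial σ K) : 0 ≤ polyBound v p :=
  mul_nonneg (triC_nonneg v _) (coefMax_nonneg v p)

theorem abv_eval_le_polyBound (v : AbsoluteValue K ℝ) (p : MvPolynomial σ K) (z : σ → K)
    (hz : ∀ i, v (z i) ≤ 1) : v (eval z p) ≤ polyBound v p := by
  rw [MvPolynomial.eval_eq]
  refine abv_sum_le_triC v _ _ _ (coefMax_nonneg v p) fun m _ => ?_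
  rw [map_mul, map_prod]
  have h1 : ∏ i ∈ m.support, v (z i ^ m i) ≤ 1 := by
    refine Finset.prod_le_one (fun i _ => v.nonneg _) fun i _ => ?_
    rw [map_pow]
    exact pow_le_one₀ (v.nonneg _) (hz i)
  calc v (p.coeff m) * ∏ i ∈ m.support, v (z i ^ m i)
      ≤ coefMax v p * 1 :=
        mul_le_mul (le_coefMax v p m) h1 (Finset.prod_nonneg fun i _ => v.nonneg _)
          (coefMax_nonneg v p)
    _ = coefMax v p := mul_one _

theorem polyBound_le_one (v : AbsoluteValue K ℝ) (hv : IsNonarchimedean v) (p : MvPolynomial σ K)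
    (h : ∀ m ∈ p.support, v (p.coeff m) ≤ 1) : polyBound v p ≤ 1 := by
  unfold polyBound triC
  rw [if_pos hv, one_mul]
  exact coefMax_le v p zero_le_one h

/-- The largest of the bounds `polyBound v (G a)`. -/
noncomputable def boundMax {r : ℕ} (G : Fin r → MvPolynomial σ K) (v : AbsoluteValue K ℝ) : ℝ :=
  ((Finset.univ.sup fun a => (⟨polyBound v (G a), polyBound_nonneg v _⟩ : NNReal)) : NNReal)

theorem boundMax_nonneg {r : ℕ} (G : Fin r → MvPolynomial σ K) (v : AbsoluteValue K ℝ) :
    0 ≤ boundMax G v := NNReal.coe_nonneg _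

theorem le_boundMax {r : ℕ} (G : Fin r → MvPolynomial σ K) (v : AbsoluteValue K ℝ) (a : Fin r) :
    polyBound v (G a) ≤ boundMax G v := by
  have := Finset.le_sup (f := fun a => (⟨polyBound v (G a), polyBound_nonneg v _⟩ : NNReal))
    (Finset.mem_univ a)
  exact_mod_cast this

theorem boundMax_le {r : ℕ} (G : Fin r → MvPolynomial σ K) (v : AbsoluteValue K ℝ) {B : ℝ}
    (hB : 0 ≤ B) (h : ∀ a, polyBound v (G a) ≤ B) : boundMax G v ≤ B := by
  unfold boundMax
  have : (Finset.univ.sup fun a => (⟨polyBound v (G a), polyBound_nonneg v _⟩ : NNReal))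
      ≤ ⟨B, hB⟩ :=
    Finset.sup_le fun a _ => by
      change polyBound v (G a) ≤ B
      exact h a
  exact_mod_cast this

/-- The tame constant of a certificate. -/
noncomputable def certC {r : ℕ} (G : Fin r → MvPolynomial σ K) (v : AbsoluteValue K ℝ) : ℝ :=
  max 1 (triC v r * boundMax G v)

theorem one_le_certC {r : ℕ} (G : Fin r → MvPolynomial σ K) (v : AbsoluteValue K ℝ) :
    1 ≤ certC G v := le_max_left _ _

/-- **Certificate inequality.** -/
theorem certificate_bound (v : AbsoluteValue K ℝ) {r : ℕ} (g G : Fin r → MvPolynomial σ K)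
    (h T : MvPolynomial σ K) (hT : T = ∑ a, G a * g a + h) (z : σ → K)
    (hz : ∀ i, v (z i) ≤ 1) (hh : eval z h = 0) (B : ℝ) (hB0 : 0 ≤ B)
    (hB : ∀ a, v (eval z (g a)) ≤ B) : v (eval z T) ≤ certC G v * B := by
  rw [hT, map_add, hh, add_zero, map_sum]
  have h1 : v (∑ a, eval z (G a * g a)) ≤ triC v r * (boundMax G v * B) := by
    have := abv_sum_le_triC v (Finset.univ : Finset (Fin r)) (fun a => eval z (G a * g a))
      (boundMax G v * B) (mul_nonneg (boundMax_nonneg G v) hB0) ?_
    · simpa using this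
    · intro a _
      rw [map_mul, map_mul]
      refine mul_le_mul ?_ (hB a) (v.nonneg _) (boundMax_nonneg G v)
      exact (abv_eval_le_polyBound v (G a) z hz).trans (le_boundMax G v a)
  calc v (∑ a, eval z (G a * g a)) ≤ triC v r * (boundMax G v * B) := h1
    _ = (triC v r * boundMax G v) * B := by ring
    _ ≤ certC G v * B := mul_le_mul_of_nonneg_right (le_max_right _ _) hB0

/-- The constant of a certificate is tame. -/
theorem isTameConst_certC {r : ℕ} (G : Fin r → MvPolynomial σ K) :
    IsTameConst (certC G) := by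
  classical
  refine ⟨(Finset.univ.biUnion fun a => (G a).support.image fun m => (G a).coeff m), ?_, ?_⟩
  · intro x hx
    obtain ⟨a, -, hx⟩ := Finset.mem_biUnion.mp hx
    obtain ⟨m, hm, rfl⟩ := Finset.mem_image.mp hx
    exact MvPolynomial.mem_support_iff.mp hm
  · intro v
    refine ⟨one_le_certC G v, fun hv hS => ?_⟩
    unfold certC
    refine max_eq_left ?_
    have htri : triC v r = 1 := by unfold triC; rw [if_pos hv]
    rw [htri, one_mul]
    refine boundMax_le G v zero_le_one fun a => polyBound_le_one v hv (G a) fun m hm => ?_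
    refine le_of_eq (hS _ ?_)
    exact Finset.mem_biUnion.mpr ⟨a, Finset.mem_univ a, Finset.mem_image.mpr ⟨m, hm, rfl⟩⟩

end Bound

section Main

variable {K : Type*} [Field K] [IsAlgClosed K] {σ : Type*} [Finite σ]

/-- **Quantitative Nullstellensatz with tame constants**: if `T` vanishes at every common zero of
the `g a` and of the ideal `I`, then there are `R` and a tame constant `C` such that
`v (T z) ^ R ≤ C v * max_a v (g_a z)` for every absolute value `v` and every point `z` of the unit
polydisc of `v` at which `I` vanishes. -/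
theorem exists_tame_bound {r : ℕ} (g : Fin r → MvPolynomial σ K) (I : Ideal (MvPolynomial σ K))
    (T : MvPolynomial σ K)
    (hT : ∀ z : σ → K, (∀ a, eval z (g a) = 0) → (∀ p ∈ I, eval z p = 0) → eval z T = 0) :
    ∃ (R : ℕ) (C : AbsoluteValue K ℝ → ℝ), IsTameConst C ∧
      ∀ (v : AbsoluteValue K ℝ) (z : σ → K), (∀ i, v (z i) ≤ 1) → (∀ p ∈ I, eval z p = 0) →
        ∀ B : ℝ, 0 ≤ B → (∀ a, v (eval z (g a)) ≤ B) → v (eval z T) ^ R ≤ C v * B := by
  obtain ⟨R, G, h, hh, hcert⟩ := exists_certificate g I T hT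
  refine ⟨R, certC G, isTameConst_certC G, fun v z hz hI B hB0 hB => ?_⟩
  have := certificate_bound v g G h (T ^ R) hcert z hz (hI h hh) B hB0 hB
  rwa [map_pow, map_pow] at this

end Main

end Fermat.Agent.MW.Local.Certificate7
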