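/-
Program MW-H (S17), helper86.  Package [g] HD-local, part 2: REFERENCE PLACES.

* `exists_place_pos`, `infinite_place`, `exists_finset_places` : a function field in one variable
  over an algebraically closed field of characteristic zero has infinitely many places; finite sets
  of places of any cardinality avoiding a given finite set exist.
* `refC R` : the tame constant attached to a finite set `R` of reference places (`triC v 3` times
  the inverse mutual chordal distances), `isTameConst_refC`.
* `good_or_good` : a place `P` is `refC`-far from all but at most one reference place;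
  `exists_far_place` : if `S` is a set of fewer than `#R` places then some reference place
  `Q' ∈ R \ S` has `λ_v(P, Q') ≤ log (refC R v)` for all `P ∈ S`.
-/
import Mathlib
import Fermat.Agent.MW.Local.Tame86
import Fermat.Agent.MW.FF.EvalLead49
import Fermat.Agent.RR.RRMain

set_option autoImplicit false

open AlgebraicCurve

namespace Fermat.Agent.MW.Local.FarPlace86

open Fermat.Agent.MW.Hadamard7 Fermat.Agent.MW.Spec.Defs7 Fermat.Agent.MW.Spec.Bricks7
open Fermat.Agent.MW.Local.Chord2 Fermat.Agent.MW.Global.PairBasic2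
open Fermat.Agent.MW.Local.GenPos2
open Fermat.Agent.MW.Local.Tame86 Fermat.Agent.X0.FF Fermat.Agent.RR.LSpace

/-! ### Infinitely many places -/

section Places

variable {K F : Type*} [Field K] [Field F] [Algebra K F] [IsAlgClosed K] [CharZero K] {u : F}

/-- Every value of the separating element is taken at some place. -/
theorem exists_place_pos (hu : IsGen K u) (c : K) :
    ∃ P : Place K F, 0 < P.ord (u - algebraMap K F c) := by
  have H := Fermat.Agent.RR.LHypGen.lHyp_of_isGen hu
  by_contra hcon
  push Not at hcon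
  have hne : u - algebraMap K F c ≠ 0 := hu.sub_algebraMap_ne_zero c
  obtain ⟨a, ha⟩ := eq_algebraMap_of_forall_ord_nonneg H (f := (u - algebraMap K F c)⁻¹)
    (fun v => by
      rw [v.ord_inv]
      have := hcon v
      omega)
  apply hu.transcendental
  have hu' : u = algebraMap K F (a⁻¹ + c) := by
    have h1 : u - algebraMap K F c = (algebraMap K F a)⁻¹ := by
      rw [← ha, inv_inv]
    rw [map_add, map_inv₀, ← h1]
    ring
  rw [hu']
  exact isAlgebraic_algebraMap _

/-- A place at which `u` takes the value `c`. -/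
noncomputable def placeOf (hu : IsGen K u) (c : K) : Place K F := (exists_place_pos hu c).choose

theorem placeOf_spec (hu : IsGen K u) (c : K) :
    0 < (placeOf hu c).ord (u - algebraMap K F c) := (exists_place_pos hu c).choose_spec

theorem placeOf_injective (hu : IsGen K u) : Function.Injective (placeOf (F := F) hu) := by
  intro c c' h
  by_contra hne
  have h1 := placeOf_spec hu c
  have h2 := placeOf_spec hu c'
  rw [← h] at h2
  set P := placeOf hu c
  have hd : algebraMap K F (c' - c) ≠ 0 := by
    rw [ne_eq, map_eq_zero_iff _ (algebraMap K F).injective, sub_eq_zero]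
    exact fun h => hne h.symm
  have e : (u - algebraMap K F c) - (u - algebraMap K F c') = algebraMap K F (c' - c) := by
    rw [map_sub]; ring
  have h3 := ord_sub_ge P (f := u - algebraMap K F c) (g := u - algebraMap K F c')
    (by rw [e]; exact hd)
  rw [e, ord_algebraMap] at h3
  have : 0 < min (P.ord (u - algebraMap K F c)) (P.ord (u - algebraMap K F c')) := lt_min h1 h2
  omega

theorem infinite_place (hu : IsGen K u) : Infinite (Place K F) := by
  have : Infinite K := IsAlgClosed.instInfinite
  exact Infinite.of_injective _ (placeOf_injective hu)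

/-- Finite sets of places of any cardinality avoiding a given finite set. -/
theorem exists_finset_places (hu : IsGen K u) (S : Finset (Place K F)) (N : ℕ) :
    ∃ R : Finset (Place K F), R.card = N ∧ Disjoint R S := by
  classical
  have := infinite_place hu
  have hinf : ((S : Set (Place K F))ᶜ).Infinite := S.finite_toSet.infinite_compl
  obtain ⟨R, hR, hcard⟩ := hinf.exists_subset_card_eq N
  refine ⟨R, hcard, ?_⟩
  rw [Finset.disjoint_left]
  intro P hP hPS
  exact hR hP hPS

end Places

/-! ### The constant of a finite set of reference places -/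

section Ref

variable {K F : Type*} [Field K] [Field F] [Algebra K F] {n : ℕ}
variable (x : Fin (n + 1) → F) (t : Place K F → F)

/-- The constant of a finite set of reference places. -/
noncomputable def refC (R : Finset (Place K F)) (v : AbsoluteValue K ℝ) : ℝ :=
  triC v 3 * ∏ Q ∈ R, ∏ Q' ∈ R,
    Real.exp |Real.log (chord v (coordAt Q (t Q) x) (coordAt Q' (t Q') x))|

theorem isTameConst_refC (R : Finset (Place K F)) : IsTameConst (refC x t R) := by
  unfold refC
  refine tame_mul (isTameConst_triC (by norm_num)) ?_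
  refine tame_finset_prod R _ fun Q _ => tame_finset_prod R _ fun Q' _ => ?_
  exact (tameZero_log_chord _ _).tame_exp_abs

theorem inv_le_exp_abs_log {c : ℝ} (hc : 0 < c) : c⁻¹ ≤ Real.exp |Real.log c| := by
  have h1 : c⁻¹ = Real.exp (-Real.log c) := by
    rw [Real.exp_neg, Real.exp_log hc]
  rw [h1]
  exact Real.exp_le_exp.mpr (neg_le_abs _)

variable {x t}

omit [Field K] [Field F] [Algebra K F] in
theorem le_prod_of_one_le {ι : Type*} (s : Finset ι) (f : ι → ℝ) (hf : ∀ i ∈ s, 1 ≤ f i)
    {a : ι} (ha : a ∈ s) : f a ≤ ∏ i ∈ s, f i := by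
  classical
  rw [← Finset.mul_prod_erase s f ha]
  have h1 : 1 ≤ ∏ i ∈ s.erase a, f i :=
    Finset.prod_induction _ (fun y => 1 ≤ y)
      (fun _ _ ha hb => one_le_mul_of_one_le_of_one_le ha hb) le_rfl
      fun i hi => hf i (Finset.mem_of_mem_erase hi)
  have h0 : 0 ≤ f a := le_trans zero_le_one (hf a ha)
  nlinarith

omit [Field K] [Field F] [Algebra K F] in
theorem one_le_prod_of_one_le {ι : Type*} (s : Finset ι) (f : ι → ℝ) (hf : ∀ i ∈ s, 1 ≤ f i) :
    1 ≤ ∏ i ∈ s, f i :=
  Finset.prod_induction _ (fun y => 1 ≤ y)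
    (fun _ _ ha hb => one_le_mul_of_one_le_of_one_le ha hb) le_rfl hf

/-- The inverse chordal distance of two distinct reference places is bounded by `refC / triC 3`. -/
theorem triC_mul_inv_chord_le_refC {R : Finset (Place K F)} (v : AbsoluteValue K ℝ)
    {Q Q' : Place K F} (hQ : Q ∈ R) (hQ' : Q' ∈ R)
    (hpos : 0 < chord v (coordAt Q (t Q) x) (coordAt Q' (t Q') x)) :
    triC v 3 * (chord v (coordAt Q (t Q) x) (coordAt Q' (t Q') x))⁻¹ ≤ refC x t R v := by
  unfold refC
  refine mul_le_mul_of_nonneg_left ?_ (triC_nonneg v 3)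
  refine (inv_le_exp_abs_log hpos).trans ?_
  have hone : ∀ A B : Place K F, 1 ≤
      Real.exp |Real.log (chord v (coordAt A (t A) x) (coordAt B (t B) x))| :=
    fun A B => Real.one_le_exp (abs_nonneg _)
  have h1 := le_prod_of_one_le R
    (fun B => Real.exp |Real.log (chord v (coordAt Q (t Q) x) (coordAt B (t B) x))|)
    (fun B _ => hone Q B) hQ'
  have h2 := le_prod_of_one_le R
    (fun A => ∏ B ∈ R, Real.exp |Real.log (chord v (coordAt A (t A) x) (coordAt B (t B) x))|)
    (fun A _ => one_le_prod_of_one_le R _ fun B _ => hone A B) hQ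
  exact h1.trans h2

variable (hpt : ∀ P : Place K F, coordAt P (t P) x ≠ 0)
  (hsep : ∀ P Q : Place K F, P ≠ Q → wedge (coordAt P (t P) x) (coordAt Q (t Q) x) ≠ 0)

include hpt hsep

theorem chord_pos (v : AbsoluteValue K ℝ) {P Q : Place K F} (h : P ≠ Q) :
    0 < chord v (coordAt P (t P) x) (coordAt Q (t Q) x) := by
  unfold chord
  refine div_pos ((supNorm_pos_iff v _).mpr (hsep P Q h)) (mul_pos ?_ ?_)
  · exact (supNorm_pos_iff v _).mpr (hpt P)
  · exact (supNorm_pos_iff v _).mpr (hpt Q)

/-- `P` is far from the reference place `Q'`. -/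
def IsFar (R : Finset (Place K F)) (v : AbsoluteValue K ℝ) (P Q' : Place K F) : Prop :=
  P ≠ Q' ∧ lamAt v x t P Q' ≤ Real.log (refC x t R v)

omit hpt hsep in
theorem refC_pos (R : Finset (Place K F)) (v : AbsoluteValue K ℝ) : 0 < refC x t R v :=
  tame_pos (isTameConst_refC x t R) v

/-- A place is far from all but at most one reference place. -/
theorem far_or_far (R : Finset (Place K F)) (v : AbsoluteValue K ℝ) (P : Place K F)
    {Q Q' : Place K F} (hQ : Q ∈ R) (hQ' : Q' ∈ R) (hne : Q ≠ Q') :
    IsFar (x := x) (t := t) R v P Q ∨ IsFar (x := x) (t := t) R v P Q' := by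
  have hQQ' := chord_pos hpt hsep v hne
  have hbound := triC_mul_inv_chord_le_refC v hQ hQ' hQQ'
  have htri : 1 ≤ triC v 3 := one_le_triC v (by norm_num)
  -- `chord ≥ 1 / refC` implies `λ ≤ log refC`
  have key : ∀ {A B : Place K F}, A ≠ B →
      (refC x t R v)⁻¹ ≤ chord v (coordAt A (t A) x) (coordAt B (t B) x) →
      lamAt v x t A B ≤ Real.log (refC x t R v) := by
    intro A B hAB hle
    rw [lamAt_of_ne v x t hAB, neg_le, ← Real.log_inv]
    exact Real.log_le_log (inv_pos.mpr (refC_pos R v)) hle
  by_cases hPQ : P = Q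
  · right
    subst hPQ
    refine ⟨hne, key hne ?_⟩
    rw [inv_le_comm₀ (refC_pos R v) hQQ']
    calc (chord v (coordAt P (t P) x) (coordAt Q' (t Q') x))⁻¹
        ≤ triC v 3 * (chord v (coordAt P (t P) x) (coordAt Q' (t Q') x))⁻¹ :=
          le_mul_of_one_le_left (inv_nonneg.mpr hQQ'.le) htri
      _ ≤ refC x t R v := hbound
  by_cases hPQ' : P = Q'
  · left
    subst hPQ'
    refine ⟨hPQ, key hPQ ?_⟩
    rw [chord_comm, inv_le_comm₀ (refC_pos R v) hQQ']
    calc (chord v (coordAt Q (t Q) x) (coordAt P (t P) x))⁻¹
        ≤ triC v 3 * (chord v (coordAt Q (t Q) x) (coordAt P (t P) x))⁻¹ :=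
          le_mul_of_one_le_left (inv_nonneg.mpr hQQ'.le) htri
      _ ≤ refC x t R v := hbound
  -- general position: the chordal triangle inequality
  have htriangle := chord_triangle v (coordAt Q (t Q) x) (coordAt P (t P) x)
    (coordAt Q' (t Q') x) (hpt Q) (hpt P) (hpt Q')
  have hmax : (refC x t R v)⁻¹ ≤ max (chord v (coordAt Q (t Q) x) (coordAt P (t P) x))
      (chord v (coordAt P (t P) x) (coordAt Q' (t Q') x)) := by
    have h3 : 0 < triC v 3 := lt_of_lt_of_le one_pos htri
    have h1 : chord v (coordAt Q (t Q) x) (coordAt Q' (t Q') x) / triC v 3 ≤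
        max (chord v (coordAt Q (t Q) x) (coordAt P (t P) x))
          (chord v (coordAt P (t P) x) (coordAt Q' (t Q') x)) := by
      rw [div_le_iff₀ h3, mul_comm]
      exact htriangle
    refine le_trans ?_ h1
    rw [inv_le_comm₀ (refC_pos R v) (div_pos hQQ' h3), inv_div, div_eq_mul_inv]
    exact hbound
  rcases le_max_iff.mp hmax with h | h
  · left
    refine ⟨hPQ, key hPQ ?_⟩
    rwa [chord_comm]
  · right
    exact ⟨hPQ', key hPQ' h⟩

/-- **Reference place far from a small set.** -/
theorem exists_far_place (R : Finset (Place K F)) (v : AbsoluteValue K ℝ)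
    (S : Finset (Place K F)) (hcard : S.card < R.card) :
    ∃ Q' ∈ R, ∀ P ∈ S, IsFar (x := x) (t := t) R v P Q' := by
  classical
  by_contra hcon
  push Not at hcon
  -- every reference place is not far from some element of `S`
  choose! f hf using hcon
  have hmaps : ∀ Q' ∈ R, f Q' ∈ S := fun Q' hQ' => (hf Q' hQ').1
  have hinj : Set.InjOn f (R : Set (Place K F)) := by
    intro Q hQ Q' hQ' hff
    by_contra hne
    rcases far_or_far hpt hsep R v (f Q) hQ hQ' hne with h | h
    · exact (hf Q hQ).2 h
    · rw [hff] at h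
      exact (hf Q' hQ').2 h
  have := Finset.card_le_card_of_injOn f hmaps hinj
  omega

end Ref

end Fermat.Agent.MW.Local.FarPlace86
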