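/-
Program MW (S17), height part H, brick L4.  helper7.

HADAMARD INEQUALITY, FUNCTIONAL FORM (generalises `MW/Hadamard7`).

Data: a field `K` with an absolute value `v`; `r` linear functionals `ℓ 0, …, ℓ (r-1)` on the
space `ι → K` of coefficient vectors (`ℓ k` is given by its own coefficient vector,
`ℓ_k(s) = ∑ b, s b * ℓ k b`); nonnegative reals `β 0, …, β (r-1)`.

Hypothesis: whenever `s` is killed by `ℓ j` for all `j < k`, then `|ℓ_k(s)| ≤ β k · ‖s‖`.

Conclusion: for all coordinates `a 0, …, a (r-1)`,  `|det (ℓ_k(e_{a i}))| ≤ ∏ k, β k`.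

Uses.  `ℓ k` = evaluation at a point `P_k` (then `β k = C ‖x P_k‖ ∏_{j<k} d(P_j, P_k)` is the upper
half of the uniform decomposition theorem and we recover `Hadamard7`); evaluation of sections that
all vanish on a fixed auxiliary divisor `E₀` (then `β k` carries the extra factor
`∏_{R ∈ E₀} d(R, P_k)`: the refined inequality used for positivity on all Brill-Noether strata);
jets (`ℓ k` = a Taylor coefficient at a point of multiplicity `> 1`: non-reduced divisors).
-/
import Mathlib
import Fermat.Agent.MW.Hadamard7

set_option autoImplicit false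
set_option linter.unusedSectionVars false

namespace Fermat.Agent.MW.Local.Hadamard7b

open Finset Matrix Fermat.Agent.MW.Hadamard7

variable {K : Type*} [Field K] {v : AbsoluteValue K ℝ}
variable {ι : Type*} [Fintype ι] [DecidableEq ι]

/-- The hypothesis: `ℓ k` is bounded by `β k` on the common kernel of the earlier functionals. -/
def BoundedOnKernels (v : AbsoluteValue K ℝ) {r : ℕ} (ℓ : Fin r → ι → K) (β : Fin r → ℝ) : Prop :=
  ∀ (k : Fin r) (s : ι → K), (∀ j : Fin r, j < k → ∑ b, s b * ℓ j b = 0) →
    v (∑ b, s b * ℓ k b) ≤ β k * supNorm v s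

theorem BoundedOnKernels.castSucc {r : ℕ} {ℓ : Fin (r + 1) → ι → K} {β : Fin (r + 1) → ℝ}
    (h : BoundedOnKernels v ℓ β) :
    BoundedOnKernels v (fun j : Fin r => ℓ j.castSucc) (fun j : Fin r => β j.castSucc) := by
  intro k s hs
  refine h k.castSucc s fun j hj => ?_
  have hjk : (j : ℕ) < (k : ℕ) := by simpa [Fin.lt_def] using hj
  have hjlt : (j : ℕ) < r := hjk.trans k.2
  have hj' : j = (⟨j, hjlt⟩ : Fin r).castSucc := by ext; simp
  rw [hj']
  exact hs ⟨j, hjlt⟩ (by simpa [Fin.lt_def] using hjk)

/-- **Hadamard inequality, functional form.** -/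
theorem hadamard_functional :
    ∀ (r : ℕ) (ℓ : Fin r → ι → K) (β : Fin r → ℝ), (∀ k, 0 ≤ β k) → BoundedOnKernels v ℓ β →
      ∀ a : Fin r → ι, v (Matrix.det (Matrix.of fun i k => ℓ k (a i))) ≤ ∏ k, β k
  | 0, _, _, _, _, _ => by simp
  | r + 1, ℓ, β, hβ, hUD, a => by
      set M : Matrix (Fin (r + 1)) (Fin (r + 1)) K := Matrix.of fun i k => ℓ k (a i) with hM
      have hprod_nonneg : 0 ≤ ∏ k, β k := Finset.prod_nonneg fun k _ => hβ k
      by_cases ha : Function.Injective a
      swap
      · obtain ⟨i, j, hij, hne⟩ : ∃ i j, a i = a j ∧ i ≠ j := by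
          simpa [Function.Injective] using ha
        have : M.det = 0 := Matrix.det_zero_of_row_eq hne (by
          funext k
          simp [hM, hij])
        rw [this, map_zero]
        exact hprod_nonneg
      set l : Fin (r + 1) := Fin.last r with hl
      set cof : Fin (r + 1) → K := fun i =>
        (-1) ^ ((i : ℕ) + (l : ℕ)) * (M.submatrix i.succAbove l.succAbove).det with hcof
      set s : ι → K := fun b => ∑ i, if a i = b then cof i else 0 with hs
      have claimA : ∀ y : ι → K, ∑ b, s b * y b = (M.updateCol l fun i => y (a i)).det := by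
        intro y
        rw [Matrix.det_succ_column _ l]
        simp only [Matrix.updateCol_self, Matrix.submatrix_updateCol_succAbove]
        simp only [hs, Finset.sum_mul]
        rw [Finset.sum_comm]
        refine Finset.sum_congr rfl fun i _ => ?_
        simp only [ite_mul, zero_mul, Finset.sum_ite_eq, Finset.mem_univ, if_true, hcof]
        ring
      have claimB : ∀ j : Fin (r + 1), j < l → ∑ b, s b * ℓ j b = 0 := by
        intro j hj
        rw [claimA]
        refine Matrix.det_zero_of_column_eq (i := j) (j := l) hj.ne fun k => ?_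
        rw [Matrix.updateCol_self, Matrix.updateCol_ne hj.ne]
        simp [hM]
      have claimC : ∑ b, s b * ℓ l b = M.det := by
        rw [claimA]
        congr 1
        ext i j
        by_cases hj : j = l
        · subst hj
          simp [hM]
        · rw [Matrix.updateCol_ne hj]
      have hIH : ∀ i : Fin (r + 1), v (cof i) ≤ ∏ k : Fin r, β k.castSucc := by
        intro i
        have h := hadamard_functional r (fun j => ℓ j.castSucc) (fun j => β j.castSucc)
          (fun k => hβ _) hUD.castSucc (fun i' => a (i.succAbove i'))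
        have hsub : M.submatrix i.succAbove l.succAbove
            = Matrix.of fun i' j' => ℓ (Fin.castSucc j') (a (i.succAbove i')) := by
          ext i' j'
          simp [hM, hl, Fin.succAbove_last]
        simp only [hcof, map_mul, map_pow, map_neg_eq_map, map_one, one_pow, one_mul, hsub]
        exact h
      have hB0 : 0 ≤ ∏ k : Fin r, β k.castSucc := Finset.prod_nonneg fun k _ => hβ _
      have claimD : supNorm v s ≤ ∏ k : Fin r, β k.castSucc := by
        refine supNorm_le v hB0 fun b => ?_
        by_cases hb : ∃ i, a i = b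
        · obtain ⟨i₀, hi₀⟩ := hb
          have : s b = cof i₀ := by
            simp only [hs]
            rw [Finset.sum_eq_single i₀]
            · simp [hi₀]
            · intro i _ hne
              have : a i ≠ b := fun h => hne (ha (h.trans hi₀.symm))
              simp [this]
            · intro h
              exact absurd (Finset.mem_univ _) h
          rw [this]
          exact hIH i₀
        · have : s b = 0 := by
            simp only [hs]
            refine Finset.sum_eq_zero fun i _ => ?_
            have : a i ≠ b := fun h => hb ⟨i, h⟩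
            simp [this]
          rw [this, map_zero]
          exact hB0
      have key := hUD l s claimB
      rw [claimC] at key
      refine key.trans ?_
      rw [Fin.prod_univ_castSucc, mul_comm]
      exact mul_le_mul_of_nonneg_right claimD (hβ _)

/-- The usual shape of the bound: `β k = C · w k · ∏_{j<k} d j k`. -/
theorem hadamard_functional' {r : ℕ} (ℓ : Fin r → ι → K) {C : ℝ} (hC : 0 ≤ C) (w : Fin r → ℝ)
    (hw : ∀ k, 0 ≤ w k) (d : Fin r → Fin r → ℝ) (hd : ∀ j k, 0 ≤ d j k)
    (h : BoundedOnKernels v ℓ fun k => C * w k * ∏ j ∈ univ.filter (· < k), d j k)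
    (a : Fin r → ι) :
    v (Matrix.det (Matrix.of fun i k => ℓ k (a i))) ≤
      C ^ r * ((∏ k, w k) * ∏ k, ∏ j ∈ univ.filter (· < k), d j k) := by
  have h1 := hadamard_functional r ℓ _ (fun k => mul_nonneg (mul_nonneg hC (hw k))
    (Finset.prod_nonneg fun j _ => hd j k)) h a
  refine h1.trans (le_of_eq ?_)
  rw [Finset.prod_mul_distrib, Finset.prod_mul_distrib, Finset.prod_const, Finset.card_univ,
    Fintype.card_fin]
  ring

end Fermat.Agent.MW.Local.Hadamard7b
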