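/-
Program MW-H (S17), brick [g] HD-local (helper82), part 2: THE LOCAL JET-HADAMARD INEQUALITY.
-/
import Mathlib
import Fermat.Agent.MW.FF.Taylor82
import Fermat.Agent.MW.Local.Hadamard7b
import Fermat.Agent.MW.Global.PairBasic2

set_option autoImplicit false
set_option linter.unusedSectionVars false

open AlgebraicCurve Finset

namespace Fermat.Agent.MW.Local.JetHadamard82

open Fermat.Agent.MW.Hadamard7 Fermat.Agent.MW.Spec.Defs7 Fermat.Agent.MW.Spec.Contract7
open Fermat.Agent.MW.Spec.Bricks7 Fermat.Agent.MW.Local.Chord2 Fermat.Agent.MW.Local.Hadamard7b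
open Fermat.Agent.MW.FF.EvalLead49 Fermat.Agent.MW.FF.Taylor82 Fermat.Agent.MW.Global.PairBasic2
open Fermat.Agent.X0

/-! ### Jet indices of a list of points -/

section Jet

variable {r : ℕ} {α : Type*} [DecidableEq α] (pt : Fin r → α)

/-- the number of occurrences of `a` among the points of index `< k`. -/
def cntBefore (k : Fin r) (a : α) : ℕ := (univ.filter fun j : Fin r => j < k ∧ pt j = a).card

/-- the jet index of the `k`-th point: the number of earlier occurrences of the same point. -/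
def jetIdx (k : Fin r) : ℕ := cntBefore pt k (pt k)

theorem cntBefore_mono {j k : Fin r} (hjk : j ≤ k) (a : α) : cntBefore pt j a ≤ cntBefore pt k a := by
  unfold cntBefore
  refine card_le_card fun i hi => ?_
  rw [mem_filter] at hi ⊢
  exact ⟨hi.1, lt_of_lt_of_le hi.2.1 hjk, hi.2.2⟩

theorem cntBefore_lt {j k : Fin r} (hjk : j < k) : cntBefore pt j (pt j) < cntBefore pt k (pt j) := by
  unfold cntBefore
  refine card_lt_card ⟨fun i hi => ?_, fun h => ?_⟩
  · rw [mem_filter] at hi ⊢
    exact ⟨hi.1, hi.2.1.trans hjk, hi.2.2⟩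
  · have : j ∈ univ.filter fun i : Fin r => i < j ∧ pt i = pt j :=
      h (mem_filter.mpr ⟨mem_univ _, hjk, rfl⟩)
    exact lt_irrefl _ (mem_filter.mp this).2.1

/-- every jet index below the multiplicity is attained by an earlier point. -/
theorem exists_jetIdx_eq (k : Fin r) (a : α) {i : ℕ} (hi : i < cntBefore pt k a) :
    ∃ j : Fin r, j < k ∧ pt j = a ∧ jetIdx pt j = i := by
  set S := univ.filter fun j : Fin r => j < k ∧ pt j = a with hS
  have hcard : S.card = cntBefore pt k a := rfl
  have hmaps : ∀ j ∈ S, jetIdx pt j ∈ range (cntBefore pt k a) := by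
    intro j hj
    rw [mem_filter] at hj
    rw [mem_range, jetIdx]
    have := cntBefore_lt pt hj.2.1
    rw [hj.2.2] at this
    rw [hj.2.2]
    exact this
  have hinj : Set.InjOn (jetIdx pt) S := by
    intro j hj j' hj' hjj'
    rw [mem_coe, mem_filter] at hj hj'
    by_contra hne
    rcases lt_or_gt_of_ne hne with h | h
    · have h1 := cntBefore_lt pt h
      have h2 : cntBefore pt j' (pt j) = jetIdx pt j' := by rw [jetIdx, hj.2.2, hj'.2.2]
      rw [h2, ← hjj'] at h1
      exact lt_irrefl _ h1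
    · have h1 := cntBefore_lt pt h
      have h2 : cntBefore pt j (pt j') = jetIdx pt j := by rw [jetIdx, hj.2.2, hj'.2.2]
      rw [h2, hjj'] at h1
      exact lt_irrefl _ h1
  have himg : S.image (jetIdx pt) = range (cntBefore pt k a) := by
    apply eq_of_subset_of_card_le
    · intro x hx
      obtain ⟨j, hj, rfl⟩ := mem_image.mp hx
      exact hmaps j hj
    · rw [card_image_of_injOn hinj, card_range, hcard]
  have : i ∈ S.image (jetIdx pt) := by rw [himg, mem_range]; exact hi
  obtain ⟨j, hj, hji⟩ := mem_image.mp this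
  rw [mem_filter] at hj
  exact ⟨j, hj.2.1, hj.2.2, hji⟩

end Jet

open scoped Classical

noncomputable section

/-! ### The jet functionals and their common kernels -/

section Kernel

variable {K F : Type*} [Field K] [Field F] [Algebra K F]
variable {ι : Type*} [Fintype ι]
variable (t : Place K F → F) (W : Divisor K F) (ω : ι → F)

/-- the regularised function `f · t_a ^ W(a)` at the place `a`. -/
def regAt (a : Place K F) (f : F) : F := f * t a ^ (W a)

/-- the jet functionals: `ℓ_k(b)` is the Taylor coefficient of index `jetIdx pt k` at `pt k` of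
`ω_b · t ^ W`. -/
def jetFun {r : ℕ} (pt : Fin r → Place K F) (k : Fin r) (b : ι) : K :=
  taylorAt (pt k) (t (pt k)) (jetIdx pt k) (regAt t W (pt k) (ω b))

variable {t W ω}

theorem reg_regAt (ht : ∀ P : Place K F, P.ord (t P) = 1) {f : F}
    (hf : f ∈ riemannRochSpace (K := K) (F := F) W) (a : Place K F) :
    a.adicValuation (regAt t W a f) ≤ 1 := by
  have ht0 := ne_zero_of_ord_eq_one (ht a)
  rw [a.adicValuation_le_one_iff]
  rcases (mem_riemannRochSpace_iff.mp hf) a with h | h
  · left; rw [regAt, h, zero_mul]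
  · by_cases h0 : f = 0
    · left; rw [regAt, h0, zero_mul]
    right
    rw [regAt, a.ord_mul h0 (zpow_ne_zero _ ht0), a.ord_zpow, ht a]
    linarith

theorem regAt_sum (s : ι → K) (a : Place K F) :
    regAt t W a (∑ b, s b • ω b) = ∑ b, s b • regAt t W a (ω b) := by
  simp only [regAt, Finset.sum_mul, smul_mul_assoc]

theorem sum_mul_jetFun (ht : ∀ P : Place K F, P.ord (t P) = 1) (hres : ∀ P : Place K F, HasResK P)
    (hω : ∀ b, ω b ∈ riemannRochSpace (K := K) (F := F) W) {r : ℕ} (pt : Fin r → Place K F)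
    (k : Fin r) (s : ι → K) :
    ∑ b, s b * jetFun t W ω pt k b =
      taylorAt (pt k) (t (pt k)) (jetIdx pt k) (regAt t W (pt k) (∑ b, s b • ω b)) := by
  rw [regAt_sum]
  exact sum_mul_taylorAt (hres (pt k)) (ht (pt k)) _ s _ fun b => reg_regAt ht (hω b) (pt k)

theorem ord_regAt (ht : ∀ P : Place K F, P.ord (t P) = 1) {f : F} (hf : f ≠ 0) (a : Place K F) :
    a.ord (regAt t W a f) = a.ord f + W a := by
  have ht0 := ne_zero_of_ord_eq_one (ht a)
  rw [regAt, a.ord_mul hf (zpow_ne_zero _ ht0), a.ord_zpow, ht a, mul_one]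

/-- on the common kernel of the earlier functionals, `h = ∑ s_b ω_b` vanishes to the order
prescribed by the earlier points. -/
theorem ord_ge_of_kernel (ht : ∀ P : Place K F, P.ord (t P) = 1)
    (hres : ∀ P : Place K F, HasResK P)
    (hω : ∀ b, ω b ∈ riemannRochSpace (K := K) (F := F) W) {r : ℕ} (pt : Fin r → Place K F)
    (k : Fin r) (s : ι → K) (hs : ∀ j : Fin r, j < k → ∑ b, s b * jetFun t W ω pt j b = 0)
    (hh : (∑ b, s b • ω b) ≠ 0) (a : Place K F) :
    (cntBefore pt k a : ℤ) ≤ a.ord (∑ b, s b • ω b) + W a := by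
  have hmem : (∑ b, s b • ω b) ∈ riemannRochSpace (K := K) (F := F) W :=
    Submodule.sum_mem _ fun b _ => Submodule.smul_mem _ _ (hω b)
  have hreg := reg_regAt ht hmem a
  have hvan : ∀ i < cntBefore pt k a,
      taylorAt a (t a) i (regAt t W a (∑ b, s b • ω b)) = 0 := by
    intro i hi
    obtain ⟨j, hjk, hja, hji⟩ := exists_jetIdx_eq pt k a hi
    have := sum_mul_jetFun ht hres hω pt j s
    rw [hs j hjk, hji, hja] at this
    exact this.symm
  rcases ord_ge_of_taylorAt_eq_zero (hres a) (ht a) _ hreg hvan with h | h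
  · exfalso
    rcases mul_eq_zero.mp h with h | h
    · exact hh h
    · exact zpow_ne_zero _ (ne_zero_of_ord_eq_one (ht a)) h
  · rwa [ord_regAt ht hh] at h

/-- on the common kernel of the earlier functionals, the `k`-th functional is `0` or the leading
coefficient of `h` at `pt k`. -/
theorem jetFun_kernel_value (ht : ∀ P : Place K F, P.ord (t P) = 1)
    (hres : ∀ P : Place K F, HasResK P)
    (hω : ∀ b, ω b ∈ riemannRochSpace (K := K) (F := F) W) {r : ℕ} (pt : Fin r → Place K F)
    (k : Fin r) (s : ι → K) (hs : ∀ j : Fin r, j < k → ∑ b, s b * jetFun t W ω pt j b = 0)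
    (hh : (∑ b, s b • ω b) ≠ 0) :
    ∑ b, s b * jetFun t W ω pt k b = 0 ∨
      ((pt k).ord (∑ b, s b • ω b) + W (pt k) = cntBefore pt k (pt k) ∧
        ∑ b, s b * jetFun t W ω pt k b = leadAt (pt k) (t (pt k)) (∑ b, s b • ω b)) := by
  have hge := ord_ge_of_kernel ht hres hω pt k s hs hh (pt k)
  have ht0 := ne_zero_of_ord_eq_one (ht (pt k))
  rw [sum_mul_jetFun ht hres hω]
  rcases hge.lt_or_eq with hlt | heq
  · left
    refine taylorAt_eq_zero_of_lt (ht (pt k)) (Or.inr ?_)
    rw [ord_regAt ht hh]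
    exact hlt
  · right
    refine ⟨heq.symm, ?_⟩
    rw [jetIdx, taylorAt_eq_leadAt (ht (pt k)) (by rw [ord_regAt ht hh]; exact heq.symm), regAt,
      leadAt_mul (hres (pt k)) (ht (pt k)) hh (zpow_ne_zero _ ht0),
      leadAt_zpow (hres (pt k)) (ht (pt k)) ht0, leadAt_self (ht (pt k)), one_zpow, mul_one]

end Kernel

/-! ### Pairings with a single point -/

section Estimate

variable {K F : Type*} [Field K] [Field F] [Algebra K F] {n : ℕ}
variable (v : AbsoluteValue K ℝ) (x : Fin (n + 1) → F) (t : Place K F → F)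

/-- the number of points of a divisor, counted with multiplicity. -/
def cnt (Z : Divisor K F) : ℤ := Z.sum fun _ m => m

theorem cnt_add (Z Z' : Divisor K F) : cnt (Z + Z') = cnt Z + cnt Z' :=
  Finsupp.sum_add_index' (fun _ => rfl) fun _ _ _ => rfl

theorem cnt_single (P : Place K F) (m : ℤ) : cnt (Finsupp.single P m) = m :=
  Finsupp.sum_single_index rfl

theorem cnt_nonneg {Z : Divisor K F} (hZ : 0 ≤ Z) : 0 ≤ cnt Z :=
  Finset.sum_nonneg fun a _ => hZ a

theorem cnt_sub (Z Z' : Divisor K F) : cnt (Z - Z') = cnt Z - cnt Z' := by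
  have := cnt_add (Z - Z') Z'
  rw [sub_add_cancel] at this
  linarith

theorem pairAt_single_right (Z : Divisor K F) (Q : Place K F) :
    pairAt v x t Z (Finsupp.single Q 1) = Z.sum fun a m => (m : ℝ) * lamAt v x t a Q := by
  rw [pairAt_def]
  refine Finsupp.sum_congr fun a _ => ?_
  rw [Finsupp.sum_single_index]
  · push_cast; ring
  · push_cast; ring

/-- lower bound for the pairing of an effective divisor with a point outside its support. -/
theorem pairAt_single_ge {Z : Divisor K F} (hZ : 0 ≤ Z) (Q : Place K F) (hQ : Z Q = 0) :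
    -((cnt Z : ℤ) : ℝ) * Real.log (triC v 2) ≤ pairAt v x t Z (Finsupp.single Q 1) := by
  rw [pairAt_single_right, cnt, Finsupp.sum, Finsupp.sum]
  push_cast
  rw [← neg_mul_eq_neg_mul, Finset.sum_mul, ← Finset.sum_neg_distrib]
  refine Finset.sum_le_sum fun a ha => ?_
  have hne : a ≠ Q := by
    rintro rfl
    exact (Finsupp.mem_support_iff.mp ha) hQ
  have h1 := lamAt_ge v x t hne
  have h2 : (0 : ℝ) ≤ (Z a : ℝ) := by exact_mod_cast hZ a
  nlinarith

/-- upper bound for the pairing of an effective divisor with a point far from its support. -/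
theorem pairAt_single_le {Z : Divisor K F} (hZ : 0 ≤ Z) (Q : Place K F) {B : ℝ}
    (hB : ∀ a ∈ Z.support, lamAt v x t a Q ≤ B) :
    pairAt v x t Z (Finsupp.single Q 1) ≤ ((cnt Z : ℤ) : ℝ) * B := by
  rw [pairAt_single_right, cnt, Finsupp.sum, Finsupp.sum]
  push_cast
  rw [Finset.sum_mul]
  refine Finset.sum_le_sum fun a ha => ?_
  have h2 : (0 : ℝ) ≤ (Z a : ℝ) := by exact_mod_cast hZ a
  exact mul_le_mul_of_nonneg_left (hB a ha) h2

variable {r : ℕ} (pt : Fin r → Place K F)

/-- the divisor of the points of index `< k`. -/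
def befDiv (k : Fin r) : Divisor K F := ∑ j ∈ univ.filter (· < k), Finsupp.single (pt j) 1

theorem befDiv_apply (k : Fin r) (a : Place K F) : befDiv pt k a = cntBefore pt k a := by
  rw [befDiv, Finsupp.finset_sum_apply, cntBefore, card_eq_sum_ones, Nat.cast_sum]
  simp only [Finsupp.single_apply, Nat.cast_one]
  rw [Finset.sum_filter, Finset.sum_filter]
  refine Finset.sum_congr rfl fun j _ => ?_
  by_cases h1 : j < k <;> by_cases h2 : pt j = a <;> simp [h1, h2]

theorem befDiv_nonneg (k : Fin r) : 0 ≤ befDiv pt k := by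
  intro a
  rw [befDiv_apply]
  exact Nat.cast_nonneg _

theorem pairAt_befDiv (k : Fin r) (Q : Place K F) :
    pairAt v x t (befDiv pt k) (Finsupp.single Q 1) =
      ∑ j ∈ univ.filter (· < k), lamAt v x t (pt j) Q := by
  rw [befDiv]
  induction (univ.filter (· < k) : Finset (Fin r)) using Finset.induction_on with
  | empty => simp [pairAt_zero_left]
  | insert j s hj ih =>
    rw [Finset.sum_insert hj, Finset.sum_insert hj, pairAt_add_left, ih, pairAt_single_single]
    push_cast; ring

/-- **the basic estimate**: the leading coefficient at `P` of a function `h` whose divisor of zeros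
(relative to `W`) contains `T`, with exact multiplicity at `P`. -/
theorem lead_le {d : ℤ} {C : ℝ} (hUD : UDLocal v x t d C) (hC : 1 ≤ C) {h : F} (hh : h ≠ 0)
    {D : Divisor K F} (hD : IsDivOf D h) (hposdeg : posDeg D ≤ d) {W : Divisor K F}
    {T : Divisor K F} (hT : 0 ≤ T) (hTZ : T ≤ D + W) {P : Place K F} (hP : (D + W) P = T P)
    {w : ℕ} (hw : cnt (D + W) ≤ w) (hlead : leadAt P (t P) h ≠ 0) {Q₀ : Place K F} {Nrm : ℝ}
    (hN : 0 < Nrm) (hQ₀ : phiAt v x t h D Q₀ ≤ Real.log Nrm) :
    v (leadAt P (t P) h) ≤ C * Nrm * triC v 2 ^ w *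
      Real.exp (pairAt v x t W (Finsupp.single P 1) - pairAt v x t T (Finsupp.single P 1)) := by
  have h1 := hUD h D hh hD hposdeg P Q₀
  rw [abs_le] at h1
  have hvpos : 0 < v (leadAt P (t P) h) := v.pos hlead
  have htri : 1 ≤ triC v 2 := one_le_triC v (by norm_num)
  have hlogtri : 0 ≤ Real.log (triC v 2) := Real.log_nonneg htri
  -- decomposition of the pairing
  set Z := D + W with hZdef
  have hZ' : 0 ≤ Z - T := sub_nonneg.mpr hTZ
  have hZ'P : (Z - T) P = 0 := by
    rw [Finsupp.sub_apply, hP, sub_self]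
  have hD' : D = (T + (Z - T)) - W := by
    rw [hZdef]; abel
  have e1 : pairAt v x t D (Finsupp.single P 1) =
      pairAt v x t T (Finsupp.single P 1) + pairAt v x t (Z - T) (Finsupp.single P 1) -
        pairAt v x t W (Finsupp.single P 1) := by
    conv_lhs => rw [hD']
    rw [pairAt_sub_left, pairAt_add_left]
  have e2 := pairAt_single_ge v x t hZ' P hZ'P
  have hcnt : ((cnt (Z - T) : ℤ) : ℝ) ≤ (w : ℝ) := by
    have : cnt (Z - T) ≤ (w : ℤ) := by
      rw [cnt_sub]
      have := cnt_nonneg hT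
      linarith
    exact_mod_cast this
  have hphi : phiAt v x t h D P =
      Real.log (v (leadAt P (t P) h)) + pairAt v x t D (Finsupp.single P 1) := rfl
  have hlog : Real.log (v (leadAt P (t P) h)) ≤
      Real.log C + Real.log Nrm + (w : ℝ) * Real.log (triC v 2) +
        (pairAt v x t W (Finsupp.single P 1) - pairAt v x t T (Finsupp.single P 1)) := by
    have h3 : -((cnt (Z - T) : ℤ) : ℝ) * Real.log (triC v 2) ≥
        -((w : ℝ) * Real.log (triC v 2)) := by nlinarith
    linarith [h1.2]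
  calc v (leadAt P (t P) h) = Real.exp (Real.log (v (leadAt P (t P) h))) :=
        (Real.exp_log hvpos).symm
    _ ≤ Real.exp (Real.log C + Real.log Nrm + (w : ℝ) * Real.log (triC v 2) +
        (pairAt v x t W (Finsupp.single P 1) - pairAt v x t T (Finsupp.single P 1))) :=
        Real.exp_le_exp.mpr hlog
    _ = _ := by
        rw [Real.exp_add, Real.exp_add, Real.exp_add, Real.exp_log (lt_of_lt_of_le one_pos hC),
          Real.exp_log hN, ← Real.rpow_natCast, Real.rpow_def_of_pos (lt_of_lt_of_le one_pos htri),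
          mul_comm (Real.log (triC v 2))]

end Estimate

/-! ### The jet-Hadamard inequality from a bound for the constants `c_v(h)` -/

section Main

variable {K F : Type*} [Field K] [Field F] [Algebra K F] {n : ℕ}
variable {ι : Type*} [Fintype ι]
variable (v : AbsoluteValue K ℝ) (x : Fin (n + 1) → F) (t : Place K F → F)

/-- **"UD-norm"**: the constant `c_v(h) = Φ_v(h; Q₀)` of `h = ∑ s_b ω_b` at a suitable point `Q₀` is
bounded by `log (Nrm · ‖s‖)`. -/
def UDNorm (ω : ι → F) (Nrm : ℝ) : Prop :=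
  ∀ (s : ι → K) (D : Divisor K F), (∑ b, s b • ω b) ≠ 0 → IsDivOf D (∑ b, s b • ω b) →
    ∃ Q₀ : Place K F, phiAt v x t (∑ b, s b • ω b) D Q₀ ≤ Real.log (Nrm * supNorm v s)

variable {v x t}

theorem boundedOnKernels_jetFun {W : Divisor K F} {ω : ι → F}
    (ht : ∀ P : Place K F, P.ord (t P) = 1) (hres : ∀ P : Place K F, HasResK P)
    (hω : ∀ b, ω b ∈ riemannRochSpace (K := K) (F := F) W)
    (hdiv : ∀ f : F, f ≠ 0 → ∃ D : Divisor K F, IsDivOf D f ∧ cnt D = 0)
    {d : ℤ} {C : ℝ} (hUD : UDLocal v x t d C) (hC : 1 ≤ C)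
    (hposdeg : ∀ (s : ι → K) (D : Divisor K F), (∑ b, s b • ω b) ≠ 0 →
      IsDivOf D (∑ b, s b • ω b) → posDeg D ≤ d)
    {Nrm : ℝ} (hN : 0 < Nrm) (hnorm : UDNorm v x t ω Nrm) {w : ℕ} (hw : cnt W ≤ w)
    {r : ℕ} (pt : Fin r → Place K F) :
    BoundedOnKernels v (jetFun t W ω pt) fun k =>
      (C * Nrm * triC v 2 ^ w) * Real.exp (pairAt v x t W (Finsupp.single (pt k) 1)) *
        ∏ j ∈ univ.filter (· < k), Real.exp (-(lamAt v x t (pt j) (pt k))) := by
  intro k s hs
  have htri : 0 ≤ triC v 2 := le_trans zero_le_one (one_le_triC v (by norm_num))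
  have hβ : 0 ≤ (C * Nrm * triC v 2 ^ w) * Real.exp (pairAt v x t W (Finsupp.single (pt k) 1)) *
      ∏ j ∈ univ.filter (· < k), Real.exp (-(lamAt v x t (pt j) (pt k))) := by
    have : 0 ≤ C := le_trans zero_le_one hC
    positivity
  have hrhs : 0 ≤ ((C * Nrm * triC v 2 ^ w) *
      Real.exp (pairAt v x t W (Finsupp.single (pt k) 1)) *
      ∏ j ∈ univ.filter (· < k), Real.exp (-(lamAt v x t (pt j) (pt k)))) * supNorm v s :=
    mul_nonneg hβ (supNorm_nonneg v s)
  by_cases hh : (∑ b, s b • ω b) = 0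
  · rw [sum_mul_jetFun ht hres hω, hh, regAt, zero_mul, taylorAt_zero_fun, map_zero]
    exact hrhs
  rcases jetFun_kernel_value ht hres hω pt k s hs hh with h0 | ⟨hord, hval⟩
  · rw [h0, map_zero]; exact hrhs
  obtain ⟨D, hD, hD0⟩ := hdiv _ hh
  have hs0 : s ≠ 0 := by
    rintro rfl
    exact hh (by simp)
  have hspos : 0 < supNorm v s := (supNorm_pos_iff v s).mpr hs0
  obtain ⟨Q₀, hQ₀⟩ := hnorm s D hh hD
  have hTZ : befDiv pt k ≤ D + W := by
    intro a
    rw [befDiv_apply, Finsupp.add_apply, hD a]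
    exact ord_ge_of_kernel ht hres hω pt k s hs hh a
  have hP : (D + W) (pt k) = befDiv pt k (pt k) := by
    rw [befDiv_apply, Finsupp.add_apply, hD (pt k)]
    exact hord
  have hcnt : cnt (D + W) ≤ w := by
    rw [cnt_add, hD0, zero_add]; exact hw
  have key := lead_le v x t hUD hC hh hD (hposdeg s D hh hD) (befDiv_nonneg pt k) hTZ hP hcnt
    (leadAt_ne_zero (hres (pt k)) (ht (pt k)) hh) (mul_pos hN hspos) hQ₀
  rw [hval]
  refine key.trans (le_of_eq ?_)
  rw [pairAt_befDiv, sub_eq_add_neg, Real.exp_add, ← Finset.sum_neg_distrib, Real.exp_sum]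
  ring

/-- **The local jet-Hadamard inequality** (abstract form: the bound `UDNorm` for the constants
`c_v(h)` is a hypothesis). -/
theorem jetHadamard_of_udNorm [DecidableEq ι] {W : Divisor K F} {ω : ι → F}
    (ht : ∀ P : Place K F, P.ord (t P) = 1) (hres : ∀ P : Place K F, HasResK P)
    (hω : ∀ b, ω b ∈ riemannRochSpace (K := K) (F := F) W)
    (hdiv : ∀ f : F, f ≠ 0 → ∃ D : Divisor K F, IsDivOf D f ∧ cnt D = 0)
    {d : ℤ} {C : ℝ} (hUD : UDLocal v x t d C) (hC : 1 ≤ C)
    (hposdeg : ∀ (s : ι → K) (D : Divisor K F), (∑ b, s b • ω b) ≠ 0 →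
      IsDivOf D (∑ b, s b • ω b) → posDeg D ≤ d)
    {Nrm : ℝ} (hN : 0 < Nrm) (hnorm : UDNorm v x t ω Nrm) {w : ℕ} (hw : cnt W ≤ w)
    {r : ℕ} (pt : Fin r → Place K F) (a : Fin r → ι) :
    v (Matrix.det (Matrix.of fun i k => jetFun t W ω pt k (a i))) ≤
      (C * Nrm * triC v 2 ^ w) ^ r *
        ((∏ k, Real.exp (pairAt v x t W (Finsupp.single (pt k) 1))) *
          ∏ k, ∏ j ∈ univ.filter (· < k), Real.exp (-(lamAt v x t (pt j) (pt k)))) := by
  have hC0 : 0 ≤ C * Nrm * triC v 2 ^ w := by
    have : 0 ≤ C := le_trans zero_le_one hC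
    have htri : 0 ≤ triC v 2 := le_trans zero_le_one (one_le_triC v (by norm_num))
    positivity
  exact hadamard_functional' (jetFun t W ω pt) hC0
    (fun k => Real.exp (pairAt v x t W (Finsupp.single (pt k) 1)))
    (fun k => (Real.exp_pos _).le)
    (fun j k => Real.exp (-(lamAt v x t (pt j) (pt k)))) (fun j k => (Real.exp_pos _).le)
    (boundedOnKernels_jetFun ht hres hω hdiv hUD hC hposdeg hN hnorm hw pt) a

end Main

end

end Fermat.Agent.MW.Local.JetHadamard82
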