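/-
Program MW-H (S17), helper86.  Package [g] HD-local, part 3: THE UNIFORM DECOMPOSITION THEOREM WITH
THE NORM OF THE COEFFICIENT VECTOR ("UD-norm").

For a fixed divisor `W` and fixed functions `ω_1, …, ω_r ∈ L(W)` there is a tame constant `C` with

    Φ_v(h_s; Q) ≤ log ‖s‖_v + log C_v          (h_s = ∑ s_b ω_b ≠ 0, every place Q, every nice v)

where `Φ_v(h; Q) = log |lead_Q h|_v + ∑_P ord_P(h) λ_v(P, Q)` is the quantity of `Contract7.UDLocal`.
Proof: `Φ_v(h; ·)` varies by at most `log C₀` (the master theorem `UDTame`); evaluate it at a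
reference place `Q'` (among `deg W + 1` fixed places outside `supp W`) which is far from all zeros
of `h` (`FarPlace86.exists_far_place`).
-/
import Mathlib
import Fermat.Agent.MW.Local.FarPlace86
import Fermat.Agent.MW.FF.AuxPoint86
import Fermat.Agent.MW.FF.Jet86

set_option autoImplicit false

open AlgebraicCurve

namespace Fermat.Agent.MW.Local.UDNorm86

open Fermat.Agent.MW.Hadamard7 Fermat.Agent.MW.Spec.Defs7 Fermat.Agent.MW.Spec.Contract7
open Fermat.Agent.MW.Spec.Bricks7
open Fermat.Agent.MW.Local.Chord2 Fermat.Agent.MW.Global.PairBasic2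
open Fermat.Agent.MW.Local.GenPos2
open Fermat.Agent.MW.Local.Tame86 Fermat.Agent.MW.Local.FarPlace86
open Fermat.Agent.MW.FF.EvalLead49
open Fermat.Agent.X0.FF Fermat.Agent.RR.LSpace

variable {K F : Type*} [Field K] [Field F] [Algebra K F]

/-! ### Divisors of functions -/

theorem degree_eq_zero_of_isDivOf (H : LHyp K F) {D : Divisor K F} {f : F} (hf : f ≠ 0)
    (hD : IsDivOf D f) : Divisor.degree D = 0 := by
  obtain ⟨D', h1, h2⟩ := H.principal f hf
  have : D = D' := by
    ext P
    rw [hD P, h1 P]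
  rw [this, h2]

/-- The degree of the positive part of `div h` for `h ∈ L(W)`. -/
theorem posDeg_le_of_mem_L (H : LHyp K F) {W D : Divisor K F} {h : F} (h0 : h ≠ 0)
    (hh : h ∈ riemannRochSpace (K := K) (F := F) W) (hD : IsDivOf D h) :
    posDeg D ≤ Divisor.degree W + posDeg (-W) := by
  classical
  have hZ : ∀ P, 0 ≤ D P + W P := by
    intro P
    have := (mem_L_iff h0).mp hh P
    rw [hD P]
    omega
  have hdeg := degree_eq_zero_of_isDivOf H h0 hD
  set S := D.support ∪ W.support with hS
  have h1 : posDeg D = ∑ P ∈ S, max (D P) 0 := by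
    unfold posDeg
    exact Finsupp.sum_of_support_subset D Finset.subset_union_left _ (fun P _ => by simp)
  have h2 : posDeg (-W) = ∑ P ∈ S, max (-(W P)) 0 := by
    unfold posDeg
    have hsub : (-W).support ⊆ S := by
      rw [Finsupp.support_neg]
      exact Finset.subset_union_right
    rw [Finsupp.sum_of_support_subset (-W) hsub _ (fun P _ => by simp)]
    rfl
  have h3 : Divisor.degree D = ∑ P ∈ S, D P := by
    rw [degree_eq_sum H]
    exact Finset.sum_subset Finset.subset_union_left fun P _ hP => by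
      simpa [Finsupp.mem_support_iff] using hP
  have h4 : Divisor.degree W = ∑ P ∈ S, W P := by
    rw [degree_eq_sum H]
    exact Finset.sum_subset Finset.subset_union_right fun P _ hP => by
      simpa [Finsupp.mem_support_iff] using hP
  rw [h1, h2, h4]
  have h5 : ∑ P ∈ S, W P = ∑ P ∈ S, (D P + W P) := by
    rw [Finset.sum_add_distrib, ← h3, hdeg, zero_add]
  rw [h5, ← Finset.sum_add_distrib]
  refine Finset.sum_le_sum fun P _ => ?_
  have := hZ P
  rcases le_total (D P) 0 with h | h
  · rw [max_eq_right h]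
    have : 0 ≤ max (-(W P)) 0 := le_max_right _ _
    omega
  · rw [max_eq_left h]
    have : -(W P) ≤ max (-(W P)) 0 := le_max_left _ _
    omega

/-! ### Small lemmas on the local pairing and on values -/

section Small

variable {n : ℕ} (v : AbsoluteValue K ℝ) (x : Fin (n + 1) → F) (t : Place K F → F)

theorem pairAt_single_right (Z : Divisor K F) (Q : Place K F) :
    pairAt v x t Z (Finsupp.single Q 1) = ∑ P ∈ Z.support, (Z P : ℝ) * lamAt v x t P Q := by
  classical
  rw [pairAt_eq_sum]
  refine Finset.sum_congr rfl fun P _ => ?_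
  rw [Finsupp.support_single Q one_ne_zero, Finset.sum_singleton,
    Finsupp.single_eq_same]
  push_cast
  ring

end Small

theorem evalAt_sum {P : Place K F} (hP : HasResK P) {ι : Type*} (s : Finset ι) (c : ι → K)
    (ω : ι → F) (hω : ∀ i ∈ s, 0 ≤ P.ord (ω i)) :
    evalAt P (∑ i ∈ s, c i • ω i) = ∑ i ∈ s, c i * evalAt P (ω i) ∧
      0 ≤ P.ord (∑ i ∈ s, c i • ω i) := by
  classical
  induction s using Finset.induction_on with
  | empty => simp
  | insert a s ha ih =>
    obtain ⟨ih1, ih2⟩ := ih fun i hi => hω i (Finset.mem_insert_of_mem hi)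
    have h1 : 0 ≤ P.ord (c a • ω a) :=
      Fermat.Agent.MW.FF.Jet86.ord_smul_nonneg (c a) (hω a (Finset.mem_insert_self a s))
    rw [Finset.sum_insert ha, Finset.sum_insert ha]
    refine ⟨?_, Fermat.Agent.MW.FF.Jet86.ord_add_nonneg h1 ih2⟩
    rw [evalAt_add hP (P.adicValuation_le_one_iff.mpr (Or.inr h1))
      (P.adicValuation_le_one_iff.mpr (Or.inr ih2)), ih1,
      evalAt_smul hP (c a) (P.adicValuation_le_one_iff.mpr
        (Or.inr (hω a (Finset.mem_insert_self a s))))]


/-! ### The theorem -/

section Main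

variable [IsAlgClosed K] [CharZero K] {u : F} {n : ℕ}

/-- **UD-norm**: the quantity `Φ_v(h_s; Q)` of the uniform decomposition theorem is bounded by
`log ‖s‖_v` up to a tame constant, for `h_s = ∑ s_b ω_b` in a fixed finite-dimensional subspace
of `L(W)`. -/
theorem udNorm (hu : IsGen K u) (x : Fin (n + 1) → F) (t : Place K F → F)
    (ht : ∀ P : Place K F, P.ord (t P) = 1)
    (hpt : ∀ P : Place K F, coordAt P (t P) x ≠ 0)
    (hsep : ∀ P Q : Place K F, P ≠ Q → wedge (coordAt P (t P) x) (coordAt Q (t Q) x) ≠ 0)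
    (hUD : ∀ d : ℤ, UDTame x t d) (W : Divisor K F) {r : ℕ} (ω : Fin r → F)
    (hω : ∀ i, ω i ∈ riemannRochSpace (K := K) (F := F) W) :
    ∃ C : AbsoluteValue K ℝ → ℝ, IsTameConst C ∧ ∀ v : AbsoluteValue K ℝ, IsNiceAbs v →
      ∀ (s : Fin r → K) (D : Divisor K F), (∑ b, s b • ω b) ≠ 0 →
        IsDivOf D (∑ b, s b • ω b) → ∀ Q : Place K F,
          phiAt v x t (∑ b, s b • ω b) D Q ≤ Real.log (supNorm v s) + Real.log (C v) := by
  classical
  have H := Fermat.Agent.RR.LHypGen.lHyp_of_isGen hu
  have hres : ∀ P : Place K F, HasResK P := fun P =>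
    hasResK_of_isAlgClosed u (ffg_isAlgebraic hu) P
  set w : ℕ := (Divisor.degree W).toNat with hw
  obtain ⟨R, hRcard, hRdisj⟩ := exists_finset_places hu W.support (w + 1)
  obtain ⟨C₀, hC₀, hUD₀⟩ := hUD (Divisor.degree W + posDeg (-W))
  -- the constants
  set M : AbsoluteValue K ℝ → ℝ := fun v => ∏ Q' ∈ R, ∏ b : Fin r, max 1 (v (evalAt Q' (ω b)))
    with hM
  set E : AbsoluteValue K ℝ → ℝ := fun v =>
    ∏ Q' ∈ R, Real.exp |pairAt v x t W (Finsupp.single Q' 1)| with hE
  have hMt : IsTameConst M :=
    tame_finset_prod R _ fun Q' _ => tame_finset_prod Finset.univ _ fun b _ =>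
      isTameConst_max_one_abv _
  have hEt : IsTameConst E :=
    tame_finset_prod R _ fun Q' _ => (tameZero_pairAt x t W _).tame_exp_abs
  have hTt : IsTameConst (fun v : AbsoluteValue K ℝ => triC v (r + 1)) :=
    isTameConst_triC (Nat.succ_le_succ (Nat.zero_le r))
  have hRt : IsTameConst (fun v => refC x t R v ^ w) := tame_pow (isTameConst_refC x t R) w
  refine ⟨fun v => C₀ v * (triC v (r + 1) * M v) * (refC x t R v ^ w * E v),
    tame_mul (tame_mul hC₀ (tame_mul hTt hMt)) (tame_mul hRt hEt), ?_⟩
  intro v hv s D h0 hD Q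
  set h : F := ∑ b, s b • ω b with hh
  have hhW : h ∈ riemannRochSpace (K := K) (F := F) W :=
    Submodule.sum_mem _ fun b _ => Submodule.smul_mem _ _ (hω b)
  have hdeg := degree_eq_zero_of_isDivOf H h0 hD
  have hpos := posDeg_le_of_mem_L H h0 hhW hD
  -- the divisor of zeros
  set Z : Divisor K F := D + W with hZdef
  have hZ : 0 ≤ Z := by
    intro P
    have := (mem_L_iff h0).mp hhW P
    rw [hZdef, Finsupp.add_apply, hD P]
    simp only [Finsupp.coe_zero, Pi.zero_apply]
    omega
  have hdegZ : Divisor.degree Z = Divisor.degree W := by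
    rw [hZdef, map_add, hdeg, zero_add]
  have hdegW : 0 ≤ Divisor.degree W := hdegZ ▸ degree_nonneg H hZ
  have hwcast : (w : ℤ) = Divisor.degree W := Int.toNat_of_nonneg hdegW
  have hcardZ : Z.support.card < R.card := by
    have h1 := Fermat.Agent.MW.FF.AuxPoint86.card_support_le_degree H hZ
    rw [hdegZ, ← hwcast] at h1
    have : Z.support.card ≤ w := by exact_mod_cast h1
    omega
  -- a reference place far from all zeros
  obtain ⟨Q', hQ'R, hfar⟩ := exists_far_place hpt hsep R v Z.support hcardZ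
  have hQ'Z : Z Q' = 0 := by
    by_contra hne
    exact (hfar Q' (Finsupp.mem_support_iff.mpr hne)).1 rfl
  have hQ'W : W Q' = 0 := by
    have : Q' ∉ W.support := Finset.disjoint_left.mp hRdisj hQ'R
    simpa [Finsupp.mem_support_iff] using this
  have hordQ' : Q'.ord h = 0 := by
    have : D Q' = 0 := by
      have := hQ'Z
      rw [hZdef, Finsupp.add_apply, hQ'W, add_zero] at this
      exact this
    rw [← hD Q', this]
  -- the uniform decomposition theorem
  have hud := hUD₀ v hv h D h0 hD hpos Q Q'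
  have hud' : phiAt v x t h D Q ≤ phiAt v x t h D Q' + Real.log (C₀ v) := by
    have := (abs_le.mp hud).2
    linarith
  refine hud'.trans ?_
  -- the value at the reference place
  have hregω : ∀ b ∈ (Finset.univ : Finset (Fin r)), 0 ≤ Q'.ord (ω b) := by
    intro b _
    by_cases hb : ω b = 0
    · rw [hb, Q'.ord_zero]
    · have := (mem_L_iff hb).mp (hω b) Q'
      rw [hQ'W] at this
      omega
  have hlead : leadAt Q' (t Q') h = ∑ b, s b * evalAt Q' (ω b) := by
    rw [leadAt_of_ord_eq_zero hordQ']
    exact (evalAt_sum (hres Q') Finset.univ s ω hregω).1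
  have hleadne : leadAt Q' (t Q') h ≠ 0 := leadAt_ne_zero (hres Q') (ht Q') h0
  have hs0 : s ≠ 0 := by
    rintro rfl
    apply h0
    rw [hh]
    simp
  have hspos : 0 < supNorm v s := (supNorm_pos_iff v s).mpr hs0
  have hMone : 1 ≤ M v := tame_one_le hMt v
  have hMb : ∀ b : Fin r, v (evalAt Q' (ω b)) ≤ M v := by
    intro b
    have h1 : max 1 (v (evalAt Q' (ω b))) ≤ ∏ b' : Fin r, max 1 (v (evalAt Q' (ω b'))) :=
      le_prod_of_one_le Finset.univ (fun b' => max 1 (v (evalAt Q' (ω b'))))
        (fun _ _ => le_max_left _ _) (Finset.mem_univ b)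
    have h2 : (∏ b' : Fin r, max 1 (v (evalAt Q' (ω b')))) ≤ M v :=
      le_prod_of_one_le R (fun A => ∏ b' : Fin r, max 1 (v (evalAt A (ω b'))))
        (fun A _ => one_le_prod_of_one_le _ _ fun _ _ => le_max_left _ _) hQ'R
    exact (le_max_right _ _).trans (h1.trans h2)
  have hvlead : v (leadAt Q' (t Q') h) ≤ triC v (r + 1) * M v * supNorm v s := by
    rw [hlead]
    have h1 := abv_sum_le_triC v (Finset.univ : Finset (Fin r)) (fun b => s b * evalAt Q' (ω b))
      (supNorm v s * M v) (mul_nonneg hspos.le (le_trans zero_le_one hMone)) (fun b _ => by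
        rw [map_mul]
        exact mul_le_mul (le_supNorm v s b) (hMb b) (v.nonneg _) hspos.le)
    rw [Finset.card_univ, Fintype.card_fin] at h1
    refine h1.trans ?_
    have h2 : triC v r ≤ triC v (r + 1) := triC_mono v (Nat.le_succ r)
    have h3 : 0 ≤ supNorm v s * M v := mul_nonneg hspos.le (le_trans zero_le_one hMone)
    nlinarith
  have hvpos : 0 < v (leadAt Q' (t Q') h) := v.pos hleadne
  have htriC : 1 ≤ triC v (r + 1) := tame_one_le hTt v
  have hlog1 : Real.log (v (leadAt Q' (t Q') h)) ≤
      Real.log (triC v (r + 1) * M v) + Real.log (supNorm v s) := by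
    rw [← Real.log_mul (by positivity) hspos.ne']
    exact Real.log_le_log hvpos hvlead
  -- the pairing with the zeros
  have hrefpos : 0 < refC x t R v := refC_pos R v
  have hrefone : 1 ≤ refC x t R v := tame_one_le (isTameConst_refC x t R) v
  have hpairZ : pairAt v x t Z (Finsupp.single Q' 1) ≤ (w : ℝ) * Real.log (refC x t R v) := by
    rw [pairAt_single_right]
    have h1 : ∀ P ∈ Z.support, (Z P : ℝ) * lamAt v x t P Q' ≤
        (Z P : ℝ) * Real.log (refC x t R v) := by
      intro P hP
      have hZP : (0 : ℝ) ≤ (Z P : ℝ) := by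
        have := hZ P
        simp only [Finsupp.coe_zero, Pi.zero_apply] at this
        exact_mod_cast this
      exact mul_le_mul_of_nonneg_left (hfar P hP).2 hZP
    refine (Finset.sum_le_sum h1).trans (le_of_eq ?_)
    rw [← Finset.sum_mul]
    congr 1
    have := degree_eq_sum H Z
    rw [hdegZ, ← hwcast] at this
    have h2 : ((w : ℤ) : ℝ) = ((∑ P ∈ Z.support, Z P : ℤ) : ℝ) := by rw [this]
    push_cast at h2
    exact h2.symm
  have hpairW : -pairAt v x t W (Finsupp.single Q' 1) ≤ Real.log (E v) := by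
    have h1 : Real.exp |pairAt v x t W (Finsupp.single Q' 1)| ≤ E v :=
      le_prod_of_one_le R (fun A => Real.exp |pairAt v x t W (Finsupp.single A 1)|)
        (fun A _ => Real.one_le_exp (abs_nonneg _)) hQ'R
    have h2 := Real.log_le_log (Real.exp_pos _) h1
    rw [Real.log_exp] at h2
    exact (neg_le_abs _).trans h2
  have hpairD : pairAt v x t D (Finsupp.single Q' 1) =
      pairAt v x t Z (Finsupp.single Q' 1) - pairAt v x t W (Finsupp.single Q' 1) := by
    rw [hZdef, pairAt_add_left]
    ring
  -- assemble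
  have hC₀pos : 0 < C₀ v := tame_pos hC₀ v
  have hMpos : 0 < M v := lt_of_lt_of_le one_pos hMone
  have hEpos : 0 < E v := tame_pos hEt v
  have htpos : 0 < triC v (r + 1) := lt_of_lt_of_le one_pos htriC
  have hsplit : Real.log (C₀ v * (triC v (r + 1) * M v) * (refC x t R v ^ w * E v)) =
      Real.log (C₀ v) + Real.log (triC v (r + 1) * M v) +
        ((w : ℝ) * Real.log (refC x t R v) + Real.log (E v)) := by
    rw [Real.log_mul (by positivity) (by positivity), Real.log_mul (by positivity) (by positivity),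
      Real.log_mul (by positivity) hEpos.ne', Real.log_pow]
  show phiAt v x t h D Q' + Real.log (C₀ v) ≤ Real.log (supNorm v s) +
    Real.log (C₀ v * (triC v (r + 1) * M v) * (refC x t R v ^ w * E v))
  rw [hsplit]
  unfold phiAt
  rw [hpairD]
  linarith

end Main

end Fermat.Agent.MW.Local.UDNorm86
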