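/-
Program MW-H (S17), helper86.  Package [g] HD-local, part 4: THE LOCAL JET-HADAMARD INEQUALITY.

For a fixed divisor `W`, fixed functions `ω_1, …, ω_r ∈ L(W)` and ANY sequence of places
`P_1, …, P_r` (repetitions allowed: a place occurring `e` times contributes its jets of order
`0, …, e - 1`), with `T = ∑_k P_k`:

    |jetDet W t ω P|_v ≤ C_v · ∏_k exp (λ_v(W, P_k)) · ∏_{j<k} exp (-λ_v(P_j, P_k))

i.e. `log |Δ_T|_v ≤ log C_v + pairAt_v(W, T) - (pairAt_v(T, T) - kap_v(T)) / 2`, with `C` tame.
(The diagonal conventions are those of `Contract7`: for `P_j = P_k` the term is the tangent term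
`λ_v(P, P)`, and `pairAt_v(W, P_k)` contains `W(P_k) · λ_v(P_k, P_k)`.)

Proof: `Hadamard7b.hadamard_functional'` for the jet functionals; the bound on the common kernels
is the upper half of the uniform decomposition theorem in the form `UDNorm86.udNorm`.
-/
import Mathlib
import Fermat.Agent.MW.Local.UDNorm86
import Fermat.Agent.MW.Local.Hadamard7b
import Fermat.Agent.MW.Spec.BricksU7

set_option autoImplicit false

open AlgebraicCurve

namespace Fermat.Agent.MW.Local.JetHadamard86

open Fermat.Agent.MW.Hadamard7 Fermat.Agent.MW.Spec.Defs7 Fermat.Agent.MW.Spec.Contract7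
open Fermat.Agent.MW.Spec.Bricks7
open Fermat.Agent.MW.Local.Chord2 Fermat.Agent.MW.Global.PairBasic2
open Fermat.Agent.MW.Local.GenPos2 Fermat.Agent.MW.Local.Hadamard7b
open Fermat.Agent.MW.Local.Tame86 Fermat.Agent.MW.Local.FarPlace86
open Fermat.Agent.MW.Local.UDNorm86
open Fermat.Agent.MW.FF.EvalLead49 Fermat.Agent.MW.FF.Jet86
open Fermat.Agent.X0.FF Fermat.Agent.RR.LSpace

variable {K F : Type*} [Field K] [Field F] [Algebra K F]

/-! ### The divisor of the first terms of a sequence -/

/-- The divisor `∑_{j < k} P_j`. -/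
noncomputable def headDiv {r : ℕ} (P : Fin r → Place K F) (k : Fin r) : Divisor K F :=
  ∑ j ∈ Finset.univ.filter (· < k), Finsupp.single (P j) (1 : ℤ)

theorem headDiv_apply {r : ℕ} (P : Fin r → Place K F) (k : Fin r) (Q : Place K F) :
    headDiv P k Q = (cntBefore P (k : ℕ) Q : ℤ) := by
  classical
  unfold headDiv cntBefore
  rw [Finsupp.finsetSum_apply]
  simp only [Finsupp.single_apply]
  rw [Finset.sum_ite, Finset.sum_const_zero, add_zero, Finset.sum_const, Finset.filter_filter]
  simp only [nsmul_eq_mul, mul_one, Nat.cast_inj]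
  congr 1

theorem headDiv_nonneg {r : ℕ} (P : Fin r → Place K F) (k : Fin r) : 0 ≤ headDiv P k := by
  intro Q
  rw [headDiv_apply]
  simp

section Pair

variable {n : ℕ} (v : AbsoluteValue K ℝ) (x : Fin (n + 1) → F) (t : Place K F → F)

theorem pairAt_finset_sum_left {ι : Type*} (s : Finset ι) (D : ι → Divisor K F)
    (E : Divisor K F) : pairAt v x t (∑ i ∈ s, D i) E = ∑ i ∈ s, pairAt v x t (D i) E := by
  classical
  induction s using Finset.induction_on with
  | empty => simp [pairAt_zero_left]
  | insert a s ha ih =>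
    rw [Finset.sum_insert ha, Finset.sum_insert ha, pairAt_add_left, ih]

theorem pairAt_headDiv {r : ℕ} (P : Fin r → Place K F) (k : Fin r) (Q : Place K F) :
    pairAt v x t (headDiv P k) (Finsupp.single Q 1) =
      ∑ j ∈ Finset.univ.filter (· < k), lamAt v x t (P j) Q := by
  unfold headDiv
  rw [pairAt_finset_sum_left]
  refine Finset.sum_congr rfl fun j _ => ?_
  rw [pairAt_single_single]
  simp

end Pair

/-! ### The inequality -/

section Main

variable [IsAlgClosed K] [CharZero K] {u : F} {n : ℕ}

/-- **The local jet-Hadamard inequality** (raw data form). -/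
theorem jetHadamard_raw (hu : IsGen K u) (x : Fin (n + 1) → F) (t : Place K F → F)
    (ht : ∀ P : Place K F, P.ord (t P) = 1)
    (hpt : ∀ P : Place K F, coordAt P (t P) x ≠ 0)
    (hsep : ∀ P Q : Place K F, P ≠ Q → wedge (coordAt P (t P) x) (coordAt Q (t Q) x) ≠ 0)
    (hUD : ∀ d : ℤ, UDTame x t d) (W : Divisor K F) {r : ℕ} (ω : Fin r → F)
    (hω : ∀ i, ω i ∈ riemannRochSpace (K := K) (F := F) W) :
    ∃ C : AbsoluteValue K ℝ → ℝ, IsTameConst C ∧ ∀ v : AbsoluteValue K ℝ, IsNiceAbs v →
      ∀ P : Fin r → Place K F,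
        v (jetDet W t ω P) ≤
          C v * (∏ k, Real.exp (pairAt v x t W (Finsupp.single (P k) 1))) *
            ∏ k, ∏ j ∈ Finset.univ.filter (· < k), Real.exp (-lamAt v x t (P j) (P k)) := by
  classical
  have H := Fermat.Agent.RR.LHypGen.lHyp_of_isGen hu
  have hres : ∀ P : Place K F, HasResK P := fun P =>
    hasResK_of_isAlgClosed u (ffg_isAlgebraic hu) P
  obtain ⟨C₁, hC₁, hN⟩ := udNorm hu x t ht hpt hsep hUD W ω hω
  set w : ℕ := (Divisor.degree W).toNat with hw
  have hT2 : IsTameConst (fun v : AbsoluteValue K ℝ => triC v 2) :=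
    isTameConst_triC (by norm_num)
  have hC't : IsTameConst (fun v => C₁ v * triC v 2 ^ w) := tame_mul hC₁ (tame_pow hT2 w)
  refine ⟨fun v => (C₁ v * triC v 2 ^ w) ^ r, tame_pow hC't r, ?_⟩
  intro v hv P
  have hC'pos : 0 < C₁ v * triC v 2 ^ w := tame_pos hC't v
  have hC₁pos : 0 < C₁ v := tame_pos hC₁ v
  have htri2 : 1 ≤ triC v 2 := tame_one_le hT2 v
  have hlogtri : 0 ≤ Real.log (triC v 2) := Real.log_nonneg htri2
  -- the bound on the common kernels
  have hB : BoundedOnKernels v (fun (k : Fin r) (b : Fin r) => jetAt W t P k (ω b))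
      (fun k => (C₁ v * triC v 2 ^ w) * Real.exp (pairAt v x t W (Finsupp.single (P k) 1)) *
        ∏ j ∈ Finset.univ.filter (· < k), Real.exp (-lamAt v x t (P j) (P k))) := by
    intro k s hker
    set h : F := ∑ b, s b • ω b with hh
    have hhW : h ∈ riemannRochSpace (K := K) (F := F) W :=
      Submodule.sum_mem _ fun b _ => Submodule.smul_mem _ _ (hω b)
    have hjet : ∀ j : Fin r, jetAt W t P j h = ∑ b, s b * jetAt W t P j (ω b) := fun j =>
      jetAt_sum hres ht P j Finset.univ s ω fun b _ => hω b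
    rw [← hjet k]
    have hβ0 : 0 ≤ (C₁ v * triC v 2 ^ w) * Real.exp (pairAt v x t W (Finsupp.single (P k) 1)) *
        ∏ j ∈ Finset.univ.filter (· < k), Real.exp (-lamAt v x t (P j) (P k)) :=
      mul_nonneg (mul_nonneg hC'pos.le (Real.exp_pos _).le)
        (Finset.prod_nonneg fun j _ => (Real.exp_pos _).le)
    have hrhs0 : 0 ≤ (C₁ v * triC v 2 ^ w) *
        Real.exp (pairAt v x t W (Finsupp.single (P k) 1)) *
        (∏ j ∈ Finset.univ.filter (· < k), Real.exp (-lamAt v x t (P j) (P k))) *
        supNorm v s := mul_nonneg hβ0 (supNorm_nonneg v s)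
    by_cases h0 : h = 0
    · rw [h0, jetAt_zero_fun, map_zero]
      exact hrhs0
    have hjets : ∀ j : Fin r, j < k → jetAt W t P j h = 0 := fun j hj => by
      rw [hjet j]; exact hker j hj
    rw [jetAt_eq hres ht P h0 hhW k hjets]
    by_cases hord : (P k).ord h = (jetIdx P k : ℤ) - W (P k)
    swap
    · rw [if_neg hord, map_zero]
      exact hrhs0
    rw [if_pos hord]
    set Q := P k with hQ
    -- the divisor of `h`
    obtain ⟨D, hD, -⟩ := H.principal h h0
    have hDdiv : IsDivOf D h := hD
    have hphi := hN v hv s D h0 hDdiv Q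
    -- decomposition of the divisor
    set T := headDiv P k with hT
    set Z' : Divisor K F := D + W - T with hZ'
    have hZ'nonneg : 0 ≤ Z' := by
      intro Q''
      have := ord_ge_of_jetAt_eq_zero hres ht P h0 hhW (k : ℕ) k.2.le
        (fun j hj => hjets j (Fin.lt_def.mpr hj)) Q''
      rw [hZ', Finsupp.sub_apply, Finsupp.add_apply, hD Q'', hT, headDiv_apply]
      simp only [Finsupp.coe_zero, Pi.zero_apply]
      omega
    have hZ'Q : Z' Q = 0 := by
      rw [hZ', Finsupp.sub_apply, Finsupp.add_apply, hD Q, hT, headDiv_apply, hord]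
      unfold jetIdx
      rw [← hQ]
      ring
    have hdegD := degree_eq_zero_of_isDivOf H h0 hDdiv
    have hdegZ' : Divisor.degree Z' ≤ Divisor.degree W := by
      rw [hZ', map_sub, map_add, hdegD, zero_add]
      have := degree_nonneg H (headDiv_nonneg P k)
      rw [← hT] at this
      omega
    have hdegZ'0 : 0 ≤ Divisor.degree Z' := degree_nonneg H hZ'nonneg
    have hdegW0 : 0 ≤ Divisor.degree W := le_trans hdegZ'0 hdegZ'
    have hwcast : (w : ℤ) = Divisor.degree W := Int.toNat_of_nonneg hdegW0
    have hDsplit : D = T + Z' - W := by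
      rw [hZ']
      abel
    have hpairD : pairAt v x t D (Finsupp.single Q 1) =
        (∑ j ∈ Finset.univ.filter (· < k), lamAt v x t (P j) Q) +
          pairAt v x t Z' (Finsupp.single Q 1) - pairAt v x t W (Finsupp.single Q 1) := by
      conv_lhs => rw [hDsplit]
      rw [pairAt_sub_left, pairAt_add_left, hT, pairAt_headDiv]
    -- lower bound for the pairing with the residual zeros
    have hpairZ' : -((w : ℝ) * Real.log (triC v 2)) ≤ pairAt v x t Z' (Finsupp.single Q 1) := by
      rw [pairAt_single_right]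
      have h1 : ∀ P' ∈ Z'.support, (Z' P' : ℝ) * (-Real.log (triC v 2)) ≤
          (Z' P' : ℝ) * lamAt v x t P' Q := by
        intro P' hP'
        have hne : P' ≠ Q := by
          rintro rfl
          exact (Finsupp.mem_support_iff.mp hP') hZ'Q
        have hZP : (0 : ℝ) ≤ (Z' P' : ℝ) := by
          have := hZ'nonneg P'
          simp only [Finsupp.coe_zero, Pi.zero_apply] at this
          exact_mod_cast this
        exact mul_le_mul_of_nonneg_left (lamAt_ge v x t hne) hZP
      refine le_trans ?_ (Finset.sum_le_sum h1)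
      rw [← Finset.sum_mul]
      have h2 : ((∑ P' ∈ Z'.support, Z' P' : ℤ) : ℝ) ≤ (w : ℝ) := by
        have := degree_eq_sum H Z'
        rw [← this]
        have : Divisor.degree Z' ≤ (w : ℤ) := by rw [hwcast]; exact hdegZ'
        exact_mod_cast this
      push_cast at h2
      nlinarith
    -- assemble the logarithmic inequality
    have hleadne : leadAt Q (t Q) h ≠ 0 := leadAt_ne_zero (hres Q) (ht Q) h0
    have hvpos : 0 < v (leadAt Q (t Q) h) := v.pos hleadne
    have hs0 : s ≠ 0 := by
      rintro rfl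
      apply h0
      rw [hh]
      simp
    have hspos : 0 < supNorm v s := (supNorm_pos_iff v s).mpr hs0
    unfold phiAt at hphi
    rw [hpairD] at hphi
    have hlog : Real.log (v (leadAt Q (t Q) h)) ≤
        Real.log (supNorm v s) + Real.log (C₁ v) + (w : ℝ) * Real.log (triC v 2) +
          pairAt v x t W (Finsupp.single Q 1) +
          ∑ j ∈ Finset.univ.filter (· < k), -lamAt v x t (P j) Q := by
      rw [Finset.sum_neg_distrib]
      linarith
    have hexp := Real.exp_le_exp.mpr hlog
    rw [Real.exp_log hvpos, Real.exp_add, Real.exp_add, Real.exp_add, Real.exp_add,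
      Real.exp_log hspos, Real.exp_log hC₁pos, Real.exp_sum] at hexp
    have hpow : Real.exp ((w : ℝ) * Real.log (triC v 2)) = triC v 2 ^ w := by
      rw [mul_comm, Real.exp_mul, Real.exp_log (lt_of_lt_of_le one_pos htri2),
        Real.rpow_natCast]
    rw [hpow] at hexp
    refine hexp.trans (le_of_eq ?_)
    ring
  have hmain := hadamard_functional' (v := v)
    (fun (k : Fin r) (b : Fin r) => jetAt W t P k (ω b)) hC'pos.le
    (fun k => Real.exp (pairAt v x t W (Finsupp.single (P k) 1))) (fun k => (Real.exp_pos _).le)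
    (fun j k => Real.exp (-lamAt v x t (P j) (P k))) (fun j k => (Real.exp_pos _).le) hB id
  unfold jetDet
  refine hmain.trans (le_of_eq ?_)
  ring

/-- **The local jet-Hadamard inequality** for the standing data of the master theorem. -/
theorem jetHadamard {K F : Type} [Field K] [Field F] [Algebra K F]
    [HasCanonicalDivisor (K := K) (F := F)] [IsAlgClosed K] [CharZero K]
    (U : Fermat.Agent.MW.Spec.BricksU7.USetup K F) (hVA : U.VeryAmpleU) (hUD : U.MasterUDU)
    (W : Divisor K F) {r : ℕ} (ω : Fin r → F)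
    (hω : ∀ i, ω i ∈ riemannRochSpace (K := K) (F := F) W) :
    ∃ C : AbsoluteValue K ℝ → ℝ, IsTameConst C ∧ ∀ v : AbsoluteValue K ℝ, IsNiceAbs v →
      ∀ P : Fin r → Place K F,
        v (jetDet W U.t ω P) ≤
          C v * (∏ k, Real.exp (pairAt v U.x U.t W (Finsupp.single (P k) 1))) *
            ∏ k, ∏ j ∈ Finset.univ.filter (· < k), Real.exp (-lamAt v U.x U.t (P j) (P k)) :=
  jetHadamard_raw U.gen U.x U.t U.t_ord hVA.1 hVA.2.1 hUD W ω hω

end Main

end Fermat.Agent.MW.Local.JetHadamard86
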