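/-
Program MW (S17), height part H, complement to brick L2 (helper2):
`bivDim_eq : GenPos2.bivDim K n = n.choose 2` (alternating arrays ≃ functions on pairs `i < j`).
-/
import Mathlib
import Fermat.Agent.MW.Local.GenPos2

set_option autoImplicit false

namespace Fermat.Agent.MW.Local.BivDim2

open Finset Module
open Fermat.Agent.MW.Local.GenPos2

noncomputable section

variable {K : Type*} [Field K] {n : ℕ}

/-- ordered pairs `i < j`. -/
abbrev Pairs (n : ℕ) : Type := {p : Fin n × Fin n // p.1 < p.2}

/-- restriction of an alternating array to the pairs `i < j`, as a linear equivalence. -/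
def altEquiv (K : Type*) [Field K] (n : ℕ) : Alt K n ≃ₗ[K] (Pairs n → K) where
  toFun b := fun p => b.1 p.1
  map_add' b c := rfl
  map_smul' r b := rfl
  invFun c := ⟨fun ij => if h : ij.1 < ij.2 then c ⟨ij, h⟩
      else if h' : ij.2 < ij.1 then -c ⟨(ij.2, ij.1), h'⟩ else 0, by
    refine ⟨fun i => ?_, fun i j => ?_⟩
    · simp
    · rcases lt_trichotomy i j with h | h | h
      · simp [h, not_lt.mpr h.le]
      · simp [h]
      · simp [h, not_lt.mpr h.le]⟩
  left_inv b := by
    apply Subtype.ext
    funext ij
    obtain ⟨i, j⟩ := ij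
    have hb := b.2
    rcases lt_trichotomy i j with h | h | h
    · simp [h]
    · subst h
      simp [hb.1 i]
    · simp only [h, not_lt.mpr h.le, dif_neg, not_false_eq_true, dif_pos]
      rw [hb.2 j i]
  right_inv c := by
    funext p
    obtain ⟨⟨i, j⟩, h⟩ := p
    simp [h]

theorem card_pairs (n : ℕ) : Fintype.card (Pairs n) = n.choose 2 := by
  rw [Fintype.card_subtype]
  have h1 : (univ.filter fun p : Fin n × Fin n => p.1 < p.2).card =
      ∑ j : Fin n, (univ.filter fun i : Fin n => i < j).card := by
    rw [Finset.card_eq_sum_card_fiberwise (f := fun p : Fin n × Fin n => p.2) (t := univ)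
      (fun _ _ => Finset.mem_univ _)]
    refine Finset.sum_congr rfl fun j _ => ?_
    refine Finset.card_bij (fun p _ => p.1) ?_ ?_ ?_
    · intro p hp
      simp only [Finset.mem_filter, Finset.mem_univ, true_and] at hp ⊢
      rw [← hp.2]; exact hp.1
    · intro p hp p' hp' h
      simp only [Finset.mem_filter, Finset.mem_univ, true_and] at hp hp'
      exact Prod.ext h (hp.2.trans hp'.2.symm)
    · intro i hi
      simp only [Finset.mem_filter, Finset.mem_univ, true_and] at hi
      exact ⟨(i, j), by simp [hi], rfl⟩
  rw [h1]
  have h2 : ∀ j : Fin n, (univ.filter fun i : Fin n => i < j).card = (j : ℕ) := by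
    intro j
    have : (univ.filter fun i : Fin n => i < j) = Finset.Iio j := by
      ext i; simp
    rw [this, Fin.card_Iio]
  simp only [h2]
  rw [Fin.sum_univ_eq_sum_range (fun i => i) n, Finset.sum_range_id, Nat.choose_two_right]

/-- the dimension of the space of bivectors of `K^n`. -/
theorem bivDim_eq (K : Type*) [Field K] (n : ℕ) : bivDim K n = n.choose 2 := by
  unfold bivDim
  rw [LinearEquiv.finrank_eq (altEquiv K n), Module.finrank_fintype_fun_eq_card, card_pairs]

end

end Fermat.Agent.MW.Local.BivDim2
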