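/-
Program MW (S17), height part H, brick L3 of plan #590.  helper75.

GAUSS LEMMA FOR BINARY FORMS, at a nonarchimedean place (exact) and at a complex place (up to the
classical Mahler-measure constants).

For `κ : K` and pairs `(lam k, mu k)`, `k < m`, the binary form `κ ∏ (mu_k X - lam_k Y)` is
dehomogenised at `Y = 1`:  `binForm κ lam mu = C κ * ∏ k, (C (mu k) * X - C (lam k))`, a polynomial
of degree `≤ m` (roots at infinity `mu k = 0` allowed).  Its coefficient vector
`coeffVec m (binForm κ lam mu) : Fin (m + 1) → K` satisfies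

* `v` nonarchimedean:  `‖coeff‖_v = v κ * ∏ max (v lam_k) (v mu_k)`  (Gauss lemma);
* `v = ‖e ·‖` for `e : K →+* ℂ`:
  `‖coeff‖_v ≤ C(m, m/2) * (v κ * ∏ max …)` and `v κ * ∏ max … ≤ √(m+1) * ‖coeff‖_v`
  (the middle quantity is the Mahler measure of the image polynomial in `ℂ[X]`).

`gaussBinary` packages both as a two-sided bound with the constant `gaussC v m`
(`= 1` if `v` is nonarchimedean, `2 ^ m` otherwise), for `IsNiceAbs v`.

Mathlib + `MW/Hadamard7` (`supNorm`) + `MW/Spec/Defs7` (`IsNiceAbs`) only.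
-/
import Mathlib
import Fermat.Agent.MW.Spec.Defs7

set_option autoImplicit false

namespace Fermat.Agent.MW.Local.GaussBinary75

open Polynomial
open Fermat.Agent.MW.Hadamard7 Fermat.Agent.MW.Spec.Defs7

noncomputable section

variable {K : Type*} [Field K] (v : AbsoluteValue K ℝ)

/-! ### Definitions -/

/-- The binary form `κ ∏ (mu_k X - lam_k Y)`, dehomogenised at `Y = 1`. -/
def binForm {m : ℕ} (κ : K) (lam mu : Fin m → K) : K[X] :=
  C κ * ∏ k, (C (mu k) * X - C (lam k))

/-- The vector of the first `m + 1` coefficients of a polynomial. -/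
def coeffVec (m : ℕ) (P : K[X]) : Fin (m + 1) → K := fun i => P.coeff i

/-- The Gauss constant: `1` at a nonarchimedean place, `2 ^ m` otherwise. -/
def gaussC (m : ℕ) : ℝ := by
  classical
  exact if IsNonarchimedean v then 1 else 2 ^ m

theorem gaussC_of_nonarch (hv : IsNonarchimedean v) (m : ℕ) : gaussC v m = 1 := by
  classical
  simp [gaussC, hv]

theorem gaussC_of_not_nonarch (hv : ¬ IsNonarchimedean v) (m : ℕ) : gaussC v m = 2 ^ m := by
  classical
  simp [gaussC, hv]

theorem one_le_gaussC (m : ℕ) : 1 ≤ gaussC v m := by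
  classical
  unfold gaussC
  split_ifs
  · exact le_rfl
  · exact one_le_pow₀ (by norm_num)

theorem gaussC_pos (m : ℕ) : 0 < gaussC v m := lt_of_lt_of_le one_pos (one_le_gaussC v m)

/-! ### Degrees -/

theorem natDegree_linear_le (a b : K) : (C a * X - C b).natDegree ≤ 1 := by
  refine (natDegree_sub_le _ _).trans ?_
  rw [natDegree_C, max_le_iff]
  exact ⟨(natDegree_C_mul_le a X).trans natDegree_X_le, Nat.zero_le _⟩

theorem natDegree_binForm_le {m : ℕ} (κ : K) (lam mu : Fin m → K) :
    (binForm κ lam mu).natDegree ≤ m := by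
  have h1 : (binForm κ lam mu).natDegree ≤ (∏ k, (C (mu k) * X - C (lam k))).natDegree :=
    natDegree_C_mul_le κ _
  have h2 : (∏ k, (C (mu k) * X - C (lam k))).natDegree ≤
      ∑ k : Fin m, (C (mu k) * X - C (lam k)).natDegree :=
    natDegree_prod_le Finset.univ fun k => C (mu k) * X - C (lam k)
  have h3 : ∑ k : Fin m, (C (mu k) * X - C (lam k)).natDegree ≤ ∑ _k : Fin m, (1 : ℕ) :=
    Finset.sum_le_sum fun k _ => natDegree_linear_le (mu k) (lam k)
  have h4 : ∑ _k : Fin m, (1 : ℕ) = m := by simp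
  omega

/-! ### The sup norm of the coefficient vector is the Gauss norm at radius `1` -/

theorem supNorm_coeffVec_eq_gaussNorm {m : ℕ} {P : K[X]} (hP : P.natDegree ≤ m) :
    supNorm v (coeffVec m P) = P.gaussNorm v 1 := by
  apply le_antisymm
  · refine supNorm_le v (gaussNorm_nonneg v P zero_le_one) fun i => ?_
    have := le_gaussNorm v P zero_le_one (i : ℕ)
    simpa [coeffVec] using this
  · obtain ⟨i, hi⟩ := exists_eq_gaussNorm v 1 P
    rw [hi, one_pow, mul_one]
    by_cases him : i ≤ m
    · have := le_supNorm v (coeffVec m P) ⟨i, Nat.lt_succ_of_le him⟩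
      simpa [coeffVec] using this
    · rw [coeff_eq_zero_of_natDegree_lt (lt_of_le_of_lt hP (not_le.mp him)), map_zero]
      exact supNorm_nonneg v _

/-! ### The nonarchimedean case -/

section Nonarch

variable {v}

theorem gaussNorm_linear (a b : K) :
    (C a * X - C b).gaussNorm v 1 = max (v b) (v a) := by
  have h0 : (C a * X - C b).coeff 0 = -b := by simp
  have h1 : (C a * X - C b).coeff 1 = a := by simp
  apply le_antisymm
  · obtain ⟨i, hi⟩ := exists_eq_gaussNorm v 1 (C a * X - C b)
    rw [hi, one_pow, mul_one]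
    rcases Nat.lt_or_ge i 2 with h | h
    · interval_cases i
      · rw [h0, v.map_neg]; exact le_max_left _ _
      · rw [h1]; exact le_max_right _ _
    · rw [coeff_eq_zero_of_natDegree_lt (lt_of_le_of_lt (natDegree_linear_le a b) h), map_zero]
      exact le_max_of_le_left (v.nonneg _)
  · apply max_le
    · have := le_gaussNorm v (C a * X - C b) zero_le_one 0
      rwa [h0, v.map_neg, pow_zero, mul_one] at this
    · have := le_gaussNorm v (C a * X - C b) zero_le_one 1
      rwa [h1, pow_one, mul_one] at this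

theorem gaussNorm_prod (hv : IsNonarchimedean v) {ι : Type*} (s : Finset ι) (f : ι → K[X]) :
    (∏ i ∈ s, f i).gaussNorm v 1 = ∏ i ∈ s, (f i).gaussNorm v 1 := by
  classical
  induction s using Finset.induction_on with
  | empty =>
    rw [Finset.prod_empty, Finset.prod_empty, ← C_1, gaussNorm_C, map_one]
  | insert a s ha ih =>
    rw [Finset.prod_insert ha, Finset.prod_insert ha, gaussNorm_mul hv one_pos, ih]

theorem gaussNorm_binForm (hv : IsNonarchimedean v) {m : ℕ} (κ : K) (lam mu : Fin m → K) :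
    (binForm κ lam mu).gaussNorm v 1 = v κ * ∏ k, max (v (lam k)) (v (mu k)) := by
  unfold binForm
  rw [gaussNorm_mul hv one_pos, gaussNorm_C, gaussNorm_prod hv]
  congr 1
  exact Finset.prod_congr rfl fun k _ => gaussNorm_linear _ _

/-- **Gauss lemma for binary forms**, nonarchimedean case: equality. -/
theorem supNorm_binForm_of_nonarch (hv : IsNonarchimedean v) {m : ℕ} (κ : K) (lam mu : Fin m → K) :
    supNorm v (coeffVec m (binForm κ lam mu)) = v κ * ∏ k, max (v (lam k)) (v (mu k)) := by
  rw [supNorm_coeffVec_eq_gaussNorm v (natDegree_binForm_le κ lam mu), gaussNorm_binForm hv]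

end Nonarch

/-! ### The complex case -/

section Cplx

variable {v}

theorem mahlerMeasure_linear (a b : ℂ) : (C a * X - C b).mahlerMeasure = max ‖b‖ ‖a‖ := by
  by_cases ha : a = 0
  · subst ha
    rw [C_0, zero_mul, zero_sub, ← C_neg, mahlerMeasure_const, norm_neg, norm_zero,
      max_eq_left (norm_nonneg b)]
  · rw [sub_eq_add_neg, ← C_neg, mahlerMeasure_C_mul_X_add_C ha, norm_neg, max_comm]

theorem map_binForm (e : K →+* ℂ) {m : ℕ} (κ : K) (lam mu : Fin m → K) :
    (binForm κ lam mu).map e = C (e κ) * ∏ k, (C (e (mu k)) * X - C (e (lam k))) := by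
  unfold binForm
  simp [Polynomial.map_mul, Polynomial.map_prod, Polynomial.map_sub]

theorem mahlerMeasure_finset_prod {ι : Type*} (s : Finset ι) (f : ι → ℂ[X]) :
    (∏ i ∈ s, f i).mahlerMeasure = ∏ i ∈ s, (f i).mahlerMeasure := by
  classical
  induction s using Finset.induction_on with
  | empty => simp
  | insert a s ha ih => rw [Finset.prod_insert ha, Finset.prod_insert ha, mahlerMeasure_mul, ih]

theorem mahlerMeasure_map_binForm (e : K →+* ℂ) (he : ∀ x, v x = ‖e x‖) {m : ℕ} (κ : K)
    (lam mu : Fin m → K) :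
    ((binForm κ lam mu).map e).mahlerMeasure = v κ * ∏ k, max (v (lam k)) (v (mu k)) := by
  rw [map_binForm, mahlerMeasure_mul, mahlerMeasure_const, he, mahlerMeasure_finset_prod]
  congr 1
  refine Finset.prod_congr rfl fun k _ => ?_
  rw [mahlerMeasure_linear, he, he]

theorem natDegree_map_binForm_le (e : K →+* ℂ) {m : ℕ} (κ : K) (lam mu : Fin m → K) :
    ((binForm κ lam mu).map e).natDegree ≤ m :=
  natDegree_map_le.trans (natDegree_binForm_le κ lam mu)

/-- Upper half of the Gauss lemma at a complex place (Mahler measure bounds the coefficients). -/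
theorem supNorm_binForm_le_of_cplx (e : K →+* ℂ) (he : ∀ x, v x = ‖e x‖) {m : ℕ} (κ : K)
    (lam mu : Fin m → K) :
    supNorm v (coeffVec m (binForm κ lam mu)) ≤
      (m.choose (m / 2) : ℝ) * (v κ * ∏ k, max (v (lam k)) (v (mu k))) := by
  set Q := (binForm κ lam mu).map e with hQ
  have hM : Q.mahlerMeasure = v κ * ∏ k, max (v (lam k)) (v (mu k)) :=
    mahlerMeasure_map_binForm e he κ lam mu
  have hM0 : 0 ≤ Q.mahlerMeasure := Q.mahlerMeasure_nonneg
  rw [← hM]
  refine supNorm_le v (mul_nonneg (Nat.cast_nonneg _) hM0) fun i => ?_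
  have h1 : v (coeffVec m (binForm κ lam mu) i) = ‖Q.coeff i‖ := by
    simp [coeffVec, he, hQ, coeff_map]
  rw [h1]
  refine (Q.norm_coeff_le_choose_mul_mahlerMeasure i).trans ?_
  refine mul_le_mul_of_nonneg_right ?_ hM0
  have h2 : Q.natDegree.choose i ≤ m.choose i :=
    Nat.choose_le_choose _ (natDegree_map_binForm_le e κ lam mu)
  exact_mod_cast h2.trans (Nat.choose_le_middle _ _)

/-- Lower half of the Gauss lemma at a complex place (Landau's inequality). -/
theorem le_supNorm_binForm_of_cplx (e : K →+* ℂ) (he : ∀ x, v x = ‖e x‖) {m : ℕ} (κ : K)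
    (lam mu : Fin m → K) :
    v κ * ∏ k, max (v (lam k)) (v (mu k)) ≤
      √((m : ℝ) + 1) * supNorm v (coeffVec m (binForm κ lam mu)) := by
  set Q := (binForm κ lam mu).map e with hQ
  have hM : Q.mahlerMeasure = v κ * ∏ k, max (v (lam k)) (v (mu k)) :=
    mahlerMeasure_map_binForm e he κ lam mu
  have hdeg : Q.natDegree ≤ m := natDegree_map_binForm_le e κ lam mu
  rw [← hM]
  refine (Q.mahlerMeasure_le_sqrt_natDegree_add_one_mul_supNorm).trans ?_
  have hsup : Q.supNorm ≤ supNorm v (coeffVec m (binForm κ lam mu)) := by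
    obtain ⟨i, hi⟩ := Q.exists_eq_supNorm
    rw [hi]
    by_cases him : i ≤ m
    · have := le_supNorm v (coeffVec m (binForm κ lam mu)) ⟨i, Nat.lt_succ_of_le him⟩
      simpa [coeffVec, he, hQ, coeff_map] using this
    · rw [coeff_eq_zero_of_natDegree_lt (lt_of_le_of_lt hdeg (not_le.mp him)), norm_zero]
      exact supNorm_nonneg v _
  have hsqrt : √((Q.natDegree : ℝ) + 1) ≤ √((m : ℝ) + 1) := by
    apply Real.sqrt_le_sqrt
    have : (Q.natDegree : ℝ) ≤ m := by exact_mod_cast hdeg
    linarith
  exact mul_le_mul hsqrt hsup Q.supNorm_nonneg (Real.sqrt_nonneg _)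

end Cplx

/-! ### The packaged two-sided bound -/

theorem choose_middle_le_two_pow (m : ℕ) : (m.choose (m / 2) : ℝ) ≤ 2 ^ m := by
  exact_mod_cast Nat.choose_le_two_pow m (m / 2)

theorem sqrt_succ_le_two_pow (m : ℕ) : √((m : ℝ) + 1) ≤ 2 ^ m := by
  rw [Real.sqrt_le_left (by positivity)]
  have h1 : (m : ℝ) + 1 ≤ 2 ^ m := by exact_mod_cast Nat.lt_two_pow_self
  have h2 : (1 : ℝ) ≤ 2 ^ m := one_le_pow₀ (by norm_num)
  nlinarith

/-- **Gauss lemma for binary forms**: the sup norm of the coefficient vector of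
`κ ∏ (mu_k X - lam_k Y)` equals `v κ * ∏ max (v lam_k) (v mu_k)` up to the factor `gaussC v m`
(`= 1` for nonarchimedean `v`). -/
theorem gaussBinary (hv : IsNiceAbs v) {m : ℕ} (κ : K) (lam mu : Fin m → K) :
    (gaussC v m)⁻¹ * (v κ * ∏ k, max (v (lam k)) (v (mu k))) ≤
        supNorm v (coeffVec m (binForm κ lam mu)) ∧
      supNorm v (coeffVec m (binForm κ lam mu)) ≤
        gaussC v m * (v κ * ∏ k, max (v (lam k)) (v (mu k))) := by
  by_cases hna : IsNonarchimedean v
  · rw [gaussC_of_nonarch v hna, supNorm_binForm_of_nonarch hna]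
    simp
  · rw [gaussC_of_not_nonarch v hna]
    obtain ⟨e, he⟩ : ∃ e : K →+* ℂ, ∀ x, v x = ‖e x‖ := hv.resolve_left hna
    have hM0 : 0 ≤ v κ * ∏ k, max (v (lam k)) (v (mu k)) :=
      mul_nonneg (v.nonneg _) (Finset.prod_nonneg fun k _ => le_max_of_le_left (v.nonneg _))
    constructor
    · rw [inv_mul_le_iff₀ (by positivity)]
      refine (le_supNorm_binForm_of_cplx e he κ lam mu).trans ?_
      exact mul_le_mul_of_nonneg_right (sqrt_succ_le_two_pow m) (supNorm_nonneg v _)
    · refine (supNorm_binForm_le_of_cplx e he κ lam mu).trans ?_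
      exact mul_le_mul_of_nonneg_right (choose_middle_le_two_pow m) hM0

/-- Version for a polynomial known to split as a binary form. -/
theorem gaussBinary_of_eq (hv : IsNiceAbs v) {m : ℕ} {P : K[X]} {κ : K} {lam mu : Fin m → K}
    (hP : P = binForm κ lam mu) :
    (gaussC v m)⁻¹ * (v κ * ∏ k, max (v (lam k)) (v (mu k))) ≤ supNorm v (coeffVec m P) ∧
      supNorm v (coeffVec m P) ≤ gaussC v m * (v κ * ∏ k, max (v (lam k)) (v (mu k))) := by
  subst hP
  exact gaussBinary v hv κ lam mu

/-! ### The affine (monic roots) special case -/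

theorem binForm_one {m : ℕ} (κ : K) (a : Fin m → K) :
    binForm κ a (fun _ => 1) = C κ * ∏ k, (X - C (a k)) := by
  simp [binForm]

/-- Gauss lemma for `κ ∏ (X - a_k)`: the coefficient vector has norm `v κ * ∏ max (v a_k) 1` up to
`gaussC v m`. -/
theorem gaussRoots (hv : IsNiceAbs v) {m : ℕ} (κ : K) (a : Fin m → K) :
    (gaussC v m)⁻¹ * (v κ * ∏ k, max (v (a k)) 1) ≤
        supNorm v (coeffVec m (C κ * ∏ k, (X - C (a k)))) ∧
      supNorm v (coeffVec m (C κ * ∏ k, (X - C (a k)))) ≤
        gaussC v m * (v κ * ∏ k, max (v (a k)) 1) := by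
  have := gaussBinary v hv κ a (fun _ => 1)
  simpa only [binForm_one, map_one] using this

end

end Fermat.Agent.MW.Local.GaussBinary75
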