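/-
Program MW-H (S17), brick [g] HD-local (helper82), part 3: THE LOCAL JET-HADAMARD INEQUALITY WITH
TAME CONSTANTS, for the standing data `USetup`, from the master theorem `U.MasterUDU` and a tame
bound `UDNorm` for the constants `c_v(h)`.
-/
import Mathlib
import Fermat.Agent.MW.Local.JetHadamard82
import Fermat.Agent.MW.Spec.BricksU7
import Fermat.Agent.MW.Master.TameConst7
import Fermat.Agent.MW.FF.VeryAmple49
import Fermat.Agent.X0.FFGenus

set_option autoImplicit false
set_option linter.unusedSectionVars false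

open AlgebraicCurve Finset

namespace Fermat.Agent.MW.Local.JetHadamardMain82

open Fermat.Agent.MW.Hadamard7 Fermat.Agent.MW.Spec.Defs7 Fermat.Agent.MW.Spec.Contract7
open Fermat.Agent.MW.Spec.Bricks7 Fermat.Agent.MW.Spec.BricksU7 Fermat.Agent.MW.Local.Chord2
open Fermat.Agent.MW.FF.EvalLead49 Fermat.Agent.MW.FF.Taylor82
open Fermat.Agent.MW.Local.JetHadamard82 Fermat.Agent.MW.Master.TameConst7
open Fermat.Agent.X0 Fermat.Agent.X0.FF

open scoped Classical

noncomputable section

section PosDeg

variable {K F : Type*} [Field K] [Field F] [Algebra K F]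

/-- a divisor `D` of total multiplicity `0` with `D + W ≥ 0` has `posDeg D ≤ posDeg W`. -/
theorem posDeg_le {D W : Divisor K F} (hZ : 0 ≤ D + W) (hD : cnt D = 0) :
    posDeg D ≤ posDeg W := by
  set S := D.support ∪ W.support with hS
  have e1 : posDeg D = ∑ P ∈ S, max (D P) 0 := by
    unfold posDeg
    exact Finsupp.sum_of_support_subset D Finset.subset_union_left (fun _ a => max a 0)
      fun _ _ => by simp
  have e2 : posDeg W = ∑ P ∈ S, max (W P) 0 := by
    unfold posDeg
    exact Finsupp.sum_of_support_subset W Finset.subset_union_right (fun _ a => max a 0)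
      fun _ _ => by simp
  have e3 : cnt D = ∑ P ∈ S, D P := by
    unfold cnt
    exact Finsupp.sum_of_support_subset D Finset.subset_union_left (fun _ a => a) fun _ _ => rfl
  have e4 : ∑ P ∈ S, max (D P) 0 = ∑ P ∈ S, max (-(D P)) 0 := by
    have : ∑ P ∈ S, (max (D P) 0 - max (-(D P)) 0) = ∑ P ∈ S, D P :=
      Finset.sum_congr rfl fun P _ => by
        rcases le_total (D P) 0 with h | h
        · rw [max_eq_right h, max_eq_left (by omega)]; ring
        · rw [max_eq_left h, max_eq_right (by omega)]; ring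
    rw [Finset.sum_sub_distrib, ← e3, hD] at this
    linarith
  rw [e1, e2, e4]
  refine Finset.sum_le_sum fun P _ => ?_
  have := hZ P
  rw [Finsupp.add_apply] at this
  have h0 : (0 : Divisor K F) P = 0 := rfl
  rw [h0] at this
  exact max_le_max (by omega) le_rfl

end PosDeg

section Main

variable {K F : Type} [Field K] [Field F] [Algebra K F] [HasCanonicalDivisor (K := K) (F := F)]
  [IsAlgClosed K] [CharZero K] (U : USetup K F)

/-- the tame form of the bound `UDNorm` for the constants `c_v(h)`, `h ∈ span ω`. -/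
def TameNorm {ι : Type*} [Fintype ι] (ω : ι → F) : Prop :=
  ∃ Nrm : AbsoluteValue K ℝ → ℝ, IsTameConst Nrm ∧
    ∀ v : AbsoluteValue K ℝ, IsNiceAbs v → UDNorm v U.x U.t ω (Nrm v)

include U in
theorem exists_div (f : F) (hf : f ≠ 0) : ∃ D : Divisor K F, IsDivOf D f ∧ cnt D = 0 := by
  obtain ⟨D, hD, hD0⟩ := (FFGenus.hasPrincipalDivisors U.gen).exists_divisor f hf
  refine ⟨D, hD, ?_⟩
  rw [ffq_degree_eq_sum (FFGenus.ff1Data U.gen) D] at hD0
  exact hD0

/-- **The local jet-Hadamard inequality with tame constants**, from the master theorem and the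
tame bound for the constants `c_v(h)`. -/
theorem jetHadamard_of_tameNorm (hUD : U.MasterUDU) (W : Divisor K F) {ι : Type*} [Fintype ι]
    [DecidableEq ι] (ω : ι → F) (hω : ∀ b, ω b ∈ riemannRochSpace (K := K) (F := F) W)
    (hN : TameNorm U ω) (r : ℕ) :
    ∃ C : AbsoluteValue K ℝ → ℝ, IsTameConst C ∧ ∀ v : AbsoluteValue K ℝ, IsNiceAbs v →
      ∀ (pt : Fin r → Place K F) (a : Fin r → ι),
        v (Matrix.det (Matrix.of fun i k => jetFun U.t W ω pt k (a i))) ≤
          C v * ((∏ k, Real.exp (pairAt v U.x U.t W (Finsupp.single (pt k) 1))) *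
            ∏ k, ∏ j ∈ univ.filter (· < k), Real.exp (-(lamAt v U.x U.t (pt j) (pt k)))) := by
  obtain ⟨Cud, hCud, hUDv⟩ := hUD (posDeg W)
  obtain ⟨Nrm, hNrm, hnorm⟩ := hN
  set w : ℕ := (cnt W).toNat with hw
  refine ⟨fun v => (Cud v * Nrm v * triC v 2 ^ w) ^ r,
    tame_pow (tame_mul (tame_mul hCud hNrm) (tame_pow (isTameConst_triC (by norm_num)) w)) r,
    fun v hv pt a => ?_⟩
  refine jetHadamard_of_udNorm U.t_ord (fun P => Fermat.Agent.MW.FF.VeryAmple49.hasResK U.gen P) hω
    (exists_div U) (hUDv v hv) (tame_one_le hCud v) ?_ (tame_pos hNrm v) (hnorm v hv)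
    (Int.self_le_toNat _) pt a
  intro s D hh hD
  obtain ⟨D', hD', hD'0⟩ := exists_div U _ hh
  have hDD' : D = D' := Finsupp.ext fun P => by rw [hD P, hD' P]
  refine posDeg_le (fun P => ?_) (hDD' ▸ hD'0)
  have hmem : (∑ b, s b • ω b) ∈ riemannRochSpace (K := K) (F := F) W :=
    Submodule.sum_mem _ fun b _ => Submodule.smul_mem _ _ (hω b)
  rw [Finsupp.add_apply, hD P]
  rcases (mem_riemannRochSpace_iff.mp hmem) P with h | h
  · exact absurd h hh
  · show (0 : ℤ) ≤ _
    linarith

end Main

end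

end Fermat.Agent.MW.Local.JetHadamardMain82
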